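import Fermat.Agent.TwoAdic.Selmer.Hilbert
import Fermat.Agent.Semistable.ValBase
import Fermat.Agent.OrdinaryAtP.Fixed
import Mathlib.FieldTheory.Finite.Basic

/-!
# Approximate square roots and norms at a place

Square roots by Newton's iteration inside a number field, the resulting criterion for being a
local norm, and lifts of residues into an intermediate field.
-/

set_option autoImplicit false
set_option linter.style.haveILetI false

noncomputable section

namespace Fermat.Agent.TwoAdic.Selmer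

open Polynomial
open Arith (QBar GQ)

variable {ℓ : ℕ} {A : ValuationSubring QBar}

theorem eq_zero_of_forall_valuation_le (hA : A.LiesOverPrime ℓ) (hℓ : ℓ.Prime) {x : QBar}
    (h : ∀ n : ℕ, A.valuation x ≤ A.valuation ((ℓ : QBar) ^ n)) : x = 0 := by
  by_contra hx
  obtain ⟨n, hn⟩ := Semistable.exists_pow_valuation_lt hA hℓ hA hx
  exact absurd (h n) (not_le.mpr hn)

theorem valuation_four_pos : 0 < A.valuation (4 : QBar) :=
  zero_lt_iff.mpr ((Valuation.ne_zero_iff _).mpr (by norm_num))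

theorem valuation_two_le_one : A.valuation (2 : QBar) ≤ 1 :=
  (A.valuation_le_one_iff _).mpr (ofNat_mem A 2)

theorem valuation_four_le_one : A.valuation (4 : QBar) ≤ 1 :=
  (A.valuation_le_one_iff _).mpr (ofNat_mem A 4)

variable {F : IntermediateField ℚ QBar}

/-- An element close to one is, up to any precision, a square of the field. -/
theorem sq_approx (hA : A.LiesOverPrime ℓ) (hℓ : ℓ.Prime) {u : QBar} (hu : u ∈ F)
    (h : A.valuation (u - 1) < A.valuation (4 : QBar)) {ε : QBar} (hε : ε ≠ 0) :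
    ∃ c ∈ F, A.valuation (u - c ^ 2) ≤ A.valuation ε := by
  set δ := (u - 1) / 4 with hδ
  have h4 : (u - 1) = 4 * δ := by rw [hδ]; ring
  have hδ1 : A.valuation δ < 1 := by
    rw [hδ, map_div₀, div_lt_one₀ valuation_four_pos]
    exact h
  have key : ∀ k : ℕ, ∃ c ∈ F, A.valuation c = 1 ∧
      A.valuation (u - c ^ 2) ≤ A.valuation (4 * δ ^ (k + 1)) := by
    intro k
    induction k with
    | zero => exact ⟨1, one_mem F, map_one _, by rw [one_pow, h4, pow_one]⟩
    | succ k ih =>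
      obtain ⟨c, hcF, hc1, hc⟩ := ih
      have hc0 : c ≠ 0 := fun h0 => by rw [h0, map_zero] at hc1; exact zero_ne_one hc1
      set t := (u - c ^ 2) / (2 * c) with ht
      have htF : t ∈ F := div_mem (sub_mem hu (pow_mem hcF 2)) (mul_mem (ofNat_mem F 2) hcF)
      have htv : A.valuation t ≤ A.valuation (2 * δ ^ (k + 1)) := by
        rw [ht, map_div₀, map_mul, hc1, mul_one,
          div_le_iff₀ (zero_lt_iff.mpr ((Valuation.ne_zero_iff _).mpr two_ne_zero)), ← map_mul]
        refine hc.trans (le_of_eq (congrArg _ ?_))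
        ring
      have hpow : A.valuation (δ ^ (k + 1)) < 1 := by
        rw [map_pow]; exact pow_lt_one' hδ1 k.succ_ne_zero
      have htlt : A.valuation t < 1 := by
        refine htv.trans_lt ?_
        rw [map_mul]
        exact (mul_le_mul_left valuation_two_le_one _).trans_lt (by rwa [one_mul])
      refine ⟨c + t, add_mem hcF htF, ?_, ?_⟩
      · rw [Valuation.map_add_eq_of_lt_left _ (by rwa [hc1]), hc1]
      · have e : u - (c + t) ^ 2 = -t ^ 2 := by rw [ht]; field_simp; ring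
        rw [e, Valuation.map_neg, map_pow]
        calc A.valuation t ^ 2 ≤ A.valuation (2 * δ ^ (k + 1)) ^ 2 := pow_le_pow_left' htv 2
          _ = A.valuation (4 * δ ^ (k + 1 + 1)) * A.valuation (δ ^ k) := by
            rw [← map_pow, ← map_mul]; congr 1; ring
          _ ≤ A.valuation (4 * δ ^ (k + 1 + 1)) * 1 := by
            refine mul_le_mul_right ?_ _
            rw [map_pow]; exact pow_le_one' hδ1.le k
          _ = _ := mul_one _
  obtain ⟨n, hn⟩ := Semistable.exists_pow_valuation_lt hA hℓ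
    ((ValuationSubring.mem_nonunits_iff A).mpr hδ1) hε
  obtain ⟨c, hcF, -, hc⟩ := key n
  refine ⟨c, hcF, hc.trans (le_trans ?_ hn.le)⟩
  rw [map_mul, map_pow, map_pow, pow_succ]
  calc A.valuation (4 : QBar) * (A.valuation δ ^ n * A.valuation δ)
      ≤ 1 * (A.valuation δ ^ n * 1) :=
        mul_le_mul' valuation_four_le_one (mul_le_mul_right hδ1.le _)
    _ = _ := by rw [one_mul, mul_one]

/-- A congruence modulo more than `4α` gives a local norm. -/
theorem norm_of_congr (hA : A.LiesOverPrime ℓ) (hℓ : ℓ.Prime) {α β a b : QBar} (hα : α ∈ F)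
    (hβ : β ∈ F) (ha : a ∈ F) (hb : b ∈ F)
    (h : A.valuation (α - (a ^ 2 - β * b ^ 2)) < A.valuation (4 * α)) :
    IsNormAt F β α A := by
  set N := a ^ 2 - β * b ^ 2 with hN
  have hlt : A.valuation (α - N) < A.valuation α := by
    refine h.trans_le ?_
    rw [map_mul]
    exact (mul_le_mul_left valuation_four_le_one _).trans (one_mul _).le
  have hNv : A.valuation N = A.valuation α := by
    conv_lhs => rw [show N = α + -(α - N) by ring]
    exact Valuation.map_add_eq_of_lt_left _ (by rwa [Valuation.map_neg])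
  have hα0 : α ≠ 0 := fun h0 => not_lt_zero' (by rw [h0, map_zero] at hlt; exact hlt)
  have hN0 : N ≠ 0 := fun h0 => (Valuation.ne_zero_iff _).mpr hα0 (by rw [← hNv, h0, map_zero])
  have hu : A.valuation (α / N - 1) < A.valuation (4 : QBar) := by
    rw [div_sub_one hN0, map_div₀, hNv,
      div_lt_iff₀ (zero_lt_iff.mpr ((Valuation.ne_zero_iff _).mpr hα0)), ← map_mul]
    exact h
  intro ε hε
  have hNF : N ∈ F := sub_mem (pow_mem ha 2) (mul_mem hβ (pow_mem hb 2))
  obtain ⟨c, hc, hcv⟩ := sq_approx hA hℓ (div_mem hα hNF) hu (div_ne_zero hε hN0)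
  refine ⟨c * a, c * b, mul_mem hc ha, mul_mem hc hb, ?_⟩
  have e : α - ((c * a) ^ 2 - β * (c * b) ^ 2) = N * (α / N - c ^ 2) := by
    rw [mul_sub, mul_div_cancel₀ _ hN0, hN]; ring
  rw [e, map_mul]
  calc A.valuation N * A.valuation (α / N - c ^ 2) ≤ A.valuation N * A.valuation (ε / N) :=
        mul_le_mul_right hcv _
    _ = A.valuation ε := by rw [← map_mul, mul_div_cancel₀ _ hN0]

theorem IsNormAt.mul_sq {α β c : QBar} (h : IsNormAt F β α A) (hc : c ∈ F) (hc0 : c ≠ 0) :
    IsNormAt F β (α * c ^ 2) A := by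
  intro ε hε
  obtain ⟨a, b, ha, hb, hv⟩ := h (ε / c ^ 2) (div_ne_zero hε (pow_ne_zero 2 hc0))
  refine ⟨a * c, b * c, mul_mem ha hc, mul_mem hb hc, ?_⟩
  rw [show α * c ^ 2 - ((a * c) ^ 2 - β * (b * c) ^ 2) = (α - (a ^ 2 - β * b ^ 2)) * c ^ 2 by ring,
    map_mul]
  refine (mul_le_mul_left hv _).trans (le_of_eq ?_)
  rw [← map_mul, div_mul_cancel₀ _ (pow_ne_zero 2 hc0)]

theorem IsNormAt.mul_sq_left {α β c : QBar} (h : IsNormAt F β α A) (hc : c ∈ F) (hc0 : c ≠ 0) :
    IsNormAt F (β * c ^ 2) α A := by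
  intro ε hε
  obtain ⟨a, b, ha, hb, hv⟩ := h ε hε
  refine ⟨a, b / c, ha, div_mem hb hc, ?_⟩
  rwa [show β * c ^ 2 * (b / c) ^ 2 = β * b ^ 2 by field_simp]

/-- If `β` is a square of the field every element is a norm. -/
theorem isNormAt_of_sq {α s : QBar} (hα : α ∈ F) (hs : s ∈ F) (hs0 : s ≠ 0) :
    IsNormAt F (s ^ 2) α A := fun ε _ => by
  refine ⟨(α + 1) / 2, (α - 1) / (2 * s), div_mem (add_mem hα (one_mem F)) (ofNat_mem F 2),
    div_mem (sub_mem hα (one_mem F)) (mul_mem (ofNat_mem F 2) hs), ?_⟩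
  rw [show α - (((α + 1) / 2) ^ 2 - s ^ 2 * ((α - 1) / (2 * s)) ^ 2) = 0 by field_simp; ring,
    map_zero]
  exact zero_le

/-! ### Fixed elements -/

theorem valuation_eq_zpow_of_fixed (hA : A.LiesOverPrime ℓ) (hℓ : ℓ.Prime) {x : QBar} (hx : x ≠ 0)
    (hfix : ∀ τ ∈ A.inertiaSubgroupIn ℚ, τ x = x) :
    ∃ k : ℤ, A.valuation x = A.valuation (ℓ : QBar) ^ k := by
  obtain ⟨k, u, hu⟩ := OrdinaryAtP.exists_zpow_mul_unit hA hℓ hx hfix
  refine ⟨k, ?_⟩
  have hu1 : A.valuation ((u : OrdinaryAtP.fixRing A) : QBar) = 1 :=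
    Semistable.valuation_eq_one (u : OrdinaryAtP.fixRing A).2.1 fun h =>
      (u.isUnit.map (OrdinaryAtP.resW A)).ne_zero (OrdinaryAtP.resW_eq_zero_iff.mpr h)
  rw [hu, map_mul, map_zpow₀, hu1, mul_one]

theorem exists_unit_of_fixed (hA : A.LiesOverPrime ℓ) (hℓ : ℓ.Prime) {z : QBar} (hz : z ≠ 0)
    (hfix : ∀ τ ∈ A.inertiaSubgroupIn ℚ, τ z = z) :
    ∃ k : ℤ, A.valuation (z / (ℓ : QBar) ^ k) = 1 := by
  obtain ⟨k, hk⟩ := valuation_eq_zpow_of_fixed hA hℓ hz hfix
  refine ⟨k, ?_⟩
  rw [map_div₀, map_zpow₀, hk, div_self]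
  exact zpow_ne_zero _ ((Valuation.ne_zero_iff _).mpr (Nat.cast_ne_zero.mpr hℓ.ne_zero))

theorem valuation_le_of_fixed (hA : A.LiesOverPrime ℓ) (hℓ : ℓ.Prime) {x : QBar}
    (hx : x ∈ A.nonunits) (hfix : ∀ τ ∈ A.inertiaSubgroupIn ℚ, τ x = x) :
    A.valuation x ≤ A.valuation (ℓ : QBar) := by
  let w : OrdinaryAtP.fixRing A := ⟨x, Arith.mem_of_mem_nonunits hx, hfix⟩
  obtain ⟨y, hy⟩ := OrdinaryAtP.natCast_dvd_of_resW_eq_zero hA hℓ (w := w)
    (OrdinaryAtP.resW_eq_zero_iff.mpr hx)
  have e : x = (ℓ : QBar) * (y : QBar) := by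
    have := congrArg (fun t : OrdinaryAtP.fixRing A => (t : QBar)) hy
    simpa [w] using this
  rw [e, map_mul]
  exact mul_le_of_le_one_right' ((A.valuation_le_one_iff _).mpr y.2.1)

/-- At an odd place square roots of units are fixed by inertia. -/
theorem apply_sqrt_of_unit (hA : A.LiesOverPrime ℓ) (hℓ : ℓ.Prime) (hℓ2 : ℓ ≠ 2) {z : QBar}
    (hz : A.valuation (z ^ 2) = 1) {τ : GQ} (hτ : τ ∈ A.inertiaSubgroupIn ℚ)
    (hfix : τ (z ^ 2) = z ^ 2) : τ z = z := by
  rw [map_pow] at hfix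
  rcases sq_eq_sq_iff_eq_or_eq_neg.mp hfix with h | h
  · exact h
  have hz1 : A.valuation z = 1 := by
    rw [map_pow] at hz
    exact (pow_eq_one_iff.mp hz).resolve_right two_ne_zero
  have hn := (Arith.mem_inertia_iff_forall_mem.mp hτ).2 z ((A.valuation_le_one_iff _).mp hz1.le)
  rw [h, show -z - z = (-(2 : ℤ) : ℤ) * z by push_cast; ring, ValuationSubring.mem_nonunits_iff,
    map_mul, hz1, mul_one, ← ValuationSubring.mem_nonunits_iff,
    Arith.intCast_mem_nonunits_iff hA hℓ, Int.dvd_neg] at hn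
  exact absurd ((Nat.prime_dvd_prime_iff_eq hℓ Nat.prime_two).mp (by exact_mod_cast hn)) hℓ2

/-! ### Residues -/

theorem mem_image_of_pow_eq {κ : Type*} [Field κ] {N : ℕ} (hN : 1 < N) {S : Finset κ}
    (hS : ∀ y ∈ S, y ^ N = y) (hcard : N ≤ S.card) {z : κ} (hz : z ^ N = z) : z ∈ S := by
  classical
  set P : κ[X] := X ^ N - X with hP
  have hP0 : P ≠ 0 := FiniteField.X_pow_card_sub_X_ne_zero κ hN
  have hle : insert z S ⊆ P.roots.toFinset := fun y hy => by
    rw [Multiset.mem_toFinset, mem_roots hP0, IsRoot, hP, eval_sub, eval_pow, eval_X, sub_eq_zero]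
    rcases Finset.mem_insert.mp hy with rfl | hy
    · exact hz
    · exact hS y hy
  have h1 := (Finset.card_le_card hle).trans
    ((Multiset.toFinset_card_le _).trans (card_roots' P))
  rw [hP, FiniteField.X_pow_card_sub_X_natDegree_eq κ hN] at h1
  by_contra hzS
  rw [Finset.card_insert_of_notMem hzS] at h1
  omega

variable (F A) in
/-- The elements of the field integral at the place. -/
def intPart : Subring QBar := F.toSubalgebra.toSubring ⊓ A.toSubring

theorem mem_intPart {x : QBar} : x ∈ intPart A F ↔ x ∈ F ∧ x ∈ A := Iff.rfl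

variable (F A) in
/-- Reduction on the field. -/
def resPart : intPart A F →+* IsLocalRing.ResidueField A :=
  (IsLocalRing.residue A).comp
    ((Subring.inclusion (inf_le_right : intPart A F ≤ A.toSubring) :))

theorem resPart_eq_iff {x : intPart A F} {z : QBar} (hz : z ∈ A) :
    resPart A F x = IsLocalRing.residue A ⟨z, hz⟩ ↔ (x : QBar) - z ∈ A.nonunits :=
  Arith.residue_eq_iff

/-- A finite subring of residues of the field containing two given ones. -/
theorem exists_finite_residues (hA : A.LiesOverPrime ℓ) (hℓ : ℓ.Prime) (x y : intPart A F) :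
    ∃ K : Subring (IsLocalRing.ResidueField A), Finite K ∧ resPart A F x ∈ K ∧ resPart A F y ∈ K ∧
      K ≤ (resPart A F).range := by
  haveI := Arith.residueField_charP hA hℓ
  haveI := Fact.mk hℓ
  letI := ZMod.algebra (IsLocalRing.ResidueField A) ℓ
  have hint : ∀ z : IsLocalRing.ResidueField A, IsIntegral (ZMod ℓ) z := fun z => by
    obtain ⟨n, hn, hz⟩ := OrdinaryAtP.exists_frobenius_period hA hℓ z
    have h1 : 1 < ℓ ^ n := Nat.one_lt_pow hn.ne' hℓ.one_lt
    refine ⟨X ^ ℓ ^ n - X, monic_X_pow_sub (by rw [degree_X]; exact_mod_cast h1), ?_⟩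
    simp [hz]
  let K := Algebra.adjoin (ZMod ℓ)
    ({resPart A F x, resPart A F y} : Set (IsLocalRing.ResidueField A))
  haveI : Module.Finite (ZMod ℓ) K := Module.Finite.iff_fg.mpr
    (fg_adjoin_of_finite (Set.toFinite _) fun z _ => hint z)
  refine ⟨K.toSubring, Module.finite_of_finite (ZMod ℓ) (M := K),
    Algebra.subset_adjoin (by simp), Algebra.subset_adjoin (by simp), ?_⟩
  intro z hz
  refine Algebra.adjoin_induction (fun w hw => ?_) (fun r => ?_) (fun _ _ _ _ => add_mem)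
    (fun _ _ _ _ => mul_mem) hz
  · rcases hw with rfl | rfl
    exacts [⟨x, rfl⟩, ⟨y, rfl⟩]
  · obtain ⟨m, rfl⟩ := ZMod.intCast_surjective r
    rw [map_intCast]
    exact intCast_mem _ m

end Fermat.Agent.TwoAdic.Selmer
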