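import Fermat.Agent.TwoAdic.Selmer.GroupLemma
import Fermat.Agent.TwoAdic.Dihedral.Shape

/-!
# The plane and the matrices of the complement

`E[2]` as the plane `𝔽₂²` and as the set `{0, transpositions}` with conjugation: a vector goes to
the transposition fixing it. Cocycles, lines and coboundaries correspond.
-/

set_option autoImplicit false

namespace Fermat.Agent.TwoAdic.Selmer

open Matrix
open Dihedral (M2 IsV vMat)

/-- The transposition fixing a vector, zero at zero. -/
def matOfPlane (P : Plane) : M2 (ZMod 2) := vMat (P 0 + P 1) (P 1)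

/-- The inverse of `matOfPlane` on the complement. -/
def planeOfMat (v : M2 (ZMod 2)) : Plane := ![v 0 0 + v 1 0, v 1 0]

theorem isV_matOfPlane (P : Plane) : IsV (matOfPlane P) := Dihedral.isV_vMat _ _

theorem planeOfMat_matOfPlane (P : Plane) : planeOfMat (matOfPlane P) = P := by
  funext i
  fin_cases i <;> simp [planeOfMat, matOfPlane, vMat]
  rw [add_assoc, CharTwo.add_self_eq_zero, add_zero]

theorem matOfPlane_planeOfMat {v : M2 (ZMod 2)} (hv : IsV v) : matOfPlane (planeOfMat v) = v := by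
  conv_rhs => rw [hv.eq_vMat]
  rw [matOfPlane, planeOfMat]
  simp only [Matrix.cons_val_zero, Matrix.cons_val_one, Matrix.cons_val_fin_one]
  rw [add_assoc, CharTwo.add_self_eq_zero, add_zero]

theorem matOfPlane_add (P P' : Plane) : matOfPlane (P + P') = matOfPlane P + matOfPlane P' := by
  ext i j
  fin_cases i <;> fin_cases j <;> simp [matOfPlane, vMat] <;> abel

theorem matOfPlane_injective : Function.Injective matOfPlane := fun P P' h => by
  rw [← planeOfMat_matOfPlane P, h, planeOfMat_matOfPlane]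

theorem mul_matOfPlane (X : M2 (ZMod 2)) (hX : X.det = 1) (P : Plane) :
    X * matOfPlane P = matOfPlane (X *ᵥ P) * X := by
  have key : ∀ a b c d p q : ZMod 2, a * d - b * c = 1 →
      (!![a, b; c, d] : M2 (ZMod 2)) * vMat (p + q) q =
        vMat (a * p + b * q + (c * p + d * q)) (c * p + d * q) * !![a, b; c, d] := by decide
  rw [Matrix.det_fin_two] at hX
  rw [mulVec_two, matOfPlane, matOfPlane, Matrix.eta_fin_two X]
  exact key _ _ _ _ _ _ hX

variable {G : Type*} [Group G] {r : G →* M2 (ZMod 2)}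

theorem det_residual (g : G) : (r g).det = 1 := by
  have h := congrArg Matrix.det (show r g * r g⁻¹ = 1 by rw [← map_mul, mul_inv_cancel, map_one])
  rw [Matrix.det_mul, Matrix.det_one] at h
  exact (zmod_two_cases _).resolve_left fun h0 => by rw [h0, zero_mul] at h; exact zero_ne_one h

theorem matOfPlane_conj (g : G) (P : Plane) :
    r g * matOfPlane P * r g⁻¹ = matOfPlane (r g *ᵥ P) := by
  rw [mul_matOfPlane _ (det_residual g), mul_assoc, ← map_mul, mul_inv_cancel, map_one, mul_one]

theorem isPlaneCocycle_planeOfMat {v : G → M2 (ZMod 2)} (hV : ∀ g, IsV (v g))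
    (hc : ∀ g h, v (g * h) = r g * v h * r g⁻¹ + v g) :
    IsPlaneCocycle r fun g => planeOfMat (v g) := fun g h => matOfPlane_injective (by
  rw [matOfPlane_add, matOfPlane_planeOfMat (hV _), matOfPlane_planeOfMat (hV _), ← matOfPlane_conj,
    matOfPlane_planeOfMat (hV _), hc, add_comm])

/-- The line of a transposition. -/
theorem mulVec_eq_self_iff {t : G} (ht : IsV (r t)) {v : M2 (ZMod 2)} (hv : IsV v) :
    r t *ᵥ planeOfMat v = planeOfMat v ↔ v = 0 ∨ v = r t := by
  have key : ∀ a c p q : ZMod 2, (vMat a c : M2 (ZMod 2)).det = 1 →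
      ((a * (p + q) + (a + c) * q = p + q ∧ c * (p + q) + a * q = q) ↔
        ((vMat p q : M2 (ZMod 2)) = 0 ∨ (vMat p q : M2 (ZMod 2)) = vMat a c)) := by
    simp only [Matrix.det_fin_two, vMat]
    decide
  have hd := det_residual (r := r) t
  rw [ht.eq_vMat] at hd ⊢
  conv_rhs => rw [hv.eq_vMat]
  rw [← key _ _ _ _ hd, mulVec_two]
  refine ⟨fun h => ⟨?_, ?_⟩, fun h => funext fun i => ?_⟩
  · simpa [planeOfMat, vMat] using congrFun h 0
  · simpa [planeOfMat, vMat] using congrFun h 1
  · fin_cases i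
    · simpa [planeOfMat, vMat] using h.1
    · simpa [planeOfMat, vMat] using h.2

theorem not_isPlaneCoboundary_planeOfMat {v : G → M2 (ZMod 2)} (hV : ∀ g, IsV (v g))
    (h : ¬ ∃ Y : M2 (ZMod 2), IsV Y ∧ ∀ g, v g = r g * Y * r g⁻¹ + Y) :
    ¬ IsPlaneCoboundary r fun g => planeOfMat (v g) := fun ⟨Y, hY⟩ =>
  h ⟨matOfPlane Y, isV_matOfPlane Y, fun g => by
    rw [matOfPlane_conj, ← matOfPlane_add, ← hY g, matOfPlane_planeOfMat (hV g)]⟩

end Fermat.Agent.TwoAdic.Selmer
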