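import Fermat.Agent.TwoAdic.Selmer.PlaneMat
import Fermat.Agent.Arith.Chebotarev.Main

/-!
# Lemma A of the Selmer step: detecting a class at a prime

A non-zero class with values in the residual plane, fixed at a transvection, takes every value at
Frobenius elements with prescribed image modulo `2^n`, outside any finite set of primes.
-/

set_option autoImplicit false

noncomputable section

namespace Fermat.Agent.TwoAdic.Selmer

open Matrix
open Dihedral (M2 IsV vMat)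
open Fermat.Agent.Arith

variable {n : ℕ} (hn : n ≠ 0) {rho : GQ →* M2 (ZMod (2 ^ n))} {r : GQ →* M2 (ZMod 2)}

/-- **Lemma A.** Every value at a Frobenius with prescribed image, outside a finite set. -/
theorem exists_frobenius_value (hr : ∀ g, (rho g).map (res hn) = r g) (hfull : ResidualFull r)
    {t : GQ} (ht : IsTransvection rho r t) {f : GQ → Plane} (hf : IsPlaneCocycle r f)
    (hline : r t *ᵥ f t = f t) (hne : ¬ IsPlaneCoboundary r f)
    (L : IntermediateField ℚ QBar) [FiniteDimensional ℚ L]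
    (hL : ∀ σ : GQ, (∀ x ∈ L, σ x = x) → rho σ = 1 ∧ f σ = 0)
    (g : GQ) (v : Plane) (S : Finset ℕ) :
    ∃ q : ℕ, q.Prime ∧ q ∉ S ∧ ∃ A : ValuationSubring QBar, A.LiesOverPrime q ∧
      ∃ σ : GQ, A.IsFrobeniusAt σ q ∧ rho σ = rho g ∧ f σ = v := by
  obtain ⟨k, hk, hkv⟩ := exists_ker_value hn hr hfull ht hf hline hne (v + f g)
  let L' : IntermediateField ℚ QBar := IntermediateField.normalClosure ℚ L QBar
  haveI : Normal ℚ L' := normalClosure.normal ℚ L QBar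
  haveI : IsGalois ℚ L' := ⟨⟩
  obtain ⟨q, hq, hqS, A, hA, σ, hσ, heq⟩ := Chebotarev.exists_frobenius_restrict_eq L' (k * g) S
  refine ⟨q, hq, hqS, A, hA, σ, hσ, ?_⟩
  have hfix : ∀ x ∈ L, ((k * g)⁻¹ * σ) x = x := fun x hx => by
    have h2 : σ x = (k * g) x := by
      have := congrArg (fun τ : L' ≃ₐ[ℚ] L' => ((τ ⟨x, L.le_normalClosure hx⟩ : L') : QBar)) heq
      exact ((σ.restrictNormal_commutes L' ⟨x, L.le_normalClosure hx⟩).symm.trans this).trans
        ((k * g).restrictNormal_commutes L' ⟨x, L.le_normalClosure hx⟩)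
    rw [AlgEquiv.mul_apply, h2, ← AlgEquiv.mul_apply, inv_mul_cancel, AlgEquiv.one_apply]
  obtain ⟨h1, h2⟩ := hL _ hfix
  have hσe : σ = k * g * ((k * g)⁻¹ * σ) := by rw [mul_inv_cancel_left]
  refine ⟨?_, ?_⟩
  · rw [hσe, map_mul, map_mul, hk, h1, one_mul, mul_one]
  · have hrk : r k = 1 := by rw [← hr, hk]; exact Matrix.map_one _ (map_zero _) (map_one _)
    rw [hσe, hf, h2, Matrix.mulVec_zero, add_zero, hf, hkv, hrk, Matrix.one_mulVec, add_assoc,
      plane_add_self, add_zero]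

/-- The auxiliary prime: Frobenius is `!![a, 1; 0, 1]` and the value is off its line. -/
theorem exists_auxiliary_prime (hr : ∀ g, (rho g).map (res hn) = r g) (hfull : ResidualFull r)
    {t : GQ} (ht : IsTransvection rho r t) {f : GQ → Plane} (hf : IsPlaneCocycle r f)
    (hline : r t *ᵥ f t = f t) (hne : ¬ IsPlaneCoboundary r f)
    (L : IntermediateField ℚ QBar) [FiniteDimensional ℚ L]
    (hL : ∀ σ : GQ, (∀ x ∈ L, σ x = x) → rho σ = 1 ∧ f σ = 0)
    (a : ZMod (2 ^ n)) {d : GQ} (hd : (rho d).det = a) (S : Finset ℕ) :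
    ∃ q : ℕ, q.Prime ∧ q ∉ S ∧ ∃ A : ValuationSubring QBar, A.LiesOverPrime q ∧
      ∃ σ : GQ, A.IsFrobeniusAt σ q ∧ rho σ = !![a, 1; 0, 1] ∧ r σ = !![1, 1; 0, 1] ∧
        r σ *ᵥ f σ ≠ f σ := by
  obtain ⟨g, hg⟩ := exists_rho_eq hn hr hfull ht (X := !![a, 1; 0, 1]) (d := d)
    (by rw [hd, Matrix.det_fin_two_of]; ring)
  have ha : res hn a = 1 := by
    rw [← isUnit_iff_res hn, ← hd]
    exact (Matrix.isUnit_iff_isUnit_det _).mp
      (IsUnit.of_mul_eq_one _ (show rho d * rho d⁻¹ = 1 by rw [← map_mul, mul_inv_cancel, map_one]))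
  obtain ⟨q, hq, hqS, A, hA, σ, hσ, h1, h2⟩ :=
    exists_frobenius_value hn hr hfull ht hf hline hne L hL g ![0, 1] S
  rw [hg] at h1
  have h3 : r σ = !![1, 1; 0, 1] := by
    rw [← hr, h1]
    ext i j
    fin_cases i <;> fin_cases j <;> simp [ha]
  refine ⟨q, hq, hqS, A, hA, σ, hσ, h1, h3, ?_⟩
  rw [h2, h3, show (!![1, 1; 0, 1] : M2 (ZMod 2)) = eUp 1 from rfl, eUp_mulVec]
  intro h
  simpa using congrFun h 0

/-- Lemma A for cocycles with values in the complement, as in the dihedral lemma. -/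
theorem exists_auxiliary_prime_mat (hr : ∀ g, (rho g).map (res hn) = r g) (hfull : ResidualFull r)
    {t : GQ} (ht : IsTransvection rho r t) (htV : IsV (r t)) {v : GQ → M2 (ZMod 2)}
    (hV : ∀ g, IsV (v g)) (hc : ∀ g h, v (g * h) = r g * v h * r g⁻¹ + v g)
    (hline : v t = 0 ∨ v t = r t)
    (hne : ¬ ∃ Y : M2 (ZMod 2), IsV Y ∧ ∀ g, v g = r g * Y * r g⁻¹ + Y)
    (L : IntermediateField ℚ QBar) [FiniteDimensional ℚ L]
    (hL : ∀ σ : GQ, (∀ x ∈ L, σ x = x) → rho σ = 1 ∧ v σ = 0)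
    (a : ZMod (2 ^ n)) {d : GQ} (hd : (rho d).det = a) (S : Finset ℕ) :
    ∃ q : ℕ, q.Prime ∧ q ∉ S ∧ ∃ A : ValuationSubring QBar, A.LiesOverPrime q ∧
      ∃ σ : GQ, A.IsFrobeniusAt σ q ∧ rho σ = !![a, 1; 0, 1] ∧ IsV (r σ) ∧
        ¬ (v σ = 0 ∨ v σ = r σ) := by
  obtain ⟨q, hq, hqS, A, hA, σ, hσ, h1, h3, h4⟩ := exists_auxiliary_prime hn hr hfull ht
    (isPlaneCocycle_planeOfMat hV hc) ((mulVec_eq_self_iff htV (hV t)).mpr hline)
    (not_isPlaneCoboundary_planeOfMat hV hne) L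
    (fun σ hσ => ⟨(hL σ hσ).1, by rw [(hL σ hσ).2]; funext i; fin_cases i <;> simp [planeOfMat]⟩)
    a hd S
  have hσV : IsV (r σ) := by rw [h3]; exact ⟨rfl, by decide⟩
  exact ⟨q, hq, hqS, A, hA, σ, hσ, h1, hσV, fun h => h4 ((mulVec_eq_self_iff hσV (hV σ)).mpr h)⟩

end Fermat.Agent.TwoAdic.Selmer

end
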