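import Fermat.Agent.TwoAdic.Galois.Interface
import Fermat.Agent.TwoAdic.Galois.Residual
import Fermat.Agent.TwoAdic.Selmer.LemmaA

/-!
# Detection of Selmer classes by auxiliary primes

A class which is not a coboundary is moved off the fixed line of Frobenius at auxiliary primes of
every depth, outside any finite set.
-/

set_option autoImplicit false

noncomputable section

open WeierstrassCurve Matrix

namespace Fermat.Agent.TwoAdic

open Arith (QBar GQ)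

variable {W : WeierstrassCurve ℤ} {hΔ : W.Δ ≠ 0} {φ : GQ → Fin 2 → ZMod 2}

theorem rhoBar_sub_one_mulVec (σ : GQ) (v : Fin 2 → ZMod 2) :
    (rhoBar W hΔ σ - 1) *ᵥ v = rhoBar W hΔ σ *ᵥ v + v := by
  rw [Matrix.sub_mulVec, Matrix.one_mulVec]
  funext i
  simp [CharTwo.sub_eq_add]

/-- The line condition at a transposition is invariant under conjugation. -/
theorem cocycle_line_conj (hc : ∀ σ τ, φ (σ * τ) = φ σ + rhoBar W hΔ σ *ᵥ φ τ) {σ h : GQ}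
    (h2 : rhoBar W hΔ σ * rhoBar W hΔ σ = 1)
    (hline : rhoBar W hΔ (h * σ * h⁻¹) *ᵥ φ (h * σ * h⁻¹) = φ (h * σ * h⁻¹)) :
    rhoBar W hΔ σ *ᵥ φ σ = φ σ := by
  set r := rhoBar W hΔ with hr
  have hone : φ 1 = 0 := by
    have := hc 1 1
    rw [one_mul, map_one, Matrix.one_mulVec] at this
    exact add_left_cancel (a := φ 1) (by rw [← this, add_zero])
  have hinv : r h⁻¹ *ᵥ φ h = φ h⁻¹ := by
    have h0 := hc h⁻¹ h
    rw [inv_mul_cancel, hone] at h0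
    exact (Selmer.plane_eq_of_add h0.symm).symm
  have hR : r (h * σ * h⁻¹) * r (h * σ * h⁻¹) = 1 := by
    rw [← map_mul, show h * σ * h⁻¹ * (h * σ * h⁻¹) = h * (σ * σ) * h⁻¹ by group, map_mul,
      map_mul, map_mul, h2, mul_one, ← map_mul, mul_inv_cancel, map_one]
  have hval : φ (h * σ * h⁻¹) = φ h + r h *ᵥ φ σ + r (h * σ * h⁻¹) *ᵥ φ h := by
    rw [hc, hc, ← hinv, map_mul r (h * σ) h⁻¹, Matrix.mulVec_mulVec]
  rw [hval, Matrix.mulVec_add, Matrix.mulVec_add] at hline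
  simp only [Matrix.mulVec_mulVec, hR, Matrix.one_mulVec] at hline
  rw [← map_mul, show h * σ * h⁻¹ * h = h * σ by group] at hline
  have h3 : r (h * σ) *ᵥ φ σ = r h *ᵥ φ σ := by
    have e : φ h + r h *ᵥ φ σ + r (h * σ * h⁻¹) *ᵥ φ h =
        r (h * σ * h⁻¹) *ᵥ φ h + r h *ᵥ φ σ + φ h := by abel
    rw [e] at hline
    exact add_left_cancel (add_right_cancel hline)
  have h4 := congrArg (fun v => r h⁻¹ *ᵥ v) h3
  simp only [Matrix.mulVec_mulVec, ← map_mul, inv_mul_cancel_left, inv_mul_cancel, map_one,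
    Matrix.one_mulVec] at h4
  exact h4

/-- A nontrivial class is detected by auxiliary primes of every depth avoiding a finite set. -/
theorem selmerDetection : SelmerDetection := by
  intro W hW Q φ hφ hne n S
  classical
  have hn : n + 1 ≠ 0 := Nat.succ_ne_zero n
  set hΔ := hW.Δ_ne_zero
  have hr : ∀ g, (rhoPow W hΔ (n + 1) g).map (Selmer.res hn) = rhoBar W hΔ g :=
    fun g => rhoPow_map hΔ _ g
  have hfull : Selmer.ResidualFull (rhoBar W hΔ) := fun X hX => exists_rhoBar_eq hW hX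
  obtain ⟨ℓ, hℓ, hd⟩ := hW.exists_bad_prime
  have hℓ2 := hW.ne_two_of_dvd hd
  obtain ⟨A₀, hA₀⟩ := Arith.exists_liesOverPrime hℓ
  obtain ⟨t, htI, ht1⟩ := exists_inertia_rhoBar_ne_one hW hℓ hd hA₀
  have ht : Selmer.IsTransvection (rhoPow W hΔ (n + 1)) (rhoBar W hΔ) t :=
    ⟨rhoPow_sub_one_mul_self_of_inertia hΔ hW.semistable hℓ hℓ2 hA₀ htI _, ht1⟩
  have hline : rhoBar W hΔ t *ᵥ φ t = φ t := by
    obtain ⟨v, hv⟩ := hφ.bad ℓ hℓ hd A₀ hA₀ t htI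
    rw [← hv, rhoBar_sub_one_mulVec, Matrix.mulVec_add, Matrix.mulVec_mulVec,
      rhoBar_mul_self_of_inertia hW hℓ hℓ2 hA₀ htI, Matrix.one_mulVec, add_comm]
  have hne' : ¬ Selmer.IsPlaneCoboundary (rhoBar W hΔ) φ := fun ⟨Y, hY⟩ =>
    hne ⟨Y, fun σ => by rw [hY σ, rhoBar_sub_one_mulVec]⟩
  obtain ⟨L₁, _, hL₁⟩ := hφ.finiteLevel
  obtain ⟨L₂, _, hL₂⟩ := isFiniteLevel_rhoPow hΔ (n + 1)
  have h3 : IsUnit (3 : ZMod (2 ^ (n + 1))) := by
    rw [Selmer.isUnit_iff_res hn, map_ofNat]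
    decide
  obtain ⟨d, hdet⟩ := exists_det_rhoPow_eq hΔ (n + 1) h3
  obtain ⟨q, hq, hqS, A, hA, σ, hσ, hrho, hrbar, hoff⟩ :=
    Selmer.exists_auxiliary_prime hn hr hfull ht hφ.cocycle hline hne' (L₁ ⊔ L₂)
      (fun σ hσ => ⟨hL₂ σ fun x hx => hσ x ((le_sup_right (a := L₁)) hx),
        hL₁ σ fun x hx => hσ x ((le_sup_left (b := L₂)) hx)⟩)
      3 hdet (S ∪ Q ∪ insert 2 W.Δ.natAbs.primeFactors)
  simp only [Finset.mem_union, Finset.mem_insert, not_or] at hqS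
  obtain ⟨⟨hqS, hqQ⟩, hq2, hqΔ⟩ := hqS
  have hgood : W.IsGoodPrimeFor q := fun h => hqΔ
    (Nat.mem_primeFactors.mpr ⟨hq, Int.natCast_dvd.mp h, Int.natAbs_ne_zero.mpr hΔ⟩)
  have hinv : rhoBar W hΔ σ * rhoBar W hΔ σ = 1 := by rw [hrbar]; decide
  have hne1 : rhoBar W hΔ σ ≠ 1 := by rw [hrbar]; decide
  obtain ⟨htr, hdetq⟩ := rhoPow_frobenius hΔ hq hq2 hgood hA hσ (n + 1)
  rw [hrho, Matrix.trace_fin_two_of] at htr
  rw [hrho, Matrix.det_fin_two_of] at hdetq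
  -- every Frobenius at every place over `q`
  have hall : ∀ B : ValuationSubring QBar, B.LiesOverPrime q → ∀ σ' : GQ, B.IsFrobeniusAt σ' q →
      ∃ h : GQ, rho W hΔ σ' = rho W hΔ (h * σ * h⁻¹) ∧
        rhoBar W hΔ σ' = rhoBar W hΔ (h * σ * h⁻¹) ∧ φ σ' = φ (h * σ * h⁻¹) := by
    intro B hB σ' hσ'
    obtain ⟨h, τ, hτ, rfl⟩ := frobenius_eq_conj_mul hq hA hB hσ hσ'
    have h0 := rho_eq_one_of_inertia hΔ hq hq2 hgood hB hτ
    refine ⟨h, by rw [map_mul (rho W hΔ) (h * σ * h⁻¹) τ, h0, mul_one], ?_, ?_⟩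
    · rw [map_mul (rhoBar W hΔ) (h * σ * h⁻¹) τ, rhoBar_eq hΔ τ, h0,
        Matrix.map_one _ (map_zero _) (map_one _), mul_one]
    · rw [hφ.cocycle (h * σ * h⁻¹) τ, hφ.unramified q hq hq2 hgood hqQ B hB τ hτ,
        Matrix.mulVec_zero, add_zero]
  have hpow : (2 ^ n : ℕ) ∣ 2 ^ (n + 1) := pow_dvd_pow 2 (Nat.le_succ n)
  refine ⟨q, hqS, ⟨hq, hq2, hgood, jacobiSym_eq_neg_one_of_frobenius hW hq hq2 hgood hA hσ hne1 hinv,
    ?_, ?_, fun B hB σ' hσ' => ?_⟩, fun B hB σ' hσ' hfix => ?_⟩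
  · refine (Int.natCast_dvd_natCast.mpr hpow).trans ((ZMod.intCast_zmod_eq_zero_iff_dvd _ _).mp ?_)
    push_cast
    rw [← hdetq]
    ring
  · refine (Int.natCast_dvd_natCast.mpr hpow).trans ((ZMod.intCast_zmod_eq_zero_iff_dvd _ _).mp ?_)
    push_cast
    rw [← htr]
    ring
  · obtain ⟨h, -, hbar, -⟩ := hall B hB σ' hσ'
    rw [hbar]
    refine ⟨?_, fun h1 => hne1 ?_⟩
    · rw [← map_mul, show h * σ * h⁻¹ * (h * σ * h⁻¹) = h * (σ * σ) * h⁻¹ by group, map_mul,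
        map_mul, map_mul, hinv, mul_one, ← map_mul, mul_inv_cancel, map_one]
    · calc rhoBar W hΔ σ = rhoBar W hΔ h⁻¹ * rhoBar W hΔ (h * σ * h⁻¹) * rhoBar W hΔ h := by
            rw [← map_mul, ← map_mul]; congr 1; group
        _ = 1 := by rw [h1, mul_one, ← map_mul, inv_mul_cancel, map_one]
  · obtain ⟨h, -, hbar, hval⟩ := hall B hB σ' hσ'
    rw [hbar, hval] at hfix
    exact hoff (cocycle_line_conj hφ.cocycle hinv hfix)

end Fermat.Agent.TwoAdic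

end
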