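import Fermat.Agent.TwoAdic.Dihedral.Matrices
import Mathlib.LinearAlgebra.Matrix.NonsingularInverse
import Mathlib.LinearAlgebra.Matrix.ToLin
import Mathlib.Data.ZMod.Units
import Mathlib.Tactic.LinearCombination
import Mathlib.Tactic.Abel
import Mathlib.Tactic.Group

/-!
# The group lemma of the Selmer step

A representation modulo `2^n`, residually onto `GL₂(𝔽₂)` and with a transvection reducing to a
transposition, has image containing `SL₂`. A cocycle with values in `𝔽₂²` which vanishes on the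
kernel and whose value at the transvection is fixed by it is a coboundary; otherwise it takes
every value on the kernel.
-/

set_option autoImplicit false

namespace Fermat.Agent.TwoAdic.Selmer

open Matrix
open Dihedral (M2 IsV vMat)

/-- The residual plane. -/
abbrev Plane := Fin 2 → ZMod 2

theorem two_dvd_pow {n : ℕ} (hn : n ≠ 0) : 2 ∣ 2 ^ n := dvd_pow_self 2 hn

/-- Reduction modulo two. -/
def res {n : ℕ} (hn : n ≠ 0) : ZMod (2 ^ n) →+* ZMod 2 := ZMod.castHom (two_dvd_pow hn) (ZMod 2)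

theorem isUnit_iff_res {n : ℕ} (hn : n ≠ 0) (x : ZMod (2 ^ n)) : IsUnit x ↔ res hn x = 1 := by
  have : NeZero (2 ^ n) := ⟨pow_ne_zero n two_ne_zero⟩
  conv_lhs => rw [← ZMod.natCast_zmod_val x]
  conv_rhs => rw [← ZMod.natCast_zmod_val x]
  rw [map_natCast, ZMod.isUnit_iff_coprime,
    Nat.coprime_pow_right_iff (Nat.pos_of_ne_zero hn), Nat.coprime_two_right,
    ZMod.natCast_eq_one_iff_odd]

theorem zmod_two_cases : ∀ a : ZMod 2, a = 0 ∨ a = 1 := by decide

theorem mulVec_two {R : Type*} [CommRing R] (X : M2 R) (v : Fin 2 → R) :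
    X *ᵥ v = ![X 0 0 * v 0 + X 0 1 * v 1, X 1 0 * v 0 + X 1 1 * v 1] := by
  funext i
  fin_cases i <;> simp [Matrix.mulVec, dotProduct, Fin.sum_univ_two]

section Elementary

variable {R : Type*} [CommRing R]

/-- Upper elementary. -/
def eUp (a : R) : M2 R := !![1, a; 0, 1]

/-- Lower elementary. -/
def eLo (a : R) : M2 R := !![1, 0; a, 1]

theorem eUp_mul (a b : R) : eUp a * eUp b = eUp (a + b) := by
  simp [eUp, add_comm]

theorem eLo_mul (a b : R) : eLo a * eLo b = eLo (a + b) := by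
  simp [eLo]

theorem eUp_pow (a : R) (k : ℕ) : eUp a ^ k = eUp (k * a) := by
  induction k with
  | zero => simp [eUp, Matrix.one_fin_two]
  | succ k ih => rw [pow_succ, ih, eUp_mul]; push_cast; ring_nf

theorem eLo_pow (a : R) (k : ℕ) : eLo a ^ k = eLo (k * a) := by
  induction k with
  | zero => simp [eLo, Matrix.one_fin_two]
  | succ k ih => rw [pow_succ, ih, eLo_mul]; push_cast; ring_nf

theorem eq_elementary_of_isUnit {X : M2 R} (hX : X.det = 1) (h : IsUnit (X 1 0)) :
    ∃ a b : R, X = eUp a * eLo (X 1 0) * eUp b := by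
  obtain ⟨u, hu⟩ := h
  rw [Matrix.det_fin_two, ← hu] at hX
  refine ⟨(X 0 0 - 1) * ↑u⁻¹, (X 1 1 - 1) * ↑u⁻¹, ?_⟩
  have hi : (u : R) * ↑u⁻¹ = 1 := u.mul_inv
  rw [← hu]
  ext i j
  fin_cases i <;> fin_cases j <;> simp [eUp, eLo, ← hu]
  · linear_combination (-↑u⁻¹ : R) * hX + (-X 0 1) * hi
  · linear_combination (1 - X 1 1) * hi

theorem eUp_mulVec (v : Fin 2 → R) : eUp (1 : R) *ᵥ v = ![v 0 + v 1, v 1] := by
  rw [mulVec_two]; simp [eUp]

theorem eLo_mulVec (v : Fin 2 → R) : eLo (1 : R) *ᵥ v = ![v 0, v 0 + v 1] := by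
  rw [mulVec_two]; simp [eLo]

end Elementary

variable {G : Type*} [Group G] {n : ℕ} (hn : n ≠ 0)
  (rho : G →* M2 (ZMod (2 ^ n))) (r : G →* M2 (ZMod 2))

/-- Residual surjectivity. -/
def ResidualFull : Prop := ∀ X : M2 (ZMod 2), X.det = 1 → ∃ g, r g = X

/-- A transvection reducing to a transposition. -/
def IsTransvection (t : G) : Prop := (rho t - 1) * (rho t - 1) = 0 ∧ r t ≠ 1

/-- The cocycle identity. -/
def IsPlaneCocycle (f : G → Plane) : Prop := ∀ g h, f (g * h) = f g + r g *ᵥ f h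

/-- A coboundary. -/
def IsPlaneCoboundary (f : G → Plane) : Prop := ∃ Y : Plane, ∀ g, f g = r g *ᵥ Y + Y

theorem plane_add_self (Y : Plane) : Y + Y = 0 := funext fun i => CharTwo.add_self_eq_zero (Y i)

theorem plane_eq_of_add {X Y : Plane} (h : X + Y = 0) : X = Y := by
  rw [← add_zero X, ← plane_add_self Y, ← add_assoc, h, zero_add]

namespace IsPlaneCocycle

variable {r} {f : G → Plane} (hf : IsPlaneCocycle r f)
include hf

theorem map_one : f 1 = 0 := by
  have h := hf 1 1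
  rw [one_mul, _root_.map_one, Matrix.one_mulVec, plane_add_self] at h
  exact h

theorem map_inv (g : G) : f g⁻¹ = r g⁻¹ *ᵥ f g := by
  have h := hf g⁻¹ g
  rw [inv_mul_cancel, hf.map_one] at h
  exact plane_eq_of_add h.symm

theorem map_conj (h t : G) :
    f (h * t * h⁻¹) = f h + r h *ᵥ f t + r (h * t * h⁻¹) *ᵥ f h := by
  rw [hf, hf, hf.map_inv, Matrix.mulVec_mulVec, ← _root_.map_mul]

theorem map_conj_of_one {h k : G} (hk : r k = 1) : f (h * k * h⁻¹) = r h *ᵥ f k := by
  have h1 : r (h * k * h⁻¹) = 1 := by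
    rw [_root_.map_mul, _root_.map_mul, hk, mul_one, ← _root_.map_mul, mul_inv_cancel,
      _root_.map_one]
  rw [hf.map_conj, h1, Matrix.one_mulVec, add_assoc, add_comm (r h *ᵥ f k), ← add_assoc,
    plane_add_self, zero_add]

theorem conj_fixed {h t : G} (ht : r t *ᵥ f t = f t) (h2 : r t * r t = 1) :
    r (h * t * h⁻¹) *ᵥ f (h * t * h⁻¹) = f (h * t * h⁻¹) := by
  have e1 : r (h * t * h⁻¹) * r h = r h * r t := by
    rw [← _root_.map_mul, inv_mul_cancel_right, _root_.map_mul]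
  have e2 : r (h * t * h⁻¹) * r (h * t * h⁻¹) = 1 := by
    rw [← _root_.map_mul, show h * t * h⁻¹ * (h * t * h⁻¹) = h * (t * t) * h⁻¹ by group,
      _root_.map_mul, _root_.map_mul, _root_.map_mul r t t, h2, mul_one, ← _root_.map_mul,
      mul_inv_cancel, _root_.map_one]
  rw [hf.map_conj, Matrix.mulVec_add, Matrix.mulVec_add, Matrix.mulVec_mulVec,
    Matrix.mulVec_mulVec, e1, e2, ← Matrix.mulVec_mulVec (f t) (r h) (r t), ht, Matrix.one_mulVec]
  abel

end IsPlaneCocycle

theorem plane_fixed_zero : ∀ v : Plane,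
    (∀ X : M2 (ZMod 2), X.det = 1 → X *ᵥ v = v) → v = 0 := by
  intro v h
  have h1 := congrFun (h !![1, 1; 0, 1] (by simp [Matrix.det_fin_two])) 0
  have h2 := congrFun (h !![1, 0; 1, 1] (by simp [Matrix.det_fin_two])) 1
  rw [mulVec_two] at h1 h2
  simp only [Matrix.of_apply, Matrix.cons_val', Matrix.cons_val_zero, Matrix.cons_val_one,
    Matrix.cons_val_fin_one, one_mul, add_eq_left, add_eq_right] at h1 h2
  funext i
  fin_cases i <;> assumption

theorem exists_det_one_mulVec : ∀ v w : Plane, v ≠ 0 → w ≠ 0 →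
    ∃ X : M2 (ZMod 2), X.det = 1 ∧ X *ᵥ v = w := by
  have key : ∀ v0 v1 w0 w1 : ZMod 2, ¬ (v0 = 0 ∧ v1 = 0) → ¬ (w0 = 0 ∧ w1 = 0) →
      ∃ a b c d : ZMod 2, a * d - b * c = 1 ∧ a * v0 + b * v1 = w0 ∧ c * v0 + d * v1 = w1 := by
    decide
  intro v w hv hw
  obtain ⟨a, b, c, d, h1, h2, h3⟩ := key (v 0) (v 1) (w 0) (w 1)
    (fun h => hv (funext fun i => by fin_cases i <;> simp [h.1, h.2]))
    (fun h => hw (funext fun i => by fin_cases i <;> simp [h.1, h.2]))
  refine ⟨!![a, b; c, d], by simpa [Matrix.det_fin_two] using h1, funext fun i => ?_⟩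
  rw [mulVec_two]
  fin_cases i <;> simp only [Fin.zero_eta, Fin.mk_one, Matrix.of_apply, Matrix.cons_val', Matrix.cons_val_zero, Matrix.cons_val_one, Matrix.cons_val_fin_one] <;> assumption

/-- Determinant one matrices lift. -/
theorem exists_det_lift {R : Type*} [CommRing R] (π : R →+* ZMod 2)
    (_hπ : ∀ x, IsUnit x ↔ π x = 1) (X : M2 (ZMod 2)) (hX : X.det = 1) :
    ∃ a : M2 R, a.det = 1 ∧ a.map π = X := by
  have key : ∀ a b c d : ZMod 2, a * d - b * c = 1 → a = 1 ∨ (a = 0 ∧ b = 1 ∧ c = 1) := by decide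
  have hlift : ∀ z : ZMod 2, ∃ x : R, π x = z := fun z => by
    rcases zmod_two_cases z with rfl | rfl
    · exact ⟨0, map_zero _⟩
    · exact ⟨1, _root_.map_one _⟩
  obtain ⟨b, hb⟩ := hlift (X 0 1)
  obtain ⟨c, hc⟩ := hlift (X 1 0)
  obtain ⟨d, hd⟩ := hlift (X 1 1)
  rw [Matrix.det_fin_two] at hX
  rcases key _ _ _ _ hX with h | ⟨h0, h1, h2⟩
  · refine ⟨!![1, b; c, 1 + b * c], by simp [Matrix.det_fin_two], ?_⟩
    have h11 : X 1 1 = 1 + X 0 1 * X 1 0 := by rw [h, one_mul] at hX; linear_combination hX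
    ext i j
    fin_cases i <;> fin_cases j <;> simp [h, hb, hc, h11]
  · refine ⟨!![0, 1; -1, d], by simp [Matrix.det_fin_two], ?_⟩
    ext i j
    fin_cases i <;> fin_cases j <;> simp [h0, h1, h2, hd]

section Kernel

variable {rho r}

theorem det_res {X : M2 (ZMod (2 ^ n))} (h : X.det = 1) : (X.map (res hn)).det = 1 := by
  rw [← RingHom.mapMatrix_apply, ← RingHom.map_det, h, _root_.map_one]

include hn in
/-- In the standard position the subgroup generated by two transvections is all of `SL₂`. -/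
theorem exists_mem_of_elementary (H : Subgroup G) {t s : G} (ht : t ∈ H) (hs : s ∈ H)
    (hrt : rho t = eUp 1) {c : ZMod (2 ^ n)} (hc : IsUnit c) (hrs : rho s = eLo c)
    {X : M2 (ZMod (2 ^ n))} (hX : X.det = 1) : ∃ g ∈ H, rho g = X := by
  have : NeZero (2 ^ n) := ⟨pow_ne_zero n two_ne_zero⟩
  have hup : ∀ a, ∃ g ∈ H, rho g = eUp a := fun a =>
    ⟨t ^ a.val, H.pow_mem ht _, by rw [_root_.map_pow, hrt, eUp_pow, mul_one, ZMod.natCast_zmod_val]⟩
  have hlo : ∀ a, ∃ g ∈ H, rho g = eLo a := fun a => by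
    obtain ⟨u, rfl⟩ := hc
    refine ⟨s ^ (a * ↑u⁻¹).val, H.pow_mem hs _, ?_⟩
    rw [_root_.map_pow, hrs, eLo_pow, ZMod.natCast_zmod_val, mul_assoc, u.inv_mul, mul_one]
  have hgen : ∀ Y : M2 (ZMod (2 ^ n)), Y.det = 1 → IsUnit (Y 1 0) → ∃ g ∈ H, rho g = Y := by
    intro Y hY h
    obtain ⟨a, b, e⟩ := eq_elementary_of_isUnit hY h
    obtain ⟨g1, hg1, e1⟩ := hup a
    obtain ⟨g2, hg2, e2⟩ := hlo (Y 1 0)
    obtain ⟨g3, hg3, e3⟩ := hup b
    exact ⟨g1 * g2 * g3, H.mul_mem (H.mul_mem hg1 hg2) hg3, by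
      rw [_root_.map_mul, _root_.map_mul, e1, e2, e3, ← e]⟩
  by_cases h : IsUnit (X 1 0)
  · exact hgen X hX h
  · obtain ⟨g, hg, eg⟩ := hgen (eLo 1 * X) (by
      rw [Matrix.det_mul, hX, eLo, Matrix.det_fin_two_of]; ring) (by
      rw [isUnit_iff_res hn] at h ⊢
      have e : (eLo 1 * X : M2 (ZMod (2 ^ n))) 1 0 = X 0 0 + X 1 0 := by
        simp [eLo, Matrix.mul_apply, Fin.sum_univ_two]
      have h10 : res hn (X 1 0) = 0 := (zmod_two_cases _).resolve_right h
      have hd := congrArg (res hn) ((Matrix.det_fin_two X).symm.trans hX)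
      rw [map_sub, _root_.map_mul, _root_.map_mul, h10, mul_zero, sub_zero, _root_.map_one] at hd
      rw [e, map_add, h10, add_zero]
      exact ((zmod_two_cases _).resolve_left fun h0 => by rw [h0, zero_mul] at hd; exact zero_ne_one hd))
    obtain ⟨g', hg', eg'⟩ := hlo (-1)
    refine ⟨g' * g, H.mul_mem hg' hg, ?_⟩
    rw [_root_.map_mul, eg, eg', ← mul_assoc, eLo_mul, neg_add_cancel]
    simp [eLo, ← Matrix.one_fin_two]

variable (hr : ∀ g, (rho g).map (res hn) = r g) (hfull : ResidualFull r)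
include hr

/-- Change of basis making the transvection standard. -/
theorem exists_basis {t : G} (ht : IsTransvection rho r t) :
    ∃ P : (M2 (ZMod (2 ^ n)))ˣ,
      rho t * (P : M2 (ZMod (2 ^ n))) = (P : M2 (ZMod (2 ^ n))) * eUp 1 := by
  obtain ⟨hN2, hN⟩ := ht
  set N := rho t - 1 with hNdef
  have hres : N.map (res hn) ≠ 0 := fun h => hN (by
    rw [← hr, show rho t = N + 1 by simp [hNdef], Matrix.map_add _ (map_add _), h, zero_add,
      Matrix.map_one _ (map_zero _) (_root_.map_one _)])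
  have hsq : ∀ a b c d : ZMod 2, (!![a, b; c, d] : M2 (ZMod 2)) * !![a, b; c, d] = 0 →
      ¬ (a = 0 ∧ b = 0 ∧ c = 0 ∧ d = 0) → b = 1 ∨ c = 1 := by decide
  have hbc : IsUnit (N 0 1) ∨ IsUnit (N 1 0) := by
    simp only [isUnit_iff_res hn]
    refine hsq (res hn (N 0 0)) _ _ (res hn (N 1 1)) ?_ fun h => hres ?_
    · have h := congrArg (res hn).mapMatrix hN2
      rw [_root_.map_mul, map_zero, RingHom.mapMatrix_apply, Matrix.eta_fin_two (N.map (res hn))] at h
      exact h
    · ext i j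
      fin_cases i <;> fin_cases j <;> simp [h.1, h.2.1, h.2.2.1, h.2.2.2]
  rw [Matrix.eta_fin_two N, Matrix.mul_fin_two] at hN2
  have e00 := congrFun (congrFun hN2 0) 0
  have e01 := congrFun (congrFun hN2 0) 1
  have e10 := congrFun (congrFun hN2 1) 0
  have e11 := congrFun (congrFun hN2 1) 1
  simp at e00 e01 e10 e11
  have hrt : rho t = N + 1 := by simp [hNdef]
  rcases hbc with h | h
  · have hu : IsUnit (!![N 0 1, 0; N 1 1, 1] : M2 (ZMod (2 ^ n))) :=
      (Matrix.isUnit_iff_isUnit_det _).mpr (by simpa [Matrix.det_fin_two] using h)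
    refine ⟨hu.unit, ?_⟩
    rw [IsUnit.unit_spec, hrt, eUp]
    ext i j
    fin_cases i <;> fin_cases j <;>
      simp [Matrix.mul_apply, Fin.sum_univ_two, Matrix.one_fin_two] <;>
      first
        | linear_combination e01
        | linear_combination e11
        | ring
  · have hu : IsUnit (!![N 0 0, 1; N 1 0, 0] : M2 (ZMod (2 ^ n))) :=
      (Matrix.isUnit_iff_isUnit_det _).mpr (by simpa [Matrix.det_fin_two] using h.neg)
    refine ⟨hu.unit, ?_⟩
    rw [IsUnit.unit_spec, hrt, eUp]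
    ext i j
    fin_cases i <;> fin_cases j <;>
      simp [Matrix.mul_apply, Fin.sum_univ_two, Matrix.one_fin_two] <;>
      first
        | linear_combination e00
        | linear_combination e10
        | ring

end Kernel

variable {rho r}

/-- The standard position: a conjugate of the transvection is lower elementary. -/
theorem exists_lower (hr : ∀ g, (rho g).map (res hn) = r g) (hfull : ResidualFull r) {t : G}
    (hrt : rho t = eUp 1) :
    ∃ (h : G) (c : ZMod (2 ^ n)), IsUnit c ∧ rho (h * t * h⁻¹) = eLo c := by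
  have : NeZero (2 ^ n) := ⟨pow_ne_zero n two_ne_zero⟩
  obtain ⟨h, hh⟩ := hfull !![0, 1; 1, 0] (by decide)
  set X := rho h with hXdef
  have hz : IsUnit (X 1 0) := by
    rw [isUnit_iff_res hn, show res hn (X 1 0) = r h 1 0 by rw [← hr]; rfl, hh]
    rfl
  obtain ⟨u, hu⟩ := id hz
  set k : ZMod (2 ^ n) := -(X 0 0) * ↑u⁻¹
  set h' := t ^ k.val * h
  have hk : rho h' = eUp k * X := by
    rw [_root_.map_mul, _root_.map_pow, hrt, eUp_pow, mul_one, ZMod.natCast_zmod_val]
  set Y := rho h' with hY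
  have hY00 : Y 0 0 = 0 := by
    rw [hk]
    simp [eUp, Matrix.mul_apply, Fin.sum_univ_two, k, ← hu]
  have hY10 : IsUnit (Y 1 0) := by
    rw [hk]
    simpa [eUp, Matrix.mul_apply, Fin.sum_univ_two] using hz
  have hYdet : IsUnit Y.det :=
    (Matrix.isUnit_iff_isUnit_det _).mp (IsUnit.of_mul_eq_one _ (show Y * rho h'⁻¹ = 1 by
      rw [hY, ← _root_.map_mul, mul_inv_cancel, _root_.map_one]))
  obtain ⟨d, hd⟩ := id hYdet
  refine ⟨h', -(Y 1 0) ^ 2 * ↑d⁻¹, ((hY10.pow 2).neg).mul d⁻¹.isUnit, ?_⟩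
  have key : Y * eUp 1 = eLo (-(Y 1 0) ^ 2 * ↑d⁻¹) * Y := by
    have hdet : Y.det = -(Y 0 1 * Y 1 0) := by rw [Matrix.det_fin_two, hY00]; ring
    have hi : (d : ZMod (2 ^ n)) * ↑d⁻¹ = 1 := d.mul_inv
    rw [hd, hdet] at hi
    ext i j
    fin_cases i <;> fin_cases j <;>
      simp [eUp, eLo, Matrix.mul_apply, Fin.sum_univ_two, hY00]
    linear_combination (-Y 1 0) * hi
  rw [_root_.map_mul, _root_.map_mul, hrt, key, mul_assoc, hY, ← _root_.map_mul, mul_inv_cancel,
    _root_.map_one, mul_one]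

/-- Conjugation by a unit. -/
def conjMat {R : Type*} [CommRing R] (P : (M2 R)ˣ) (rho : G →* M2 R) : G →* M2 R where
  toFun g := (↑P⁻¹ : M2 R) * rho g * P
  map_one' := by rw [_root_.map_one, mul_one, Units.inv_mul]
  map_mul' g h := by
    rw [_root_.map_mul]
    simp [mul_assoc]

theorem conjMat_apply {R : Type*} [CommRing R] (P : (M2 R)ˣ) (rho : G →* M2 R) (g : G) :
    conjMat P rho g = (↑P⁻¹ : M2 R) * rho g * P := rfl

theorem conj_back {R : Type*} [CommRing R] (P : (M2 R)ˣ) (rho : G →* M2 R) (g : G) :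
    (P : M2 R) * conjMat P rho g * ↑P⁻¹ = rho g := by
  simp [conjMat_apply, mul_assoc]

/-- Reduction of units. -/
noncomputable def resUnit (P : (M2 (ZMod (2 ^ n)))ˣ) : (M2 (ZMod 2))ˣ :=
  Units.map (res hn).mapMatrix.toMonoidHom P

/-- The data in standard position. -/
theorem exists_standard (hr : ∀ g, (rho g).map (res hn) = r g) (hfull : ResidualFull r) {t : G}
    (ht : IsTransvection rho r t) :
    ∃ (P : (M2 (ZMod (2 ^ n)))ˣ) (h : G) (c : ZMod (2 ^ n)), IsUnit c ∧
      conjMat P rho t = eUp 1 ∧ conjMat P rho (h * t * h⁻¹) = eLo c ∧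
      (∀ g, (conjMat P rho g).map (res hn) = conjMat (resUnit hn P) r g) := by
  obtain ⟨P, hP⟩ := exists_basis hn hr ht
  have hr' : ∀ g, (conjMat P rho g).map (res hn) = conjMat (resUnit hn P) r g := fun g => by
    rw [conjMat_apply, conjMat_apply, ← hr]
    show (res hn).mapMatrix (_ * _ * _) = _
    rw [_root_.map_mul, _root_.map_mul]
    rfl
  have hfull' : ResidualFull (conjMat (resUnit hn P) r) := fun X hX => by
    obtain ⟨g, hg⟩ := hfull ((resUnit hn P : M2 (ZMod 2)) * X * ↑(resUnit hn P)⁻¹) (by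
      rw [Matrix.det_mul, Matrix.det_mul, hX, mul_one, ← Matrix.det_mul, Units.mul_inv,
        Matrix.det_one])
    exact ⟨g, by simp [conjMat_apply, hg, mul_assoc]⟩
  have ht' : conjMat P rho t = eUp 1 := by
    rw [conjMat_apply, mul_assoc, hP, ← mul_assoc, Units.inv_mul, one_mul]
  obtain ⟨h, c, hc, hs⟩ := exists_lower hn hr' hfull' ht'
  exact ⟨P, h, c, hc, ht', hs, hr'⟩

/-- The image contains `SL₂`, with witnesses in any subgroup containing a normal closure. -/
theorem exists_rho_eq_of_det_one (hr : ∀ g, (rho g).map (res hn) = r g) (hfull : ResidualFull r)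
    {t : G} (ht : IsTransvection rho r t) {X : M2 (ZMod (2 ^ n))} (hX : X.det = 1) :
    ∃ g, rho g = X := by
  obtain ⟨P, h, c, hc, h1, h2, -⟩ := exists_standard hn hr hfull ht
  obtain ⟨g, -, hg⟩ := exists_mem_of_elementary hn (⊤ : Subgroup G) (Subgroup.mem_top _)
    (Subgroup.mem_top _) h1 hc h2 (X := (↑P⁻¹ : M2 (ZMod (2 ^ n))) * X * P) (by
      rw [Matrix.det_mul, Matrix.det_mul, hX, mul_one, ← Matrix.det_mul, Units.inv_mul,
        Matrix.det_one])
  exact ⟨g, by rw [← conj_back P rho g, hg]; simp [mul_assoc]⟩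

/-- Any matrix with determinant in the image of the determinant is in the image. -/
theorem exists_rho_eq (hr : ∀ g, (rho g).map (res hn) = r g) (hfull : ResidualFull r)
    {t : G} (ht : IsTransvection rho r t) {X : M2 (ZMod (2 ^ n))} {d : G}
    (hd : (rho d).det = X.det) : ∃ g, rho g = X := by
  have h1 : (rho d).det * (rho d⁻¹).det = 1 := by
    rw [← Matrix.det_mul, ← _root_.map_mul, mul_inv_cancel, _root_.map_one, Matrix.det_one]
  obtain ⟨g, hg⟩ := exists_rho_eq_of_det_one hn hr hfull ht (X := X * rho d⁻¹) (by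
    rw [Matrix.det_mul, ← hd, h1])
  exact ⟨g * d, by
    rw [_root_.map_mul, hg, mul_assoc, ← _root_.map_mul, inv_mul_cancel, _root_.map_one, mul_one]⟩

/-- **The group lemma.** A cocycle vanishing on the kernel, fixed at the transvection, is a
coboundary. -/
theorem isCoboundary_of_zero_on_ker (hr : ∀ g, (rho g).map (res hn) = r g) (hfull : ResidualFull r)
    {t : G} (ht : IsTransvection rho r t) {f : G → Plane} (hf : IsPlaneCocycle r f)
    (hline : r t *ᵥ f t = f t) (hker : ∀ g, rho g = 1 → f g = 0) : IsPlaneCoboundary r f := by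
  obtain ⟨P, h, c, hc, h1, h2, hr'⟩ := exists_standard hn hr hfull ht
  set Q := resUnit hn P
  have e1 : conjMat Q r t = eUp 1 := by
    rw [← hr', h1]; ext i j; fin_cases i <;> fin_cases j <;> simp [eUp]
  have e2 : conjMat Q r (h * t * h⁻¹) = eLo 1 := by
    rw [← hr', h2]
    ext i j; fin_cases i <;> fin_cases j <;> simp [eLo, (isUnit_iff_res hn c).mp hc]
  have hsq : r t * r t = 1 := by
    have h' : conjMat Q r (t * t) = 1 := by
      rw [_root_.map_mul, e1, eUp_mul, CharTwo.add_self_eq_zero]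
      simp [eUp, ← Matrix.one_fin_two]
    rw [← _root_.map_mul, ← conj_back Q r, h', mul_one, Units.mul_inv]
  -- the values in the new basis
  set φ : G → Plane := fun g => (↑Q⁻¹ : M2 (ZMod 2)) *ᵥ f g
  have hφline : ∀ g, r g *ᵥ f g = f g → conjMat Q r g *ᵥ φ g = φ g := fun g hg => by
    rw [conjMat_apply, Matrix.mulVec_mulVec, mul_assoc, Units.mul_inv, mul_one,
      ← Matrix.mulVec_mulVec, hg]
  have a1 := hφline t hline
  have a2 := hφline (h * t * h⁻¹) (hf.conj_fixed hline hsq)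
  rw [e1] at a1
  rw [e2] at a2
  rw [eUp_mulVec] at a1
  rw [eLo_mulVec] at a2
  have b1 : φ t 1 = 0 := by simpa using congrFun a1 0
  have b2 : φ (h * t * h⁻¹) 0 = 0 := by simpa using congrFun a2 1
  set Y : Plane := (Q : M2 (ZMod 2)) *ᵥ ![φ (h * t * h⁻¹) 1, φ t 0]
  refine ⟨Y, ?_⟩
  set ψ : G → Plane := fun g => f g + (r g *ᵥ Y + Y) with hψ
  have hψc : IsPlaneCocycle r ψ := fun g k => by
    simp only [hψ, hf g k, _root_.map_mul, Matrix.mulVec_add, Matrix.mulVec_mulVec]
    have := plane_add_self (r g *ᵥ Y)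
    rw [show f g + (r g *ᵥ Y + Y) + (r g *ᵥ f k + ((r g * r k) *ᵥ Y + r g *ᵥ Y)) =
      f g + r g *ᵥ f k + ((r g * r k) *ᵥ Y + Y) + (r g *ᵥ Y + r g *ᵥ Y) by abel, this, add_zero]
  let Z : Subgroup G :=
    { carrier := {g | ψ g = 0}
      one_mem' := hψc.map_one
      mul_mem' := fun {a b} ha hb => by
        show ψ (a * b) = 0
        rw [hψc, ha, hb, Matrix.mulVec_zero, add_zero]
      inv_mem' := fun {a} ha => by
        show ψ a⁻¹ = 0
        rw [hψc.map_inv, ha, Matrix.mulVec_zero] }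
  have hzero : ∀ (g : G), φ g = conjMat Q r g *ᵥ ![φ (h * t * h⁻¹) 1, φ t 0] +
      ![φ (h * t * h⁻¹) 1, φ t 0] → g ∈ Z := fun g hg => by
    show f g + (r g *ᵥ Y + Y) = 0
    have hfg : f g = (Q : M2 (ZMod 2)) *ᵥ φ g := by
      simp [φ, Matrix.mulVec_mulVec]
    rw [hfg, hg, Matrix.mulVec_add, Matrix.mulVec_mulVec, conjMat_apply, ← mul_assoc,
      ← mul_assoc, Units.mul_inv, one_mul, ← Matrix.mulVec_mulVec, plane_add_self]
  have htZ : t ∈ Z := hzero t (funext fun i => by
    rw [e1, eUp_mulVec]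
    fin_cases i <;> simp [b1, CharTwo.add_self_eq_zero]
    grind)
  have hsZ : h * t * h⁻¹ ∈ Z := hzero _ (funext fun i => by
    rw [e2, eLo_mulVec]
    fin_cases i <;> simp [b2, CharTwo.add_self_eq_zero]
    grind)
  have hψker : ∀ g, rho g = 1 → ψ g = 0 := fun g hg => by
    have h1 : r g = 1 := by rw [← hr, hg]; exact Matrix.map_one _ (map_zero _) (_root_.map_one _)
    simp [hψ, hker g hg, h1, plane_add_self]
  have hSL : ∀ g, (rho g).det = 1 → ψ g = 0 := fun g hg => by
    obtain ⟨z, hz, hze⟩ := exists_mem_of_elementary hn Z htZ hsZ h1 hc h2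
      (X := conjMat P rho g) (by
        rw [conjMat_apply, Matrix.det_mul, Matrix.det_mul, hg, mul_one, ← Matrix.det_mul,
          Units.inv_mul, Matrix.det_one])
    have hzg : rho (z⁻¹ * g) = 1 := by
      rw [_root_.map_mul, ← conj_back P rho g, ← hze, conj_back, ← _root_.map_mul, inv_mul_cancel,
        _root_.map_one]
    have := hψc z (z⁻¹ * g)
    rwa [mul_inv_cancel_left, hψker _ hzg, Matrix.mulVec_zero, add_zero, show ψ z = 0 from hz]
      at this
  intro g
  refine plane_eq_of_add (plane_fixed_zero (ψ g) fun X hX => ?_)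
  obtain ⟨a, ha⟩ := exists_det_lift (res hn) (isUnit_iff_res hn) X hX
  obtain ⟨k, hk⟩ := exists_rho_eq_of_det_one hn hr hfull ht ha.1
  have hk' : (rho (g⁻¹ * k * g)).det = 1 := by
    rw [_root_.map_mul, _root_.map_mul, hk, Matrix.det_mul, Matrix.det_mul, ha.1, mul_one,
      ← Matrix.det_mul, ← _root_.map_mul, inv_mul_cancel, _root_.map_one, Matrix.det_one]
  have h3 := hψc g (g⁻¹ * k * g)
  rw [hSL _ hk', Matrix.mulVec_zero, add_zero, show g * (g⁻¹ * k * g) = k * g by group, hψc,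
    hSL k (hk ▸ ha.1), zero_add, ← hr, hk, ha.2] at h3
  exact h3

/-- The values on the kernel fill the plane unless the class is zero. -/
theorem exists_ker_value (hr : ∀ g, (rho g).map (res hn) = r g) (hfull : ResidualFull r)
    {t : G} (ht : IsTransvection rho r t) {f : G → Plane} (hf : IsPlaneCocycle r f)
    (hline : r t *ᵥ f t = f t) (hne : ¬ IsPlaneCoboundary r f) (v : Plane) :
    ∃ g, rho g = 1 ∧ f g = v := by
  rcases eq_or_ne v 0 with rfl | hv
  · exact ⟨1, _root_.map_one _, hf.map_one⟩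
  obtain ⟨k, hk, hk0⟩ : ∃ k, rho k = 1 ∧ f k ≠ 0 := by
    by_contra! h
    exact hne (isCoboundary_of_zero_on_ker hn hr hfull ht hf hline h)
  obtain ⟨X, hX, hXv⟩ := exists_det_one_mulVec (f k) v hk0 hv
  obtain ⟨g, hg⟩ := hfull X hX
  have hrk : r k = 1 := by rw [← hr, hk]; exact Matrix.map_one _ (map_zero _) (_root_.map_one _)
  refine ⟨g * k * g⁻¹, ?_, by rw [hf.map_conj_of_one hrk, hg, hXv]⟩
  rw [_root_.map_mul, _root_.map_mul, hk, mul_one, ← _root_.map_mul, mul_inv_cancel,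
    _root_.map_one]

end Fermat.Agent.TwoAdic.Selmer
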