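import Fermat.Agent.TwoAdic.Selmer.Two
import Fermat.Agent.TwoAdic.Galois.Residual
import Fermat.Agent.TwoAdic.Galois.SelmerFinite
import Fermat.Agent.TwoAdic.Residual.Galois

/-!
# Lemma B: a prime detecting a class admits no class ramified at it

Both classes are sent by the pairing with the vector `φ σ` to quadratic characters of the cubic
field which is the fixed field of that vector. Their square classes have trivial norm symbol at
all places outside the orbit of the detecting place, and a ramified class would make it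
nontrivial there.
-/

set_option autoImplicit false
set_option linter.style.haveILetI false

noncomputable section

open WeierstrassCurve Matrix

namespace Fermat.Agent.TwoAdic

open scoped Pointwise
open Arith (QBar GQ)

namespace Selmer

/-! ### The pairing with a vector -/

/-- The alternating pairing with a vector. -/
def pairWith (v₀ v : Fin 2 → ZMod 2) : ZMod 2 := v₀ 0 * v 1 + v₀ 1 * v 0

theorem pairWith_add (v₀ v w : Fin 2 → ZMod 2) :
    pairWith v₀ (v + w) = pairWith v₀ v + pairWith v₀ w := by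
  simp only [pairWith, Pi.add_apply]; ring

theorem pairWith_zero (v₀ : Fin 2 → ZMod 2) : pairWith v₀ 0 = 0 := by
  simp [pairWith]

theorem pairWith_mulVec : ∀ (X : M2 (ZMod 2)) (v₀ v : Fin 2 → ZMod 2), X.det = 1 →
    X *ᵥ v₀ = v₀ → pairWith v₀ (X *ᵥ v) = pairWith v₀ v := by
  unfold pairWith; decide

theorem pairWith_of_fixing : ∀ (X : M2 (ZMod 2)) (v₀ : Fin 2 → ZMod 2), X.det = 1 → X ≠ 1 →
    v₀ ≠ 0 → X *ᵥ v₀ = v₀ → (∀ v, X *ᵥ v = v → pairWith v₀ v = 0) ∧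
      ∀ v, pairWith v₀ ((X - 1) *ᵥ v) = 0 := by
  unfold pairWith; decide

theorem mul_self_of_fixing : ∀ (X : M2 (ZMod 2)) (v : Fin 2 → ZMod 2), X.det = 1 → v ≠ 0 →
    X *ᵥ v = v → X * X = 1 := by decide

theorem pairWith_of_moving : ∀ (X : M2 (ZMod 2)) (a : Fin 2 → ZMod 2), X.det = 1 → X * X = 1 →
    X *ᵥ a ≠ a → a ≠ 0 ∧ pairWith a (a + X *ᵥ a) = 1 ∧
      (∀ v, X *ᵥ v = v → v ≠ 0 → pairWith a v = 1) ∧
      ∀ v, v ≠ 0 → v = a ∨ X *ᵥ v = a ∨ X *ᵥ v = v := by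
  unfold pairWith; decide

theorem involution_unique : ∀ X Y : M2 (ZMod 2), X.det = 1 → Y.det = 1 → X * X = 1 → Y * Y = 1 →
    X * Y * (X * Y) = 1 → X ≠ 1 → Y ≠ 1 → X = Y := by decide

end Selmer

/-! ### The residual representation at two -/

variable {W : WeierstrassCurve ℤ}

theorem rhoBar_two (hW : IsClassC W) {A : ValuationSubring QBar} (hA : A.LiesOverPrime 2) :
    (∀ τ ∈ A.inertiaSubgroupIn ℚ, rhoBar W hW.Δ_ne_zero τ = 1) ∧
      ∀ σ : GQ, A.IsFrobeniusAt σ 2 →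
        rhoBar W hW.Δ_ne_zero σ * rhoBar W hW.Δ_ne_zero σ = 1 ∧
          rhoBar W hW.Δ_ne_zero σ ≠ 1 := by
  set N := W.conductorLevel with hNdef
  have hN8 := Residual.conductorLevel_mod_eight hW
  obtain ⟨M, hM, hModd⟩ : ∃ M : ℕ, 1 + N = 4 * M ∧ Odd M :=
    ⟨(1 + N) / 4, by omega, by rw [Nat.odd_iff]; omega⟩
  set s := sqrtNeg N with hs
  set y := (1 + s) / 2 with hy
  have hy2 : y ^ 2 = y - (M : QBar) := by
    have h := sq_sqrtNeg N
    rw [← hs] at h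
    have h' : (1 : QBar) + (N : QBar) = 4 * (M : QBar) := by exact_mod_cast hM
    rw [hy]
    linear_combination h / 4 - h' / 4
  have hyA : y ∈ A := by
    refine Arith.mem_of_isIntegral A ⟨Polynomial.X ^ 2 - Polynomial.X + Polynomial.C (M : ℤ),
      by monicity!, ?_⟩
    show Polynomial.aeval y _ = 0
    simp only [map_add, map_sub, map_pow, Polynomial.aeval_X, map_natCast, Polynomial.aeval_C]
    linear_combination hy2
  have hMn : (M : QBar) ∉ A.nonunits := fun h => by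
    have := (Arith.intCast_mem_nonunits_iff hA Nat.prime_two (M : ℤ)).mp (by simpa using h)
    exact Nat.not_even_iff_odd.mpr hModd (even_iff_two_dvd.mpr (by exact_mod_cast this))
  have hsy : s = 2 * y - 1 := by rw [hy]; ring
  have hI : ∀ τ ∈ A.inertiaSubgroupIn ℚ, rhoBar W hW.Δ_ne_zero τ = 1 := by
    intro τ hτ
    refine (Residual.rhoBar_eq_one_iff W hW.Δ_ne_zero τ).mpr
      (Residual.perm_inertia_GK hW.Δ_ne_zero hW Nat.prime_two hA hτ ?_)
    rw [GK, MulAction.mem_stabilizer_iff]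
    show τ s = s
    have hroot : (τ y - y) * (τ y - (1 - y)) = 0 := by
      have h := congrArg τ hy2
      rw [map_pow, map_sub, map_natCast] at h
      linear_combination h - hy2
    rcases mul_eq_zero.mp hroot with h | h
    · rw [hsy, map_sub, map_mul, map_ofNat, map_one, sub_eq_zero.mp h]
    · exfalso
      have hn := (Arith.mem_inertia_iff_forall_mem.mp hτ).2 y hyA
      rw [sub_eq_zero.mp h, show 1 - y - y = -s by rw [hsy]; ring] at hn
      have hs2 := Arith.nonunits_mul_right (Arith.nonunits_neg hn)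
        (show -(-s) ∈ A from neg_mem (neg_mem (hsy ▸ sub_mem (mul_mem (ofNat_mem A 2) hyA)
          (one_mem A))))
      rw [neg_neg, ← sq, hs, sq_sqrtNeg, show -((N : QBar)) = ((-(N : ℤ) : ℤ) : QBar) by push_cast; rfl,
        Arith.intCast_mem_nonunits_iff hA Nat.prime_two, Int.dvd_neg] at hs2
      omega
  refine ⟨hI, fun σ hσ => ?_⟩
  obtain ⟨hσA, hfr⟩ := Arith.isFrobeniusAt_iff_forall_mem.mp hσ
  obtain ⟨i, hi⟩ := Residual.exists_fixed_decomposition_two hW.Δ_ne_zero hW hA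
  refine ⟨Selmer.mul_self_of_fixing _ (Residual.vec i) (rhoBar_det hW.Δ_ne_zero σ)
    (Residual.vec_ne_zero i) (by rw [Residual.rhoBar_mulVec_vec, hi σ hσA]), fun h1 => hMn ?_⟩
  have hfix : σ s = s := smul_sqrtNeg_of_eq_one hW h1
  have h := hfr y hyA
  rwa [show σ y = y by rw [hy, map_div₀, map_add, map_one, map_ofNat, hfix],
    hy2, sub_sub_cancel] at h

/-! ### Classes as square roots -/

variable {hΔ : W.Δ ≠ 0} {φ : GQ → Fin 2 → ZMod 2} {Q : Finset ℕ}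

theorem IsSelmerClass.map_one_eq (h : IsSelmerClass W hΔ Q φ) : φ 1 = 0 := by
  have := h.cocycle 1 1
  rw [one_mul, map_one, Matrix.one_mulVec] at this
  exact add_left_cancel (a := φ 1) (by rw [← this, add_zero])

/-- The square root attached to a class and a vector. -/
theorem IsSelmerClass.exists_root (h : IsSelmerClass W hΔ Q φ) {v₀ : Fin 2 → ZMod 2}
    {F : IntermediateField ℚ QBar} [FiniteDimensional ℚ F]
    (hF : ∀ g : GQ, g ∈ F.fixingSubgroup ↔ rhoBar W hΔ g *ᵥ v₀ = v₀) :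
    ∃ z : QBar, z ≠ 0 ∧ z ^ 2 ∈ F ∧
      ∀ g ∈ F.fixingSubgroup, (g z = z ↔ Selmer.pairWith v₀ (φ g) = 0) := by
  by_cases hne : ∃ g ∈ F.fixingSubgroup, Selmer.pairWith v₀ (φ g) ≠ 0
  · obtain ⟨L, hLfin, hL⟩ := h.finiteLevel
    exact MordellWeil.exists_sqrt_of_character (fun g => Selmer.pairWith v₀ (φ g))
      (fun g hg k _ => by
        show Selmer.pairWith v₀ (φ (g * k)) = _
        rw [h.cocycle, Selmer.pairWith_add,
          Selmer.pairWith_mulVec _ _ _ (rhoBar_det hΔ g) ((hF g).mp hg)])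
      L (fun g _ hg => by
        show Selmer.pairWith v₀ (φ g) = 0
        rw [hL g hg, Selmer.pairWith_zero]) hne
  · push Not at hne
    exact ⟨1, one_ne_zero, by rw [one_pow]; exact one_mem F,
      fun g hg => ⟨fun _ => hne g hg, fun _ => map_one g⟩⟩

section Root

variable {v₀ : Fin 2 → ZMod 2} {F : IntermediateField ℚ QBar} {z : QBar}
  {A : ValuationSubring QBar}
  (h : IsSelmerClass W hΔ Q φ)
  (hF : ∀ g : GQ, g ∈ F.fixingSubgroup ↔ rhoBar W hΔ g *ᵥ v₀ = v₀)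
  (hz : ∀ g ∈ F.fixingSubgroup, (g z = z ↔ Selmer.pairWith v₀ (φ g) = 0))

include h hF hz

/-- A class is unramified on the inertia of the field at a bad prime. -/
theorem IsSelmerClass.root_bad (hv₀ : v₀ ≠ 0) {ℓ : ℕ} (hℓ : ℓ.Prime) (hd : (ℓ : ℤ) ∣ W.Δ)
    (hA : A.LiesOverPrime ℓ) {τ : GQ} (hτ : τ ∈ A.inertiaSubgroupIn ℚ)
    (hτF : τ ∈ F.fixingSubgroup) : τ z = z := by
  refine (hz τ hτF).mpr ?_
  obtain ⟨v, hv⟩ := h.bad ℓ hℓ hd A hA τ hτ
  rw [← hv]
  by_cases h1 : rhoBar W hΔ τ = 1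
  · rw [h1, sub_self, Matrix.zero_mulVec, Selmer.pairWith_zero]
  · exact (Selmer.pairWith_of_fixing _ _ (rhoBar_det hΔ τ) h1 hv₀ ((hF τ).mp hτF)).2 v

/-- A class is unramified at an auxiliary prime whose Frobenius fixes the vector. -/
theorem IsSelmerClass.root_aux_fixing (hv₀ : v₀ ≠ 0) {r : ℕ} (hr : r ∈ Q)
    (hA : A.LiesOverPrime r) {σ : GQ} (hσ : A.IsFrobeniusAt σ r)
    (hσ1 : rhoBar W hΔ σ ≠ 1) (hσF : σ ∈ F.fixingSubgroup) {τ : GQ}
    (hτ : τ ∈ A.inertiaSubgroupIn ℚ) (hτF : τ ∈ F.fixingSubgroup) : τ z = z :=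
  (hz τ hτF).mpr ((Selmer.pairWith_of_fixing _ _ (rhoBar_det hΔ σ) hσ1 hv₀ ((hF σ).mp hσF)).1 _
    ((h.aux r hr A hA σ hσ).2 τ hτ))

/-- At an auxiliary prime the square of Frobenius fixes the root. -/
theorem IsSelmerClass.root_aux_sq {r : ℕ} (hr : r ∈ Q) (hA : A.LiesOverPrime r) {σ : GQ}
    (hσ : A.IsFrobeniusAt σ r) (hsq : σ * σ ∈ F.fixingSubgroup) : σ (σ z) = z := by
  rw [← AlgEquiv.mul_apply]
  refine (hz _ hsq).mpr ?_
  rw [h.cocycle, (h.aux r hr A hA σ hσ).1, Selmer.pairWith_add, CharTwo.add_self_eq_zero]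

/-- The three properties at two. -/
theorem IsSelmerClass.root_two (hv₀ : v₀ ≠ 0) (hz0 : z ≠ 0) (hzF : z ^ 2 ∈ F)
    (hA : A.LiesOverPrime 2) (hI : ∀ τ ∈ A.inertiaSubgroupIn ℚ, rhoBar W hΔ τ = 1) {σ : GQ}
    (hσ : A.IsFrobeniusAt σ 2) (hσ2 : rhoBar W hΔ σ * rhoBar W hΔ σ = 1)
    (hσ1 : rhoBar W hΔ σ ≠ 1) :
    (σ ∈ F.fixingSubgroup → ∀ τ ∈ A.inertiaSubgroupIn ℚ, τ z = z) ∧
      (∀ τ, IsPeuKernel A τ → τ z = z) ∧
        ∀ τ ∈ A.inertiaSubgroupIn ℚ, τ (z * σ z) = z * σ z := by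
  have hIF : ∀ τ ∈ A.inertiaSubgroupIn ℚ, τ ∈ F.fixingSubgroup := fun τ hτ =>
    (hF τ).mpr (by rw [hI τ hτ, Matrix.one_mulVec])
  refine ⟨fun hσF τ hτ => (hz τ (hIF τ hτ)).mpr
    ((Selmer.pairWith_of_fixing _ _ (rhoBar_det hΔ σ) hσ1 hv₀ ((hF σ).mp hσF)).1 _
      (h.two A hA σ hσ τ hτ).1),
    fun τ hτ => (hz τ (hIF τ hτ.1)).mpr (by
      rw [(h.two A hA σ hσ τ hτ.1).2 hτ, Selmer.pairWith_zero]), fun τ hτ => ?_⟩
  obtain ⟨hσA, -⟩ := Arith.isFrobeniusAt_iff_forall_mem.mp hσ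
  set n := σ⁻¹ * τ * σ with hn
  have hnI : n ∈ A.inertiaSubgroupIn ℚ := by
    have h' := (Arith.mem_inertia_smul_iff (g := σ) (A := A) (σ := n))
    rw [hσA, hn, show σ * (σ⁻¹ * τ * σ) * σ⁻¹ = τ by group] at h'
    exact h'.mp hτ
  have hφn : φ n = φ τ := by
    have e : σ * n = τ * σ := by rw [hn]; group
    have h1 := congrArg φ e
    rw [h.cocycle σ n, h.cocycle τ σ, hI τ hτ, Matrix.one_mulVec, add_comm (φ τ),
      ← (h.two A hA σ hσ τ hτ).1] at h1
    have h2 := congrArg (fun v => rhoBar W hΔ σ *ᵥ v) (add_left_cancel h1)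
    simpa only [Matrix.mulVec_mulVec, hσ2, Matrix.one_mulVec] using h2
  have hnz : σ (n z) = τ (σ z) := by
    rw [← AlgEquiv.mul_apply, hn, mul_assoc, mul_inv_cancel_left]
    rfl
  have hiff : τ z = z ↔ n z = z := by rw [hz τ (hIF τ hτ), hz n (hIF n hnI), hφn]
  have hsign : ∀ g ∈ A.inertiaSubgroupIn ℚ, g z = z ∨ g z = -z := fun g hg =>
    Selmer.apply_eq_or_eq_neg ((IntermediateField.mem_fixingSubgroup_iff _ _).mp (hIF g hg) _ hzF)
  rw [map_mul, ← hnz]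
  rcases hsign τ hτ with e | e
  · rw [e, hiff.mp e]
  · have hne : n z = -z := (hsign n hnI).resolve_left fun hh => hz0 (by
      have := (hiff.mpr hh).symm.trans e
      linear_combination (1 / 2 : QBar) * this)
    rw [e, hne, map_neg, neg_mul_neg]

end Root

/-- An embedding and complex conjugation. -/
theorem exists_conjugation (f : QBar →+* ℂ) :
    ∃ c : GQ, ∀ x, f (c x) = (starRingEnd ℂ) (f x) := by
  let ι : QBar →ₐ[ℚ] ℂ := f.toRatAlgHom
  letI : Algebra QBar ℂ := ι.toRingHom.toAlgebra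
  haveI : IsScalarTower ℚ QBar ℂ := IsScalarTower.of_algebraMap_eq fun r => (ι.commutes r).symm
  exact ⟨(Complex.conjAe.restrictScalars ℚ).restrictNormal QBar,
    fun x => AlgEquiv.restrictNormal_commutes (Complex.conjAe.restrictScalars ℚ) QBar x⟩

/-- The square root of a class is real and nonzero at a real place of the field. -/
theorem IsSelmerClass.root_real (hW : IsClassC W) {φ : GQ → Fin 2 → ZMod 2}
    (h : IsSelmerClass W hW.Δ_ne_zero Q φ) {v₀ : Fin 2 → ZMod 2} (hv₀ : v₀ ≠ 0)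
    {F : IntermediateField ℚ QBar}
    (hF : ∀ g : GQ, g ∈ F.fixingSubgroup ↔ rhoBar W hW.Δ_ne_zero g *ᵥ v₀ = v₀) {z : QBar}
    (hz0 : z ≠ 0) (hz : ∀ g ∈ F.fixingSubgroup, (g z = z ↔ Selmer.pairWith v₀ (φ g) = 0))
    {f : QBar →+* ℂ} (hf : ∀ x ∈ F, (f x).im = 0) : 0 < (f (z ^ 2)).re := by
  obtain ⟨c, hc⟩ := exists_conjugation f
  have hcF : c ∈ F.fixingSubgroup := (IntermediateField.mem_fixingSubgroup_iff _ _).mpr
    fun x hx => f.injective (by rw [hc, Complex.conj_eq_iff_im.mpr (hf x hx)])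
  have hcc : c * c = 1 := AlgEquiv.ext fun x => f.injective (by
    rw [AlgEquiv.mul_apply, hc, hc, Complex.conj_conj, AlgEquiv.one_apply])
  set s := sqrtNeg W.conductorLevel with hs
  have hne : rhoBar W hW.Δ_ne_zero c ≠ 1 := fun h1 => by
    have hreal : (f s).im = 0 := Complex.conj_eq_iff_im.mp (by
      rw [← hc, hs, smul_sqrtNeg_of_eq_one hW h1])
    have h2 := congrArg Complex.re (congrArg f (sq_sqrtNeg W.conductorLevel))
    rw [map_neg, map_natCast, map_pow, Complex.neg_re, Complex.natCast_re, sq, Complex.mul_re,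
      ← hs, hreal, mul_zero, sub_zero] at h2
    have h3 := mul_self_nonneg (f s).re
    have h8 := Residual.conductorLevel_mod_eight hW
    have : (3 : ℝ) ≤ (W.conductorLevel : ℝ) := by exact_mod_cast (by omega : 3 ≤ W.conductorLevel)
    linarith
  have hline : rhoBar W hW.Δ_ne_zero c *ᵥ φ c = φ c := by
    have h' := h.cocycle c c
    rw [hcc, h.map_one_eq] at h'
    exact (Selmer.plane_eq_of_add h'.symm).symm
  have hcz : c z = z := (hz c hcF).mpr
    ((Selmer.pairWith_of_fixing _ _ (rhoBar_det hW.Δ_ne_zero c) hne hv₀ ((hF c).mp hcF)).1 _ hline)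
  have him : (f z).im = 0 := Complex.conj_eq_iff_im.mp (by rw [← hc, hcz])
  rw [map_pow, sq, Complex.mul_re, him, mul_zero, sub_zero]
  refine mul_self_pos.mpr fun h0 => hz0 (f.injective ?_)
  rw [map_zero]
  exact Complex.ext h0 him

/-- Lemma B from the reciprocity law for quadratic norms. -/
theorem selmerShrink_of_hilbert (hH : Selmer.HilbertSingleInput) : SelmerShrink := by
  intro W hW Q q hQ hq hqQ φ ψ hφ hψ A hA σ hσ hmove τ hτ
  by_contra hτ0
  obtain ⟨L₀, hL₀fin, hL₀⟩ := exists_field_rhoBar_eq_one W hW.Δ_ne_zero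
  set r := rhoBar W hW.Δ_ne_zero with hr
  set v₀ := φ σ with hv₀def
  obtain ⟨hσA, -⟩ := Arith.isFrobeniusAt_iff_forall_mem.mp hσ
  obtain ⟨hσ2, hσ1⟩ := hq.frob_invol A hA σ hσ
  obtain ⟨hv₀, hsum, hline, hcases⟩ :=
    Selmer.pairWith_of_moving _ v₀ (rhoBar_det hW.Δ_ne_zero σ) hσ2 hmove
  let H : Subgroup GQ :=
    { carrier := {g | r g *ᵥ v₀ = v₀}
      one_mem' := by
        show r 1 *ᵥ v₀ = v₀
        rw [map_one, Matrix.one_mulVec]
      mul_mem' := fun {a b} (ha : r a *ᵥ v₀ = v₀) (hb : r b *ᵥ v₀ = v₀) => by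
        show r (a * b) *ᵥ v₀ = v₀
        rw [map_mul, ← Matrix.mulVec_mulVec, hb, ha]
      inv_mem' := fun {a} (ha : r a *ᵥ v₀ = v₀) => by
        show r a⁻¹ *ᵥ v₀ = v₀
        conv_lhs => rw [← ha]
        rw [Matrix.mulVec_mulVec, ← map_mul, inv_mul_cancel, map_one, Matrix.one_mulVec] }
  have hopen : IsOpen (H : Set GQ) := by
    refine Subgroup.isOpen_mono (fun g hg => ?_) (IntermediateField.fixingSubgroup_isOpen L₀)
    show r g *ᵥ v₀ = v₀
    rw [hr, hL₀ g ((IntermediateField.mem_fixingSubgroup_iff _ _).mp hg), Matrix.one_mulVec]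
  let F : IntermediateField ℚ QBar := IntermediateField.fixedField H
  have hK : F.fixingSubgroup = H :=
    InfiniteGalois.fixingSubgroup_fixedField ⟨H, H.isClosed_of_isOpen hopen⟩
  haveI : FiniteDimensional ℚ F :=
    (InfiniteGalois.isOpen_iff_finite F).mp (by rw [hK]; exact hopen)
  have hF : ∀ g : GQ, g ∈ F.fixingSubgroup ↔ r g *ᵥ v₀ = v₀ := fun g => by rw [hK]; rfl
  have hone : ∀ g : GQ, r g = 1 → g ∈ F.fixingSubgroup := fun g hg =>
    (hF g).mpr (by rw [hg, Matrix.one_mulVec])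
  have hsqF : ∀ g : GQ, r g * r g = 1 → g * g ∈ F.fixingSubgroup := fun g hg =>
    hone _ (by rw [map_mul, hg])
  have hgoodI : ∀ {ℓ : ℕ}, ℓ.Prime → ℓ ≠ 2 → W.IsGoodPrimeFor ℓ → ∀ B : ValuationSubring QBar,
      B.LiesOverPrime ℓ → ∀ t ∈ B.inertiaSubgroupIn ℚ, t ∈ F.fixingSubgroup :=
    fun hℓ h2 hg B hB t ht => hone t (rhoBar_eq_one_of_inertia hW.Δ_ne_zero hℓ h2 hg hB ht)
  have hIA : ∀ t ∈ A.inertiaSubgroupIn ℚ, t ∈ F.fixingSubgroup :=
    hgoodI hq.prime hq.ne_two hq.good A hA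
  obtain ⟨z, hz0, hzF, hz⟩ := hψ.exists_root hF
  obtain ⟨w₁, hw₁0, hw₁F, hw₁⟩ := hφ.exists_root hF
  obtain ⟨k, hk⟩ := Selmer.exists_unit_of_fixed hA hq.prime hw₁0 fun t ht =>
    (hw₁ t (hIA t ht)).mpr (by
      rw [hφ.unramified q hq.prime hq.ne_two hq.good hqQ A hA t ht, Selmer.pairWith_zero])
  set w := w₁ / (q : QBar) ^ k with hwdef
  have hc0 : ((q : QBar) ^ k) ≠ 0 := zpow_ne_zero _ (Nat.cast_ne_zero.mpr hq.prime.ne_zero)
  have hw0 : w ≠ 0 := div_ne_zero hw₁0 hc0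
  have hwF : w ^ 2 ∈ F := by
    rw [hwdef, div_pow]; exact div_mem hw₁F (pow_mem (zpow_mem (natCast_mem F q) k) 2)
  have hw : ∀ g ∈ F.fixingSubgroup, (g w = w ↔ Selmer.pairWith v₀ (φ g) = 0) := fun g hg => by
    rw [hwdef, map_div₀, map_zpow₀, map_natCast, div_left_inj' hc0, hw₁ g hg]
  have hnot : ¬ Selmer.IsNormAt F (w ^ 2) (z ^ 2) A := by
    refine Selmer.not_isNormAt hA hq.prime hq.ne_two hσA hIA (hsqF σ hσ2) hzF
      (by rw [map_pow, hk, one_pow]) ?_ hτ fun h => ?_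
    · rw [← AlgEquiv.mul_apply]
      refine (Selmer.apply_eq_or_eq_neg ((IntermediateField.mem_fixingSubgroup_iff _ _).mp
        (hsqF σ hσ2) _ hwF)).resolve_left fun h => ?_
      have := (hw _ (hsqF σ hσ2)).mp h
      rw [hφ.cocycle, hsum] at this
      exact one_ne_zero this
    · have := (hz τ (hIA τ hτ)).mp h
      rw [hline _ ((hψ.aux q (Finset.mem_insert_self q Q) A hA σ hσ).2 τ hτ) hτ0] at this
      exact one_ne_zero this
  refine hnot (hH F inferInstance (z ^ 2) (w ^ 2) hzF hwF (pow_ne_zero 2 hz0) (pow_ne_zero 2 hw0) q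
    A hq.prime hq.ne_two hA (by rw [map_pow, hk, one_pow]) (fun ℓ B hℓ hB horbit => ?_)
    fun f hf => ⟨hψ.root_real hW hv₀ hF hz0 hz hf, hφ.root_real hW hv₀ hF hw0 hw hf⟩)
  obtain ⟨s, hs⟩ := Arith.exists_isFrobeniusAt hB hℓ
  rcases eq_or_ne ℓ 2 with rfl | hℓ2
  · obtain ⟨hI2, hF2⟩ := rhoBar_two hW hB
    obtain ⟨hs2, hs1⟩ := hF2 s hs
    obtain ⟨a1, a2, a3⟩ := hψ.root_two hF hz hv₀ hz0 hzF hB hI2 hs hs2 hs1
    obtain ⟨b1, b2, b3⟩ := hφ.root_two hF hw hv₀ hw0 hwF hB hI2 hs hs2 hs1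
    exact Selmer.isNormAt_two hB hs (fun t ht => hone t (hI2 t ht)) (hsqF s hs2) hz0 hw0 hzF hwF
      a1 b1 a2 b2 a3 b3
  by_cases hgood : W.IsGoodPrimeFor ℓ
  swap
  · have hd : (ℓ : ℤ) ∣ W.Δ := not_not.mp hgood
    refine Selmer.isNormAt_of_fixed hB hℓ hℓ2 ?_ hz0 hw0 hzF hwF
      (fun t ht htF => hψ.root_bad hF hz hv₀ hℓ hd hB ht htF)
      (fun t ht htF => hφ.root_bad hF hw hv₀ hℓ hd hB ht htF)
    intro t ht t' ht' htF ht'F
    have h2 := fun {u : GQ} (hu : u ∈ B.inertiaSubgroupIn ℚ) =>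
      rhoBar_mul_self_of_inertia hW hℓ hℓ2 hB hu
    have e : r t = r t' := Selmer.involution_unique _ _ (rhoBar_det hW.Δ_ne_zero t)
      (rhoBar_det hW.Δ_ne_zero t') (h2 ht) (h2 ht')
      (by rw [← map_mul]; exact h2 (mul_mem ht ht'))
      (fun h => htF (hone t h)) (fun h => ht'F (hone t' h))
    exact ⟨hone _ (by rw [map_mul, e]; exact h2 ht'),
      hone _ (by rw [map_mul, e, ← map_mul, inv_mul_cancel, map_one])⟩
  have hIB := hgoodI hℓ hℓ2 hgood B hB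
  have hidx : ∀ t ∈ B.inertiaSubgroupIn ℚ, ∀ t' ∈ B.inertiaSubgroupIn ℚ, t ∉ F.fixingSubgroup →
      t' ∉ F.fixingSubgroup → t * t' ∈ F.fixingSubgroup ∧ t'⁻¹ * t ∈ F.fixingSubgroup :=
    fun t ht _ _ htF _ => absurd (hIB t ht) htF
  by_cases hℓQ : ℓ ∈ Q
  · obtain ⟨hs2, hs1⟩ := (hQ ℓ hℓQ).frob_invol B hB s hs
    by_cases hsF : s ∈ F.fixingSubgroup
    · exact Selmer.isNormAt_of_fixed hB hℓ hℓ2 hidx hz0 hw0 hzF hwF
        (fun t ht htF =>
          hψ.root_aux_fixing hF hz hv₀ (Finset.mem_insert_of_mem hℓQ) hB hs hs1 hsF ht htF)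
        (fun t ht htF => hφ.root_aux_fixing hF hw hv₀ hℓQ hB hs hs1 hsF ht htF)
    · exact Selmer.isNormAt_of_frob_sq hB hℓ hℓ2 hs hIB hsF (hsqF s hs2) hz0 hw0 hzF hwF
        (hψ.root_aux_sq hF hz (Finset.mem_insert_of_mem hℓQ) hB hs (hsqF s hs2))
        (hφ.root_aux_sq hF hw hℓQ hB hs (hsqF s hs2))
  have hwfix : ∀ t ∈ B.inertiaSubgroupIn ℚ, t ∈ F.fixingSubgroup → t w = w := fun t ht htF =>
    (hw t htF).mpr (by
      rw [hφ.unramified ℓ hℓ hℓ2 hgood hℓQ B hB t ht, Selmer.pairWith_zero])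
  rcases eq_or_ne ℓ q with rfl | hℓq
  · obtain ⟨g, rfl⟩ := Arith.exists_smul_eq hA hB hℓ
    have hg0 : r g⁻¹ *ᵥ v₀ ≠ 0 := fun h => hv₀ (by
      rw [← Matrix.one_mulVec v₀, ← map_one r, ← mul_inv_cancel g, map_mul, ← Matrix.mulVec_mulVec,
        h, Matrix.mulVec_zero])
    have hno : ∀ d : GQ, d • A = A → r d *ᵥ v₀ = r g⁻¹ *ᵥ v₀ → False := fun d hdA hd => by
      refine horbit (g * d)⁻¹ (inv_mem ((hF _).mpr ?_)) ?_
      · rw [map_mul, ← Matrix.mulVec_mulVec, hd, Matrix.mulVec_mulVec, ← map_mul, mul_inv_cancel,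
          map_one, Matrix.one_mulVec]
      · rw [inv_smul_eq_iff, mul_smul, hdA]
    rcases hcases _ hg0 with h | h | h
    · exact (hno 1 (one_smul _ _) (by rw [map_one, Matrix.one_mulVec, h])).elim
    · exact (hno σ hσA (by
        conv_lhs => rw [← h]
        rw [Matrix.mulVec_mulVec, hσ2, Matrix.one_mulVec])).elim
    have hs' := Arith.isFrobeniusAt_conj (g := g) hσ
    have hs'F : g * σ * g⁻¹ ∈ F.fixingSubgroup := (hF _).mpr (by
      rw [map_mul, map_mul, ← Matrix.mulVec_mulVec, ← Matrix.mulVec_mulVec, h,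
        Matrix.mulVec_mulVec, ← map_mul, mul_inv_cancel, map_one, Matrix.one_mulVec])
    exact Selmer.isNormAt_of_fixed hB hℓ hℓ2 hidx hz0 hw0 hzF hwF
      (fun t ht htF => hψ.root_aux_fixing hF hz hv₀ (Finset.mem_insert_self _ _) hB hs'
        (hq.frob_invol _ hB _ hs').2 hs'F ht htF) hwfix
  · exact Selmer.isNormAt_of_fixed hB hℓ hℓ2 hidx hz0 hw0 hzF hwF
      (fun t ht htF => (hz t htF).mpr (by
        rw [hψ.unramified ℓ hℓ hℓ2 hgood (by simp [hℓq, hℓQ]) B hB t ht, Selmer.pairWith_zero]))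
      hwfix

end Fermat.Agent.TwoAdic
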