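import Fermat.Agent.Arith.Places
import Mathlib.Analysis.Complex.Basic

/-!
# The reciprocity input of Lemma B: quadratic norms at a single place

`IsNormAt F β α A` says that `α` is, arbitrarily closely at the place `A`, a value of the norm
form `a ^ 2 - β * b ^ 2` with `a b ∈ F`.
-/

set_option autoImplicit false

noncomputable section

namespace Fermat.Agent.TwoAdic.Selmer

open scoped Pointwise
open Arith (QBar GQ)

/-- `α` is a local norm from `F(√β)` at the place `A`. -/
def IsNormAt (F : IntermediateField ℚ QBar) (β α : QBar) (A : ValuationSubring QBar) : Prop :=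
  ∀ ε : QBar, ε ≠ 0 →
    ∃ a b : QBar, a ∈ F ∧ b ∈ F ∧ A.valuation (α - (a ^ 2 - β * b ^ 2)) ≤ A.valuation ε

/-- Consequence of the reciprocity law for the quadratic extension `F(√β)/F`: an element which is a
local norm at all real places and at all finite places outside one orbit `A₀` of odd residue
characteristic at which `β` is a unit, is a local norm at `A₀` too. -/
def HilbertSingleInput : Prop :=
  ∀ (F : IntermediateField ℚ QBar), FiniteDimensional ℚ F → ∀ α β : QBar, α ∈ F → β ∈ F →
    α ≠ 0 → β ≠ 0 →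
    ∀ (ℓ₀ : ℕ) (A₀ : ValuationSubring QBar), ℓ₀.Prime → ℓ₀ ≠ 2 → A₀.LiesOverPrime ℓ₀ →
      A₀.valuation β = 1 →
      (∀ (ℓ : ℕ) (A : ValuationSubring QBar), ℓ.Prime → A.LiesOverPrime ℓ →
        (∀ g : GQ, g ∈ F.fixingSubgroup → g • A ≠ A₀) → IsNormAt F β α A) →
      (∀ φ : QBar →+* ℂ, (∀ x ∈ F, (φ x).im = 0) → 0 < (φ α).re ∧ 0 < (φ β).re) →
      IsNormAt F β α A₀

end Fermat.Agent.TwoAdic.Selmer
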