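import Fermat.Agent.TwoAdic.Selmer.Residues
import Mathlib.FieldTheory.Finite.Basic

/-!
# Quadratic norms at the odd places

An element is a norm from `F(√β)` at an odd place when both square roots are fixed by the inertia
of the field, and at a place where the field has residue degree two and both square roots are
fixed by the square of Frobenius. A ramified element is not a norm when `β` is a nonsquare unit.
-/

set_option autoImplicit false
set_option linter.style.haveILetI false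

noncomputable section

namespace Fermat.Agent.TwoAdic.Selmer

open scoped Pointwise
open Polynomial
open Arith (QBar GQ)

variable {ℓ : ℕ} {A : ValuationSubring QBar} {F : IntermediateField ℚ QBar} {σ : GQ}

theorem mem_of_valuation_eq_one {x : QBar} (h : A.valuation x = 1) : x ∈ A :=
  (A.valuation_le_one_iff x).mp h.le

theorem ne_zero_of_valuation_eq_one {x : QBar} (h : A.valuation x = 1) : x ≠ 0 := fun h0 => by
  rw [h0, map_zero] at h; exact zero_ne_one h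

theorem valuation_eq_one_of_sq {x : QBar} (h : A.valuation (x ^ 2) = 1) : A.valuation x = 1 := by
  rw [map_pow] at h
  exact (pow_eq_one_iff.mp h).resolve_right two_ne_zero

theorem valuation_four_of_odd (hA : A.LiesOverPrime ℓ) (hℓ : ℓ.Prime) (hℓ2 : ℓ ≠ 2) :
    A.valuation (4 : QBar) = 1 := by
  refine le_antisymm valuation_four_le_one (not_lt.mp fun h => ?_)
  have h4 : ((4 : ℤ) : QBar) ∈ A.nonunits := by
    rw [ValuationSubring.mem_nonunits_iff]
    exact_mod_cast h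
  have h2 := (Arith.intCast_mem_nonunits_iff hA hℓ 4).mp h4
  exact hℓ2 ((Nat.prime_dvd_prime_iff_eq hℓ Nat.prime_two).mp
    (hℓ.dvd_of_dvd_pow (show ℓ ∣ 2 ^ 2 by exact_mod_cast h2)))

/-- An element congruent to a square makes everything a norm. -/
theorem isNormAt_of_sq_congr (hA : A.LiesOverPrime ℓ) (hℓ : ℓ.Prime) {α β t : QBar} (hα : α ∈ F)
    (hβ : β ∈ F) (ht : t ∈ F) (ht1 : A.valuation t = 1)
    (h : A.valuation (β - t ^ 2) < A.valuation (4 : QBar)) : IsNormAt F β α A := by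
  intro ε hε
  have ht0 := ne_zero_of_valuation_eq_one ht1
  set D := ((α - 1) / (2 * t)) ^ 2 with hD
  by_cases hD0 : D = 0
  · rw [hD, sq_eq_zero_iff, div_eq_zero_iff] at hD0
    have h1 : α = 1 := sub_eq_zero.mp (hD0.resolve_right (mul_ne_zero two_ne_zero ht0))
    refine ⟨1, 0, one_mem F, zero_mem F, ?_⟩
    rw [show α - (1 ^ 2 - β * 0 ^ 2) = 0 by rw [h1]; ring, map_zero]
    exact zero_le
  have hu : A.valuation (β / t ^ 2 - 1) < A.valuation (4 : QBar) := by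
    rw [div_sub_one (pow_ne_zero 2 ht0), map_div₀, map_pow, ht1, one_pow, div_one]
    exact h
  obtain ⟨δ, hδ0, hδ1, hδε⟩ : ∃ δ : QBar, δ ≠ 0 ∧ A.valuation δ < 1 ∧
      A.valuation δ ≤ A.valuation (ε / D) := by
    rcases lt_or_ge (A.valuation (ε / D)) 1 with hlt | hge
    · exact ⟨ε / D, div_ne_zero hε hD0, hlt, le_rfl⟩
    · have hl : A.valuation (ℓ : QBar) < 1 := (ValuationSubring.mem_nonunits_iff A).mp hA
      exact ⟨(ℓ : QBar), Nat.cast_ne_zero.mpr hℓ.ne_zero, hl, hl.le.trans hge⟩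
  obtain ⟨c, hcF, hc⟩ := sq_approx hA hℓ (div_mem hβ (pow_mem ht 2)) hu hδ0
  have hw1 : A.valuation (β / t ^ 2) = 1 := by
    have : A.valuation (β / t ^ 2 - 1) < 1 := hu.trans_le valuation_four_le_one
    rw [show β / t ^ 2 = 1 + (β / t ^ 2 - 1) by ring,
      Valuation.map_add_eq_of_lt_left _ (by rwa [map_one]), map_one]
  have hc1 : A.valuation c = 1 := by
    refine valuation_eq_one_of_sq ?_
    rw [show c ^ 2 = β / t ^ 2 + -(β / t ^ 2 - c ^ 2) by ring,
      Valuation.map_add_eq_of_lt_left _ (by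
        rw [Valuation.map_neg, hw1]; exact hc.trans_lt hδ1), hw1]
  have hc0 := ne_zero_of_valuation_eq_one hc1
  refine ⟨(α + 1) / 2, (α - 1) / (2 * t) / c, div_mem (add_mem hα (one_mem F)) (ofNat_mem F 2),
    div_mem (div_mem (sub_mem hα (one_mem F)) (mul_mem (ofNat_mem F 2) ht)) hcF, ?_⟩
  have e : α - (((α + 1) / 2) ^ 2 - β * ((α - 1) / (2 * t) / c) ^ 2) =
      (β / t ^ 2 - c ^ 2) * t ^ 2 * D / c ^ 2 := by
    rw [hD]; field_simp; ring
  rw [e, map_div₀, map_mul, map_mul, map_pow _ t, map_pow _ c, ht1, hc1, one_pow, div_one, mul_one]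
  calc A.valuation (β / t ^ 2 - c ^ 2) * A.valuation D
      ≤ A.valuation (ε / D) * A.valuation D := mul_le_mul_left (hc.trans hδε) _
    _ = A.valuation ε := by rw [← map_mul, div_mul_cancel₀ _ hD0]

/-- Units are norms of unramified quadratic extensions at an odd place. -/
theorem exists_residual_norm (hA : A.LiesOverPrime ℓ) (hℓ : ℓ.Prime) (hℓ2 : ℓ ≠ 2) {α β : QBar}
    (hα : α ∈ F) (hβ : β ∈ F) (hα1 : A.valuation α = 1) (hβ1 : A.valuation β = 1) :
    ∃ a ∈ F, ∃ b ∈ F, α - (a ^ 2 - β * b ^ 2) ∈ A.nonunits := by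
  classical
  let x : intPart A F := ⟨α, hα, mem_of_valuation_eq_one hα1⟩
  let y : intPart A F := ⟨β, hβ, mem_of_valuation_eq_one hβ1⟩
  obtain ⟨K, hKfin, hxK, hyK, hKle⟩ := exists_finite_residues hA hℓ x y
  haveI := hKfin
  haveI := Fintype.ofFinite K
  letI : Field K := Fintype.fieldOfDomain K
  haveI := Arith.residueField_charP hA hℓ
  haveI : CharP K ℓ := (K.subtype.charP_iff Subtype.val_injective ℓ).mpr inferInstance
  set xr : K := ⟨_, hxK⟩ with hxr
  set yr : K := ⟨_, hyK⟩ with hyr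
  have hyr0 : yr ≠ 0 := fun h => by
    have h' : resPart A F y = 0 := congrArg Subtype.val h
    have h'' := (resPart_eq_iff (x := y) (z := (0 : QBar)) (zero_mem A)).mp (h'.trans (map_zero _).symm)
    rw [sub_zero, ValuationSubring.mem_nonunits_iff, hβ1] at h''
    exact lt_irrefl _ h''
  obtain ⟨a, b, hab⟩ := FiniteField.exists_root_sum_quadratic
    (f := X ^ 2 - C xr) (g := -C yr * X ^ 2) (degree_X_pow_sub_C two_pos _)
    (by rw [neg_mul, degree_neg, degree_C_mul_X_pow 2 hyr0]; rfl)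
    (FiniteField.odd_card_of_char_ne_two (by rw [ringChar.eq K ℓ]; exact hℓ2))
  simp only [eval_sub, eval_pow, eval_X, eval_C, eval_mul, eval_neg] at hab
  obtain ⟨a', ha'⟩ := hKle a.2
  obtain ⟨b', hb'⟩ := hKle b.2
  refine ⟨a', (mem_intPart.mp a'.2).1, b', (mem_intPart.mp b'.2).1, ?_⟩
  have h : resPart A F (x - (a' ^ 2 - y * b' ^ 2)) = 0 := by
    rw [map_sub, map_sub, map_mul, map_pow, map_pow, ha', hb']
    have := congrArg Subtype.val hab
    push_cast [hxr, hyr] at this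
    linear_combination -this
  have := (resPart_eq_iff (z := (0 : QBar)) (zero_mem A)).mp (h.trans (map_zero _).symm)
  simpa [x, y] using this

/-- A square root fixed by the inertia of the field becomes a unit on dividing by the field. -/
theorem exists_scale (hA : A.LiesOverPrime ℓ) (hℓ : ℓ.Prime)
    (hidx : ∀ τ ∈ A.inertiaSubgroupIn ℚ, ∀ τ' ∈ A.inertiaSubgroupIn ℚ, τ ∉ F.fixingSubgroup →
      τ' ∉ F.fixingSubgroup → τ * τ' ∈ F.fixingSubgroup ∧ τ'⁻¹ * τ ∈ F.fixingSubgroup)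
    {z : QBar} (hz : z ≠ 0)
    (hfix : ∀ τ ∈ A.inertiaSubgroupIn ℚ, τ ∈ F.fixingSubgroup → τ z = z) :
    ∃ c ∈ F, c ≠ 0 ∧ A.valuation (z ^ 2 / c ^ 2) = 1 := by
  obtain ⟨c, hcF, hc0, hc⟩ := exists_same_valuation hA hℓ hidx hz hfix
  refine ⟨c, hcF, hc0, ?_⟩
  rw [← div_pow, map_pow, map_div₀, hc, div_self ((Valuation.ne_zero_iff _).mpr hc0), one_pow]

/-- An odd place unramified in `F(√α, √β)/F`. -/
theorem isNormAt_of_fixed (hA : A.LiesOverPrime ℓ) (hℓ : ℓ.Prime) (hℓ2 : ℓ ≠ 2)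
    (hidx : ∀ τ ∈ A.inertiaSubgroupIn ℚ, ∀ τ' ∈ A.inertiaSubgroupIn ℚ, τ ∉ F.fixingSubgroup →
      τ' ∉ F.fixingSubgroup → τ * τ' ∈ F.fixingSubgroup ∧ τ'⁻¹ * τ ∈ F.fixingSubgroup)
    {z w : QBar} (hz : z ≠ 0) (hw : w ≠ 0) (hzF : z ^ 2 ∈ F) (hwF : w ^ 2 ∈ F)
    (hzfix : ∀ τ ∈ A.inertiaSubgroupIn ℚ, τ ∈ F.fixingSubgroup → τ z = z)
    (hwfix : ∀ τ ∈ A.inertiaSubgroupIn ℚ, τ ∈ F.fixingSubgroup → τ w = w) :
    IsNormAt F (w ^ 2) (z ^ 2) A := by
  obtain ⟨c, hcF, hc0, hc⟩ := exists_scale hA hℓ hidx hz hzfix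
  obtain ⟨d, hdF, hd0, hd⟩ := exists_scale hA hℓ hidx hw hwfix
  have hα := div_mem hzF (pow_mem hcF 2)
  have hβ := div_mem hwF (pow_mem hdF 2)
  obtain ⟨a, ha, b, hb, hab⟩ := exists_residual_norm hA hℓ hℓ2 hα hβ hc hd
  have hn : IsNormAt F (w ^ 2 / d ^ 2) (z ^ 2 / c ^ 2) A := norm_of_congr hA hℓ hα hβ ha hb (by
    rw [map_mul, valuation_four_of_odd hA hℓ hℓ2, hc, one_mul]
    exact (ValuationSubring.mem_nonunits_iff A).mp hab)
  have := (hn.mul_sq_left hdF hd0).mul_sq hcF hc0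
  rwa [div_mul_cancel₀ _ (pow_ne_zero 2 hd0), div_mul_cancel₀ _ (pow_ne_zero 2 hc0)] at this

/-- Elements fixed by the square of Frobenius have residues in the quadratic extension. -/
theorem residue_fixed_sq (hσ : A.IsFrobeniusAt σ ℓ) {x : QBar} (hx : x ∈ A)
    (hfix : σ (σ x) = x) : x ^ (ℓ * ℓ) - x ∈ A.nonunits := by
  obtain ⟨hσA, hf⟩ := Arith.isFrobeniusAt_iff_forall_mem.mp hσ
  have hσx : σ x ∈ A := Arith.map_mem_of_mem_decomposition hσA hx
  have h1 : IsLocalRing.residue A ⟨σ x, hσx⟩ = IsLocalRing.residue A ⟨x, hx⟩ ^ ℓ := by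
    rw [← map_pow]; exact Arith.residue_eq_iff.mpr (hf x hx)
  have h2 : IsLocalRing.residue A ⟨x, hx⟩ = IsLocalRing.residue A ⟨σ x, hσx⟩ ^ ℓ := by
    rw [← map_pow]
    refine Arith.residue_eq_iff.mpr ?_
    have := hf _ hσx
    rwa [hfix] at this
  rw [h1, ← pow_mul, ← map_pow] at h2
  exact Arith.residue_eq_iff.mp h2.symm

/-- Residues of elements fixed by the square of Frobenius lift into a field it moves. -/
theorem exists_lift_fixed (hA : A.LiesOverPrime ℓ) (hℓ : ℓ.Prime) (hσ : A.IsFrobeniusAt σ ℓ)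
    (hI : ∀ τ ∈ A.inertiaSubgroupIn ℚ, τ ∈ F.fixingSubgroup) (hmove : σ ∉ F.fixingSubgroup)
    (hsq : σ * σ ∈ F.fixingSubgroup) {z : QBar} (hzA : z ∈ A) (hz : z ^ (ℓ * ℓ) - z ∈ A.nonunits) :
    ∃ s ∈ F, s ∈ A ∧ z - s ∈ A.nonunits := by
  obtain ⟨x, hxF, hxA, hx1⟩ := exists_residue_moved hA hℓ hσ hI hmove
  refine exists_residue_lift hA hℓ hxF hxA hx1 (residue_fixed_sq hσ hxA ?_) hzA hz
  exact (IntermediateField.mem_fixingSubgroup_iff _ _).mp hsq x hxF

/-- A square root is fixed by inertia when the value of the square is an even power of the prime. -/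
theorem apply_sqrt_of_even (hA : A.LiesOverPrime ℓ) (hℓ : ℓ.Prime) (hℓ2 : ℓ ≠ 2) {z : QBar} {k : ℤ}
    (hk : A.valuation (z ^ 2) = A.valuation (ℓ : QBar) ^ k) (hev : Even k) {τ : GQ}
    (hτ : τ ∈ A.inertiaSubgroupIn ℚ) (hfix : τ (z ^ 2) = z ^ 2) : τ z = z := by
  obtain ⟨m, rfl⟩ := hev
  have hℓ0 : (ℓ : QBar) ≠ 0 := Nat.cast_ne_zero.mpr hℓ.ne_zero
  have hv : A.valuation (ℓ : QBar) ≠ 0 := (Valuation.ne_zero_iff _).mpr hℓ0
  have h1 : A.valuation ((z / (ℓ : QBar) ^ m) ^ 2) = 1 := by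
    rw [div_pow, map_div₀, hk, map_pow, map_zpow₀, ← zpow_natCast, ← zpow_mul, mul_comm m,
      Nat.cast_ofNat, two_mul, div_self (zpow_ne_zero _ hv)]
  have := apply_sqrt_of_unit hA hℓ hℓ2 h1 hτ (by
    rw [div_pow, map_div₀, hfix, map_pow, map_zpow₀, map_natCast])
  rw [map_div₀, map_zpow₀, map_natCast] at this
  field_simp at this
  exact this

/-- The place of an auxiliary prime: residue degree two and both roots fixed by Frobenius
squared. -/
theorem isNormAt_of_frob_sq (hA : A.LiesOverPrime ℓ) (hℓ : ℓ.Prime) (hℓ2 : ℓ ≠ 2)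
    (hσ : A.IsFrobeniusAt σ ℓ) (hI : ∀ τ ∈ A.inertiaSubgroupIn ℚ, τ ∈ F.fixingSubgroup)
    (hmove : σ ∉ F.fixingSubgroup) (hsq : σ * σ ∈ F.fixingSubgroup) {z w : QBar} (hz : z ≠ 0)
    (hw : w ≠ 0) (hzF : z ^ 2 ∈ F) (hwF : w ^ 2 ∈ F) (hzσ : σ (σ z) = z) (hwσ : σ (σ w) = w) :
    IsNormAt F (w ^ 2) (z ^ 2) A := by
  have hℓ0 : (ℓ : QBar) ≠ 0 := Nat.cast_ne_zero.mpr hℓ.ne_zero
  have hv4 := valuation_four_of_odd hA hℓ hℓ2
  have hFfix : ∀ {τ : GQ}, τ ∈ A.inertiaSubgroupIn ℚ → ∀ {x : QBar}, x ∈ F → τ x = x :=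
    fun hτ _ hx => (IntermediateField.mem_fixingSubgroup_iff _ _).mp (hI _ hτ) _ hx
  have hlift : ∀ u : QBar, u ≠ 0 → (∀ τ ∈ A.inertiaSubgroupIn ℚ, τ u = u) → σ (σ u) = u →
      ∃ k : ℤ, ∃ s ∈ F, A.valuation (u / (ℓ : QBar) ^ k) = 1 ∧ A.valuation s = 1 ∧
        u / (ℓ : QBar) ^ k - s ∈ A.nonunits := by
    intro u hu hfix hσu
    obtain ⟨k, hk⟩ := exists_unit_of_fixed hA hℓ hu hfix
    have hA' := mem_of_valuation_eq_one hk
    obtain ⟨s, hsF, hsA, hs⟩ := exists_lift_fixed hA hℓ hσ hI hmove hsq hA'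
      (residue_fixed_sq hσ hA' (by simp [hσu]))
    refine ⟨k, s, hsF, hk, ?_, hs⟩
    rw [ValuationSubring.mem_nonunits_iff] at hs
    rw [show s = u / (ℓ : QBar) ^ k + -(u / (ℓ : QBar) ^ k - s) by ring,
      Valuation.map_add_eq_of_lt_left _ (by rwa [Valuation.map_neg, hk]), hk]
  obtain ⟨k, hk⟩ := valuation_eq_zpow_of_fixed hA hℓ (pow_ne_zero 2 hz) fun τ hτ => hFfix hτ hzF
  obtain ⟨j, hj⟩ := valuation_eq_zpow_of_fixed hA hℓ (pow_ne_zero 2 hw) fun τ hτ => hFfix hτ hwF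
  rcases Int.even_or_odd k with hke | hko
  · obtain ⟨m, s, hsF, hu1, hs1, hus⟩ := hlift z hz
      (fun τ hτ => apply_sqrt_of_even hA hℓ hℓ2 hk hke hτ (hFfix hτ hzF)) hzσ
    set u := z / (ℓ : QBar) ^ m with hu
    have hu2 : u ^ 2 ∈ F := by
      rw [hu, div_pow]; exact div_mem hzF (pow_mem (zpow_mem (natCast_mem F ℓ) m) 2)
    have hn : IsNormAt F (w ^ 2) (u ^ 2) A :=
      norm_of_congr hA hℓ (a := s) (b := 0) hu2 hwF hsF (zero_mem F) (by
        rw [map_mul, hv4, map_pow, hu1, one_pow, one_mul,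
          show u ^ 2 - (s ^ 2 - w ^ 2 * 0 ^ 2) = (u + s) * (u - s) by ring, map_mul]
        refine mul_lt_one_of_nonneg_of_lt_one_right ?_ zero_le
          ((ValuationSubring.mem_nonunits_iff A).mp hus)
        exact (Valuation.map_add _ _ _).trans (max_le hu1.le hs1.le))
    have := hn.mul_sq (zpow_mem (natCast_mem F ℓ) m) (zpow_ne_zero _ hℓ0)
    rwa [hu, div_pow, div_mul_cancel₀ _ (pow_ne_zero 2 (zpow_ne_zero _ hℓ0))] at this
  rcases Int.even_or_odd j with hje | hjo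
  · obtain ⟨m, s, hsF, hu1, hs1, hus⟩ := hlift w hw
      (fun τ hτ => apply_sqrt_of_even hA hℓ hℓ2 hj hje hτ (hFfix hτ hwF)) hwσ
    set u := w / (ℓ : QBar) ^ m with hu
    have hu2 : u ^ 2 ∈ F := by
      rw [hu, div_pow]; exact div_mem hwF (pow_mem (zpow_mem (natCast_mem F ℓ) m) 2)
    have hn : IsNormAt F (u ^ 2) (z ^ 2) A :=
      isNormAt_of_sq_congr hA hℓ hzF hu2 hsF hs1 (by
        rw [hv4, show u ^ 2 - s ^ 2 = (u + s) * (u - s) by ring, map_mul]
        refine mul_lt_one_of_nonneg_of_lt_one_right ?_ zero_le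
          ((ValuationSubring.mem_nonunits_iff A).mp hus)
        exact (Valuation.map_add _ _ _).trans (max_le hu1.le hs1.le))
    have := hn.mul_sq_left (zpow_mem (natCast_mem F ℓ) m) (zpow_ne_zero _ hℓ0)
    rwa [hu, div_pow, div_mul_cancel₀ _ (pow_ne_zero 2 (zpow_ne_zero _ hℓ0))] at this
  have hkj : A.valuation ((z * w) ^ 2) = A.valuation (ℓ : QBar) ^ (k + j) := by
    rw [mul_pow, map_mul, hk, hj, zpow_add₀ ((Valuation.ne_zero_iff _).mpr hℓ0)]
  obtain ⟨m, s, hsF, hu1, hs1, hus⟩ := hlift (z * w) (mul_ne_zero hz hw)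
    (fun τ hτ => apply_sqrt_of_even hA hℓ hℓ2 hkj (hko.add_odd hjo) hτ
      (by rw [mul_pow, map_mul, hFfix hτ hzF, hFfix hτ hwF])) (by rw [map_mul, map_mul, hzσ, hwσ])
  set u := z * w / (ℓ : QBar) ^ m with hu
  obtain ⟨i, hi⟩ := IsAlgClosed.exists_pow_nat_eq (-1 : QBar) two_pos
  have hi1 : A.valuation i = 1 := valuation_eq_one_of_sq (by rw [hi, Valuation.map_neg, map_one])
  obtain ⟨r, hr⟩ : ∃ r, ℓ * ℓ = 4 * r + 1 := by
    obtain ⟨t, ht⟩ := hℓ.odd_of_ne_two hℓ2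
    exact ⟨t * t + t, by rw [ht]; ring⟩
  have hi4 : i ^ (ℓ * ℓ) = i := by
    rw [hr, pow_succ, pow_mul, show i ^ 4 = (i ^ 2) ^ 2 by ring, hi]
    norm_num
  obtain ⟨g, hgF, hgA, hg⟩ := exists_lift_fixed hA hℓ hσ hI hmove hsq
    (mem_of_valuation_eq_one hi1) (by rw [hi4, sub_self]; exact zero_mem A.nonunits)
  refine norm_of_congr hA hℓ (a := 0) (b := g * s * ((ℓ : QBar) ^ m) / w ^ 2) hzF hwF (zero_mem F)
    (div_mem (mul_mem (mul_mem hgF hsF) (zpow_mem (natCast_mem F ℓ) m)) hwF) ?_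
  have hres : u ^ 2 + g ^ 2 * s ^ 2 ∈ A.nonunits := by
    have e : u ^ 2 + g ^ 2 * s ^ 2 = (u - s) * (u + s) + (g - i) * ((g + i) * s ^ 2) := by
      linear_combination (s ^ 2) * hi
    rw [e]
    refine Arith.nonunits_add (Arith.nonunits_mul_right hus ?_) (Arith.nonunits_mul_right
      (by rw [← neg_sub]; exact Arith.nonunits_neg hg) ?_)
    · exact add_mem (mem_of_valuation_eq_one hu1) (mem_of_valuation_eq_one hs1)
    · exact mul_mem (add_mem hgA (mem_of_valuation_eq_one hi1))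
        (pow_mem (mem_of_valuation_eq_one hs1) 2)
  set M := ((ℓ : QBar) ^ m) ^ 2 / w ^ 2 with hM
  have hz2 : z ^ 2 = M * u ^ 2 := by rw [hM, hu]; field_simp
  have hM0 : M ≠ 0 := div_ne_zero (pow_ne_zero 2 (zpow_ne_zero _ hℓ0)) (pow_ne_zero 2 hw)
  rw [show z ^ 2 - ((0 : QBar) ^ 2 - w ^ 2 * (g * s * (ℓ : QBar) ^ m / w ^ 2) ^ 2) =
    M * (u ^ 2 + g ^ 2 * s ^ 2) by rw [hM, hu]; field_simp; ring, hz2]
  simp only [map_mul, map_pow, hv4, hu1, one_pow, mul_one, one_mul]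
  refine mul_lt_of_lt_one_right (zero_lt_iff.mpr ((Valuation.ne_zero_iff _).mpr hM0)) ?_
  exact (ValuationSubring.mem_nonunits_iff A).mp hres

/-- A ramified element is no norm if `β` is a nonsquare unit. -/
theorem not_isNormAt (hA : A.LiesOverPrime ℓ) (hℓ : ℓ.Prime) (hℓ2 : ℓ ≠ 2)
    (hσA : σ • A = A) (hI : ∀ τ ∈ A.inertiaSubgroupIn ℚ, τ ∈ F.fixingSubgroup)
    (hsq : σ * σ ∈ F.fixingSubgroup) {z w : QBar} (hzF : z ^ 2 ∈ F)
    (hw1 : A.valuation (w ^ 2) = 1) (hwσ : σ (σ w) = -w) {τ : GQ}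
    (hτ : τ ∈ A.inertiaSubgroupIn ℚ) (hτz : τ z ≠ z) : ¬ IsNormAt F (w ^ 2) (z ^ 2) A := by
  intro hn
  have hz : z ≠ 0 := fun h0 => hτz (by rw [h0, map_zero])
  have hℓ0 : (ℓ : QBar) ≠ 0 := Nat.cast_ne_zero.mpr hℓ.ne_zero
  have hvℓ : A.valuation (ℓ : QBar) < 1 := (ValuationSubring.mem_nonunits_iff A).mp hA
  have hFfix : ∀ {x : QBar}, x ∈ F → ∀ τ' ∈ A.inertiaSubgroupIn ℚ, τ' x = x :=
    fun hx τ' hτ' => (IntermediateField.mem_fixingSubgroup_iff _ _).mp (hI _ hτ') _ hx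
  obtain ⟨k, hk⟩ := valuation_eq_zpow_of_fixed hA hℓ (pow_ne_zero 2 hz) (hFfix hzF)
  have hko : Odd k := Int.not_even_iff_odd.mp fun h =>
    hτz (apply_sqrt_of_even hA hℓ hℓ2 hk h hτ (hFfix hzF τ hτ))
  obtain ⟨a, b, ha, hb, hab⟩ := hn (z ^ 2 * (ℓ : QBar)) (mul_ne_zero (pow_ne_zero 2 hz) hℓ0)
  have hz2pos : 0 < A.valuation (z ^ 2) :=
    zero_lt_iff.mpr ((Valuation.ne_zero_iff _).mpr (pow_ne_zero 2 hz))
  have hlt : A.valuation (z ^ 2 - (a ^ 2 - w ^ 2 * b ^ 2)) < A.valuation (z ^ 2) := by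
    refine hab.trans_lt ?_
    rw [map_mul]
    exact mul_lt_of_lt_one_right hz2pos hvℓ
  have hN : A.valuation (a ^ 2 - w ^ 2 * b ^ 2) = A.valuation (z ^ 2) := by
    rw [show a ^ 2 - w ^ 2 * b ^ 2 = z ^ 2 + -(z ^ 2 - (a ^ 2 - w ^ 2 * b ^ 2)) by ring]
    exact Valuation.map_add_eq_of_lt_left _ (by rwa [Valuation.map_neg])
  have hmax : A.valuation (a ^ 2 - w ^ 2 * b ^ 2) = max (A.valuation a) (A.valuation b) ^ 2 := by
    rcases lt_trichotomy (A.valuation a) (A.valuation b) with hlt' | heq | hgt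
    · rw [max_eq_right hlt'.le, sub_eq_add_neg, Valuation.map_add_eq_of_lt_right _ ?_,
        Valuation.map_neg, map_mul, hw1, one_mul, map_pow]
      rw [Valuation.map_neg, map_mul, hw1, one_mul, map_pow, map_pow]
      exact pow_lt_pow_left₀ hlt' zero_le two_ne_zero
    · rcases eq_or_ne b 0 with rfl | hb0
      · rw [map_zero] at heq
        rw [(map_eq_zero _).mp heq]
        simp
      have hb' : A.valuation b ≠ 0 := (Valuation.ne_zero_iff _).mpr hb0
      set t := a / b with ht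
      have ht1 : A.valuation t = 1 := by rw [ht, map_div₀, heq, div_self hb']
      have e : a ^ 2 - w ^ 2 * b ^ 2 = (t - w) * (t + w) * b ^ 2 := by rw [ht]; field_simp; ring
      have hσt : σ (σ t) = t :=
        (IntermediateField.mem_fixingSubgroup_iff _ _).mp hsq t (div_mem ha hb)
      have htA := mem_of_valuation_eq_one ht1
      have hwA := mem_of_valuation_eq_one (valuation_eq_one_of_sq hw1)
      have hne : ∀ w' : QBar, σ (σ w') = -w' → w' ∈ A → A.valuation (t - w') = 1 := by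
        intro w' hσw' hw'A
        refine le_antisymm ((A.valuation_le_one_iff _).mpr (sub_mem htA hw'A)) (not_lt.mp fun h => ?_)
        have h' : A.valuation (t + w') < 1 := by
          have := EC.Multiplicative.valuation_map_eq hσA (σ (t - w'))
          rw [EC.Multiplicative.valuation_map_eq hσA (t - w'), map_sub, map_sub, hσt, hσw',
            sub_neg_eq_add] at this
          rwa [this]
        have h2 : t + t ∈ A.nonunits := by
          rw [show t + t = (t - w') + (t + w') by ring]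
          exact Arith.nonunits_add ((ValuationSubring.mem_nonunits_iff A).mpr h)
            ((ValuationSubring.mem_nonunits_iff A).mpr h')
        rw [← two_mul, ValuationSubring.mem_nonunits_iff, map_mul, ht1, mul_one] at h2
        have h4 := valuation_four_of_odd hA hℓ hℓ2
        rw [show (4 : QBar) = 2 * 2 by norm_num, map_mul] at h4
        exact absurd h4 (mul_lt_one_of_nonneg_of_lt_one_left zero_le h2 h2.le).ne
      rw [e, map_mul, map_mul, hne w hwσ hwA, ← sub_neg_eq_add,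
        hne (-w) (by rw [map_neg, map_neg, hwσ]) (neg_mem hwA), heq, max_self, map_pow, one_mul,
        one_mul]
    · rw [max_eq_left hgt.le, sub_eq_add_neg, Valuation.map_add_eq_of_lt_left _ ?_, map_pow]
      rw [Valuation.map_neg, map_mul, hw1, one_mul, map_pow, map_pow]
      exact pow_lt_pow_left₀ hgt zero_le two_ne_zero
  obtain ⟨m, hm⟩ : ∃ m : ℤ, max (A.valuation a) (A.valuation b) = A.valuation (ℓ : QBar) ^ m := by
    have hM : max (A.valuation a) (A.valuation b) ≠ 0 := fun h0 => by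
      rw [h0, hN, zero_pow two_ne_zero] at hmax
      exact hz2pos.ne' hmax
    rcases max_choice (A.valuation a) (A.valuation b) with h | h <;> rw [h] at hM ⊢
    · exact valuation_eq_zpow_of_fixed hA hℓ ((Valuation.ne_zero_iff _).mp hM) (hFfix ha)
    · exact valuation_eq_zpow_of_fixed hA hℓ ((Valuation.ne_zero_iff _).mp hM) (hFfix hb)
  rw [hN, hk, hm, ← zpow_natCast, ← zpow_mul] at hmax
  have hinj := zpow_right_injective₀ (zero_lt_iff.mpr ((Valuation.ne_zero_iff _).mpr hℓ0)) hvℓ.ne hmax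
  rw [hinj] at hko
  exact Int.not_odd_iff_even.mpr ⟨m, by push_cast; ring⟩ hko

end Fermat.Agent.TwoAdic.Selmer
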