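import Fermat.Agent.TwoAdic.Galois.Defs
import Fermat.Agent.TwoAdic.Selmer.Approx

/-!
# The peu ramifié kernel moves the square roots of twice a unit

By compactness it is enough to move such a root by an inertia element fixing finitely many square
roots of units, which is an induction.
-/

set_option autoImplicit false
set_option linter.style.haveILetI false

noncomputable section

namespace Fermat.Agent.TwoAdic.Selmer

open scoped Pointwise
open Arith (QBar GQ)

variable {A : ValuationSubring QBar}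

/-- A condition on the value at one element is closed. -/
theorem isClosed_setOf_apply_mem (x : QBar) (S : Set QBar) :
    IsClosed {τ : GQ | τ x ∈ S} := by
  haveI : FiniteDimensional ℚ (IntermediateField.adjoin ℚ {x}) :=
    IntermediateField.adjoin.finiteDimensional (Algebra.IsIntegral.isIntegral x)
  rw [← isOpen_compl_iff, isOpen_iff_mem_nhds]
  intro τ hτ
  have ho : IsOpen ((fun g : GQ => τ⁻¹ * g) ⁻¹'
      ((IntermediateField.adjoin ℚ {x}).fixingSubgroup : Set GQ)) :=
    (IntermediateField.fixingSubgroup_isOpen _).preimage (continuous_const.mul continuous_id)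
  refine Filter.mem_of_superset (ho.mem_nhds (by simp)) fun g hg => ?_
  have h := (IntermediateField.mem_fixingSubgroup_iff _ _).mp (show τ⁻¹ * g ∈ _ from hg) x
    (IntermediateField.mem_adjoin_simple_self ℚ x)
  have hgx : g x = τ x := by
    conv_rhs => rw [← h]
    rw [← AlgEquiv.mul_apply, mul_inv_cancel_left]
  show g x ∉ S
  rw [hgx]
  exact hτ

theorem isClosed_inertia (hA : A.LiesOverPrime 2) :
    IsClosed (A.inertiaSubgroupIn ℚ : Set GQ) := by
  have e : (A.inertiaSubgroupIn ℚ : Set GQ) =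
      ⋂ x : {x : QBar // IsIntegral ℤ x},
        {τ : GQ | τ (x : QBar) ∈ {y | y - (x : QBar) ∈ A.nonunits}} := by
    ext τ
    simp only [SetLike.mem_coe, Arith.mem_inertia_iff hA Nat.prime_two, Set.mem_iInter,
      Set.mem_setOf_eq, Subtype.forall]
  rw [e]
  exact isClosed_iInter fun x => isClosed_setOf_apply_mem _ _

theorem apply_eq_or_eq_neg {τ : GQ} {y : QBar} (h : τ (y ^ 2) = y ^ 2) : τ y = y ∨ τ y = -y := by
  rw [map_pow] at h
  exact sq_eq_sq_iff_eq_or_eq_neg.mp h

/-- Inertia fixing finitely many square roots of units moves a root of twice a unit. -/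
theorem exists_inertia_moving (hA : A.LiesOverPrime 2) (S : Finset QBar)
    (hS : ∀ y ∈ S, A.valuation y = 1 ∧ ∀ τ ∈ A.inertiaSubgroupIn ℚ, τ (y ^ 2) = y ^ 2) :
    ∀ r : QBar, (∀ τ ∈ A.inertiaSubgroupIn ℚ, τ (r ^ 2) = r ^ 2) →
      A.valuation (r ^ 2) = A.valuation (2 : QBar) →
        ∃ τ ∈ A.inertiaSubgroupIn ℚ, (∀ y ∈ S, τ y = y) ∧ τ r ≠ r := by
  classical
  induction S using Finset.induction with
  | empty =>
    intro r _ hv
    by_contra hcon
    push Not at hcon
    have hr0 : r ≠ 0 := fun h0 => by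
      rw [h0, zero_pow two_ne_zero, map_zero] at hv
      exact (Valuation.ne_zero_iff _).mpr (two_ne_zero (α := QBar)) hv.symm
    obtain ⟨m, hm⟩ := valuation_eq_zpow_of_fixed hA Nat.prime_two hr0
      fun τ hτ => hcon τ hτ (by simp)
    rw [map_pow, hm, Nat.cast_ofNat, ← zpow_natCast, ← zpow_mul] at hv
    conv_rhs at hv => rw [← zpow_one (A.valuation (2 : QBar))]
    have h2 : A.valuation (2 : QBar) < 1 := by
      have h := (ValuationSubring.mem_nonunits_iff A).mp hA
      rwa [Nat.cast_ofNat] at h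
    have := zpow_right_injective₀ (zero_lt_iff.mpr ((Valuation.ne_zero_iff _).mpr two_ne_zero))
      h2.ne hv
    push_cast at this
    omega
  | insert y S hy ih =>
    intro r hr hv
    obtain ⟨hy1, hy2⟩ := hS y (Finset.mem_insert_self y S)
    have ih' := ih fun x hx => hS x (Finset.mem_insert_of_mem hx)
    obtain ⟨τ, hτ, hτS, hτr⟩ := ih' r hr hv
    simp only [Finset.forall_mem_insert]
    rcases apply_eq_or_eq_neg (hy2 τ hτ) with h | h
    · exact ⟨τ, hτ, ⟨h, hτS⟩, hτr⟩
    obtain ⟨τ', hτ', hτ'S, hτ'ry⟩ := ih' (r * y)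
      (fun t ht => by rw [mul_pow, map_mul, hr t ht, hy2 t ht])
      (by rw [mul_pow, map_mul, hv, map_pow, hy1, one_pow, mul_one])
    rcases apply_eq_or_eq_neg (hy2 τ' hτ') with h' | h'
    · exact ⟨τ', hτ', ⟨h', hτ'S⟩, fun e => hτ'ry (by rw [map_mul, e, h'])⟩
    have hr' : τ' r = r :=
      (apply_eq_or_eq_neg (hr τ' hτ')).resolve_right fun e => hτ'ry (by
        rw [map_mul, e, h', neg_mul_neg])
    refine ⟨τ * τ', mul_mem hτ hτ', ⟨?_, fun x hx => ?_⟩, ?_⟩
    · rw [AlgEquiv.mul_apply, h', map_neg, h, neg_neg]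
    · rw [AlgEquiv.mul_apply, hτ'S x hx, hτS x hx]
    · rw [AlgEquiv.mul_apply, hr']
      exact hτr

/-- A square root of twice a unit of the inertia field is moved by the peu ramifié kernel. -/
theorem exists_peuKernel_moving (hA : A.LiesOverPrime 2) {r : QBar}
    (hr : ∀ τ ∈ A.inertiaSubgroupIn ℚ, τ (r ^ 2) = r ^ 2)
    (hv : A.valuation (r ^ 2) = A.valuation (2 : QBar)) :
    ∃ τ, IsPeuKernel A τ ∧ τ r ≠ r := by
  classical
  let Y := {y : QBar // A.valuation y = 1 ∧ ∀ τ ∈ A.inertiaSubgroupIn ℚ, τ (y ^ 2) = y ^ 2}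
  let K : Set GQ := (A.inertiaSubgroupIn ℚ : Set GQ) ∩ {τ | τ r ∈ ({r}ᶜ : Set QBar)}
  have hK : IsCompact K :=
    ((isClosed_inertia hA).inter (isClosed_setOf_apply_mem r _)).isCompact
  obtain ⟨τ, ⟨hτI, hτr⟩, hτY⟩ := hK.inter_iInter_nonempty
    (fun y : Y => {τ : GQ | τ (y : QBar) ∈ ({(y : QBar)} : Set QBar)})
    (fun y => isClosed_setOf_apply_mem _ _) fun u => by
      obtain ⟨τ, hτI, hτS, hτr⟩ := exists_inertia_moving hA (u.image Subtype.val)
        (fun y hy => by
          obtain ⟨y', -, rfl⟩ := Finset.mem_image.mp hy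
          exact y'.2) r hr hv
      exact ⟨τ, ⟨hτI, hτr⟩, Set.mem_iInter₂.mpr fun y hy =>
        hτS _ (Finset.mem_image_of_mem Subtype.val hy)⟩
  exact ⟨τ, ⟨hτI, fun y hy hy' => Set.mem_iInter.mp hτY ⟨y, hy, hy'⟩⟩, hτr⟩

end Fermat.Agent.TwoAdic.Selmer
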