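import Fermat.Agent.TwoAdic.Selmer.Approx
import Fermat.Agent.EC.Multiplicative.Galois

/-!
# Residues and values of a number field at a place

Lifts of residues fixed by the square of Frobenius, rational residues, and the values of elements
fixed by a subgroup of index two of inertia.
-/

set_option autoImplicit false
set_option linter.style.haveILetI false

noncomputable section

namespace Fermat.Agent.TwoAdic.Selmer

open scoped Pointwise
open Polynomial
open Arith (QBar GQ)

variable {ℓ : ℕ} {A : ValuationSubring QBar} {F : IntermediateField ℚ QBar}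

theorem sub_mem_nonunits_iff {x y : A} :
    (x : QBar) - y ∈ A.nonunits ↔ IsLocalRing.residue A x = IsLocalRing.residue A y :=
  Arith.residue_eq_iff.symm

theorem exists_int_residue (hA : A.LiesOverPrime ℓ) (hℓ : ℓ.Prime) {x : QBar} (hx : x ∈ A)
    (h : x ^ ℓ - x ∈ A.nonunits) : ∃ m : ℤ, x - m ∈ A.nonunits := by
  classical
  haveI := Arith.residueField_charP hA hℓ
  haveI := Fact.mk hℓ
  let f : ZMod ℓ →+* IsLocalRing.ResidueField A := ZMod.castHom dvd_rfl _
  have hx' : IsLocalRing.residue A ⟨x, hx⟩ ^ ℓ = IsLocalRing.residue A ⟨x, hx⟩ := by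
    rw [← map_pow]
    exact Arith.residue_eq_iff.mpr h
  have := mem_image_of_pow_eq hℓ.one_lt (S := Finset.univ.image f)
    (fun y hy => by
      obtain ⟨r, -, rfl⟩ := Finset.mem_image.mp hy
      rw [← map_pow, ZMod.pow_card])
    (by rw [Finset.card_image_of_injective _ f.injective, Finset.card_univ, ZMod.card]) hx'
  obtain ⟨r, -, hr⟩ := Finset.mem_image.mp this
  obtain ⟨m, rfl⟩ := ZMod.intCast_surjective r
  refine ⟨m, (sub_mem_nonunits_iff (x := ⟨x, hx⟩) (y := ⟨m, intCast_mem A m⟩)).mpr ?_⟩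
  rw [← hr, map_intCast]
  exact (map_intCast (IsLocalRing.residue A) m).symm.trans (congrArg _ (Subtype.ext (by simp)))

/-- When all residues of the field are rational and the field is fixed by inertia, its integral
elements are approximated by integers. -/
theorem exists_int_approx (hA : A.LiesOverPrime ℓ) (hℓ : ℓ.Prime)
    (hI : ∀ τ ∈ A.inertiaSubgroupIn ℚ, τ ∈ F.fixingSubgroup)
    (hres : ∀ y ∈ F, y ∈ A → y ^ ℓ - y ∈ A.nonunits) (n : ℕ) {x : QBar} (hxF : x ∈ F)
    (hxA : x ∈ A) : ∃ m : ℤ, A.valuation (x - m) ≤ A.valuation ((ℓ : QBar) ^ n) := by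
  induction n generalizing x with
  | zero =>
    exact ⟨0, by simpa using (A.valuation_le_one_iff x).mpr hxA⟩
  | succ n ih =>
    obtain ⟨m, hm⟩ := exists_int_residue hA hℓ hxA (hres x hxF hxA)
    have hfix : ∀ τ ∈ A.inertiaSubgroupIn ℚ, τ (x - m) = x - m := fun τ hτ =>
      (IntermediateField.mem_fixingSubgroup_iff _ _).mp (hI τ hτ) _
        (sub_mem hxF (intCast_mem F m))
    have hle := valuation_le_of_fixed hA hℓ hm hfix
    have hℓ0 : (ℓ : QBar) ≠ 0 := Nat.cast_ne_zero.mpr hℓ.ne_zero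
    obtain ⟨m', hm'⟩ := ih (x := (x - m) / ℓ) (div_mem (sub_mem hxF (intCast_mem F m))
      (natCast_mem F ℓ)) ((A.valuation_le_one_iff _).mp (by
        rw [map_div₀, div_le_one₀ (zero_lt_iff.mpr ((Valuation.ne_zero_iff _).mpr hℓ0))]
        exact hle))
    refine ⟨m + ℓ * m', ?_⟩
    rw [show x - ((m + ℓ * m' : ℤ) : QBar) = (ℓ : QBar) * ((x - m) / ℓ - m') by
      push_cast; field_simp; ring, map_mul, pow_succ', map_mul]
    exact mul_le_mul_right hm' _

/-- A Frobenius moving the field gives an element of residue degree at least two. -/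
theorem exists_residue_moved (hA : A.LiesOverPrime ℓ) (hℓ : ℓ.Prime) {σ : GQ}
    (hσ : A.IsFrobeniusAt σ ℓ) (hI : ∀ τ ∈ A.inertiaSubgroupIn ℚ, τ ∈ F.fixingSubgroup)
    (hmove : σ ∉ F.fixingSubgroup) : ∃ x ∈ F, x ∈ A ∧ x ^ ℓ - x ∉ A.nonunits := by
  by_contra hcon
  simp only [not_exists, not_and, not_not] at hcon
  have hAσ := (Arith.isFrobeniusAt_iff_forall_mem.mp hσ).1
  have key : ∀ x ∈ F, x ∈ A → σ x = x := fun x hxF hxA => by
    rw [← sub_eq_zero]
    refine eq_zero_of_forall_valuation_le hA hℓ fun n => ?_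
    obtain ⟨m, hm⟩ := exists_int_approx hA hℓ hI hcon n hxF hxA
    have e : σ x - x = σ (x - m) - (x - m) := by rw [map_sub, map_intCast]; ring
    rw [e]
    refine (Valuation.map_sub _ _ _).trans (max_le ?_ hm)
    obtain h0 | hne := eq_or_ne (x - (m : QBar)) 0
    · rw [h0, map_zero, map_zero]; exact zero_le
    have hℓn : ((ℓ : QBar) ^ n) ≠ 0 := pow_ne_zero _ (Nat.cast_ne_zero.mpr hℓ.ne_zero)
    have hq : A.valuation (σ ((x - m) / (ℓ : QBar) ^ n)) ≤ 1 :=
      (A.valuation_le_one_iff _).mpr (Arith.map_mem_of_mem_decomposition hAσ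
        ((A.valuation_le_one_iff _).mp (by
          rw [map_div₀, div_le_one₀ (zero_lt_iff.mpr ((Valuation.ne_zero_iff _).mpr hℓn))]
          exact hm)))
    rwa [map_div₀, map_pow, map_natCast, map_div₀,
      div_le_one₀ (zero_lt_iff.mpr ((Valuation.ne_zero_iff _).mpr hℓn))] at hq
  refine hmove ((IntermediateField.mem_fixingSubgroup_iff _ _).mpr fun x hxF => ?_)
  rcases A.mem_or_inv_mem x with hx | hx
  · exact key x hxF hx
  · have := key _ (inv_mem hxF) hx
    rw [map_inv₀] at this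
    exact inv_injective this

/-- Residues fixed by the square of Frobenius lift into a field with residue degree at least two. -/
theorem exists_residue_lift (hA : A.LiesOverPrime ℓ) (hℓ : ℓ.Prime) {x : QBar} (hxF : x ∈ F)
    (hxA : x ∈ A) (hx1 : x ^ ℓ - x ∉ A.nonunits) (hx2 : x ^ (ℓ * ℓ) - x ∈ A.nonunits) {z : QBar}
    (hzA : z ∈ A) (hz : z ^ (ℓ * ℓ) - z ∈ A.nonunits) :
    ∃ s ∈ F, s ∈ A ∧ z - s ∈ A.nonunits := by
  classical
  haveI := Arith.residueField_charP hA hℓ
  haveI := Fact.mk hℓ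
  letI := ZMod.algebra (IsLocalRing.ResidueField A) ℓ
  let xp : intPart A F := ⟨x, hxF, hxA⟩
  set xr := IsLocalRing.residue A ⟨x, hxA⟩ with hxr
  have hxr2 : xr ^ (ℓ * ℓ) = xr := by rw [hxr, ← map_pow]; exact Arith.residue_eq_iff.mpr hx2
  have hxr1 : xr ^ ℓ ≠ xr := by
    rw [hxr, ← map_pow]; exact fun h => hx1 (Arith.residue_eq_iff.mp h)
  have hint : IsIntegral (ZMod ℓ) xr := ⟨X ^ (ℓ * ℓ) - X, monic_X_pow_sub (by
    rw [degree_X]; exact_mod_cast Nat.one_lt_mul_iff.mpr ⟨hℓ.pos, hℓ.pos, Or.inl hℓ.one_lt⟩),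
    by simp [hxr2]⟩
  let K := Algebra.adjoin (ZMod ℓ) ({xr} : Set (IsLocalRing.ResidueField A))
  haveI : Module.Finite (ZMod ℓ) K := Module.Finite.iff_fg.mpr hint.fg_adjoin_singleton
  haveI : Finite K := Module.finite_of_finite (ZMod ℓ)
  haveI := Fintype.ofFinite K
  have hpow : ∀ y ∈ K, y ^ (ℓ * ℓ) = y := fun y hy => by
    refine Algebra.adjoin_induction (fun w hw => ?_) (fun r => ?_) (fun a b _ _ ha hb => ?_)
      (fun a b _ _ ha hb => ?_) hy
    · rw [Set.mem_singleton_iff.mp hw]; exact hxr2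
    · rw [← map_pow, pow_mul, ZMod.pow_card, ZMod.pow_card]
    · rw [pow_mul, add_pow_char, add_pow_char, ← pow_mul, ← pow_mul, ha, hb]
    · rw [mul_pow, ha, hb]
  have hcard : ℓ * ℓ ≤ Fintype.card K := by
    obtain ⟨d, hd⟩ : ∃ d, Fintype.card K = ℓ ^ d :=
      ⟨_, by rw [Module.card_eq_pow_finrank (K := ZMod ℓ) (V := K), ZMod.card]⟩
    rcases Nat.lt_or_ge d 2 with h | h
    · letI := Fintype.fieldOfDomain K
      exfalso
      have hxK : (⟨xr, Algebra.self_mem_adjoin_singleton _ _⟩ : K) ^ Fintype.card K =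
          ⟨xr, Algebra.self_mem_adjoin_singleton _ _⟩ := FiniteField.pow_card _
      have hd1 : d = 1 := by
        have := Fintype.one_lt_card (α := K)
        interval_cases d
        · simp [hd] at this
        · rfl
      rw [hd, hd1, pow_one] at hxK
      exact hxr1 (congrArg Subtype.val hxK)
    · rw [hd, ← sq]
      exact Nat.pow_le_pow_right hℓ.pos h
  let S : Finset (IsLocalRing.ResidueField A) := Finset.univ.image fun y : K => (y : _)
  have hzS : IsLocalRing.residue A ⟨z, hzA⟩ ∈ S := by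
    refine mem_image_of_pow_eq (Nat.one_lt_mul_iff.mpr ⟨hℓ.pos, hℓ.pos, Or.inl hℓ.one_lt⟩)
      (fun y hy => ?_) ?_ ?_
    · obtain ⟨w, -, rfl⟩ := Finset.mem_image.mp hy
      exact hpow _ w.2
    · rwa [Finset.card_image_of_injective _ Subtype.val_injective, Finset.card_univ]
    · rw [← map_pow]; exact Arith.residue_eq_iff.mpr hz
  obtain ⟨w, -, hw⟩ := Finset.mem_image.mp hzS
  obtain ⟨s, hs⟩ : (w : IsLocalRing.ResidueField A) ∈ (resPart A F).range := by
    refine Algebra.adjoin_induction (fun v hv => ?_) (fun r => ?_) (fun _ _ _ _ => add_mem)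
      (fun _ _ _ _ => mul_mem) w.2
    · rw [Set.mem_singleton_iff.mp hv]; exact ⟨xp, rfl⟩
    · obtain ⟨m, rfl⟩ := ZMod.intCast_surjective r
      rw [map_intCast]
      exact intCast_mem _ m
  refine ⟨s, (mem_intPart.mp s.2).1, (mem_intPart.mp s.2).2, ?_⟩
  rw [← neg_sub]
  exact Arith.nonunits_neg ((resPart_eq_iff hzA).mp (hs.trans hw))

/-- If inertia moves the field, the field has an element whose value is not a power of the
prime. -/
theorem exists_value_of_moved (hA : A.LiesOverPrime ℓ) (hℓ : ℓ.Prime) {τ : GQ}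
    (hτ : τ ∈ A.inertiaSubgroupIn ℚ) (hmove : τ ∉ F.fixingSubgroup) :
    ∃ x ∈ F, x ≠ 0 ∧ ∀ k : ℤ, A.valuation x ≠ A.valuation (ℓ : QBar) ^ k := by
  by_contra hcon
  simp only [not_exists, not_and, not_forall, not_not] at hcon
  obtain ⟨hτA, hτn⟩ := Arith.mem_inertia_iff_forall_mem.mp hτ
  have hℓ0 : (ℓ : QBar) ≠ 0 := Nat.cast_ne_zero.mpr hℓ.ne_zero
  have key : ∀ x ∈ F, x ∈ A → ∀ n : ℕ,
      A.valuation (τ x - x) ≤ A.valuation ((ℓ : QBar) ^ n) := by
    intro x hxF hxA n
    induction n generalizing x with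
    | zero =>
      rw [pow_zero, map_one]
      exact (A.valuation_le_one_iff _).mpr (Arith.mem_of_mem_nonunits (hτn x hxA))
    | succ n ih =>
      obtain ⟨d, hd, hxd⟩ := OrdinaryAtP.exists_frobenius_period hA hℓ
        (IsLocalRing.residue A ⟨x, hxA⟩)
      rw [← map_pow] at hxd
      have hy : x ^ ℓ ^ d - x ∈ A.nonunits := Arith.residue_eq_iff.mp hxd
      rcases eq_or_ne (x ^ ℓ ^ d - x) 0 with h0 | h0
      · have e : τ x - x = 0 := by
          have hroot := sub_eq_zero.mp h0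
          by_contra hne
          have hsum : τ x ^ ℓ ^ d - x ^ ℓ ^ d = τ x - x := by
            rw [← map_pow, hroot]
          rw [← geom_sum₂_mul] at hsum
          have hs1 := mul_eq_right₀ hne |>.mp hsum
          have hs0 : (∑ i ∈ Finset.range (ℓ ^ d), τ x ^ i * x ^ (ℓ ^ d - 1 - i)) ∈ A.nonunits :=
            geomSum_mem_nonunits hA hd hxA (hτn x hxA) (Arith.map_mem_of_mem_decomposition hτA hxA)
          rw [hs1] at hs0
          exact Arith.one_notMem_nonunits hs0
        rw [e, map_zero]; exact zero_le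
      obtain ⟨k, hk⟩ := hcon _ (sub_mem (pow_mem hxF _) hxF) h0
      have hk1 : 1 ≤ k := by
        by_contra hlt
        have := (ValuationSubring.mem_nonunits_iff A).mp hy
        rw [hk] at this
        exact absurd this (not_lt.mpr (one_le_zpow_of_nonpos₀
          (zero_lt_iff.mpr ((Valuation.ne_zero_iff _).mpr hℓ0))
          ((A.valuation_le_one_iff _).mpr (natCast_mem A ℓ)) (by omega)))
      have hle : A.valuation (x ^ ℓ ^ d - x) ≤ A.valuation (ℓ : QBar) := by
        rw [hk]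
        conv_rhs => rw [← zpow_one (A.valuation (ℓ : QBar))]
        exact zpow_le_zpow_right_of_le_one₀ (zero_lt_iff.mpr ((Valuation.ne_zero_iff _).mpr hℓ0))
          ((A.valuation_le_one_iff _).mpr (natCast_mem A ℓ)) hk1
      set x' := (x ^ ℓ ^ d - x) / (ℓ : QBar) with hx'
      have hx'A : x' ∈ A := (A.valuation_le_one_iff _).mp (by
        rw [hx', map_div₀, div_le_one₀ (zero_lt_iff.mpr ((Valuation.ne_zero_iff _).mpr hℓ0))]
        exact hle)
      have hrec := ih x' (div_mem (sub_mem (pow_mem hxF _) hxF) (natCast_mem F ℓ)) hx'A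
      have e : τ x - x = (τ x ^ ℓ ^ d - x ^ ℓ ^ d) - (ℓ : QBar) * (τ x' - x') := by
        rw [hx', map_div₀, map_sub, map_pow, map_natCast]; field_simp; ring
      rw [← geom_sum₂_mul] at e
      set G := ∑ i ∈ Finset.range (ℓ ^ d), τ x ^ i * x ^ (ℓ ^ d - 1 - i)
      have hG : A.valuation G < 1 := (ValuationSubring.mem_nonunits_iff A).mp
        (geomSum_mem_nonunits hA hd hxA (hτn x hxA) (Arith.map_mem_of_mem_decomposition hτA hxA))
      by_contra hlt
      rw [not_le] at hlt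
      have h1 : A.valuation (G * (τ x - x)) < A.valuation (τ x - x) := by
        rw [map_mul]
        exact mul_lt_of_lt_one_left (lt_of_le_of_lt zero_le hlt) hG
      have h2 : A.valuation ((ℓ : QBar) * (τ x' - x')) < A.valuation (τ x - x) := by
        refine lt_of_le_of_lt ?_ hlt
        rw [map_mul, pow_succ', map_mul]
        exact mul_le_mul_right hrec _
      exact absurd (congrArg A.valuation e) ((Valuation.map_sub _ _ _).trans_lt (max_lt h1 h2)).ne'
  refine hmove ((IntermediateField.mem_fixingSubgroup_iff _ _).mpr fun x hxF => ?_)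
  rcases A.mem_or_inv_mem x with hx | hx
  · exact sub_eq_zero.mp (eq_zero_of_forall_valuation_le hA hℓ (key x hxF hx))
  · have := sub_eq_zero.mp (eq_zero_of_forall_valuation_le hA hℓ (key _ (inv_mem hxF) hx))
    rw [map_inv₀] at this
    exact inv_injective this
where
  geomSum_mem_nonunits (hA : A.LiesOverPrime ℓ) {d : ℕ} (hd : 0 < d) {x : QBar} (hxA : x ∈ A)
      {w : QBar} (hw : w - x ∈ A.nonunits) (hwA : w ∈ A) :
      (∑ i ∈ Finset.range (ℓ ^ d), w ^ i * x ^ (ℓ ^ d - 1 - i)) ∈ A.nonunits := by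
    have hres : IsLocalRing.residue A ⟨w, hwA⟩ = IsLocalRing.residue A ⟨x, hxA⟩ :=
      Arith.residue_eq_iff.mpr hw
    have hℓres : (ℓ : IsLocalRing.ResidueField A) = 0 := by
      rw [← map_natCast (IsLocalRing.residue A), IsLocalRing.residue_eq_zero_iff,
        ← ValuationSubring.coe_mem_nonunits_iff]
      exact_mod_cast hA
    let s : A := ∑ i ∈ Finset.range (ℓ ^ d), ⟨w, hwA⟩ ^ i * ⟨x, hxA⟩ ^ (ℓ ^ d - 1 - i)
    have hs : IsLocalRing.residue A s = 0 := by
      simp only [s, map_sum, map_mul, map_pow, hres, ← pow_add]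
      rw [Finset.sum_congr rfl (g := fun _ => IsLocalRing.residue A ⟨x, hxA⟩ ^ (ℓ ^ d - 1))
        (fun i hi => congrArg _ (show i + (ℓ ^ d - 1 - i) = ℓ ^ d - 1 by
          rw [Finset.mem_range] at hi; omega))]
      rw [Finset.sum_const, Finset.card_range, nsmul_eq_mul, Nat.cast_pow, hℓres,
        zero_pow hd.ne', zero_mul]
    rw [IsLocalRing.residue_eq_zero_iff, ← ValuationSubring.coe_mem_nonunits_iff] at hs
    simpa [s] using hs

/-- The value of an element fixed by an index two subgroup of inertia is a value of the field. -/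
theorem exists_same_valuation (hA : A.LiesOverPrime ℓ) (hℓ : ℓ.Prime)
    (hidx : ∀ τ ∈ A.inertiaSubgroupIn ℚ, ∀ τ' ∈ A.inertiaSubgroupIn ℚ, τ ∉ F.fixingSubgroup →
      τ' ∉ F.fixingSubgroup → τ * τ' ∈ F.fixingSubgroup ∧ τ'⁻¹ * τ ∈ F.fixingSubgroup)
    {z : QBar} (hz : z ≠ 0)
    (hfix : ∀ τ ∈ A.inertiaSubgroupIn ℚ, τ ∈ F.fixingSubgroup → τ z = z) :
    ∃ c ∈ F, c ≠ 0 ∧ A.valuation z = A.valuation c := by
  have hℓ0 : (ℓ : QBar) ≠ 0 := Nat.cast_ne_zero.mpr hℓ.ne_zero
  by_cases hmove : ∀ τ ∈ A.inertiaSubgroupIn ℚ, τ ∈ F.fixingSubgroup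
  · obtain ⟨k, hk⟩ := valuation_eq_zpow_of_fixed hA hℓ hz fun τ hτ => hfix τ hτ (hmove τ hτ)
    exact ⟨(ℓ : QBar) ^ k, zpow_mem (natCast_mem F ℓ) k, zpow_ne_zero _ hℓ0,
      hk.trans (map_zpow₀ _ _ _).symm⟩
  simp only [not_forall] at hmove
  obtain ⟨τ, hτ, hτF⟩ := hmove
  have hval : ∀ w : QBar, A.valuation (τ w) = A.valuation w := fun w =>
    EC.Multiplicative.valuation_map_eq (Arith.mem_inertia_iff_forall_mem.mp hτ).1 w
  have hprod : ∀ w : QBar, w ≠ 0 → (∀ τ ∈ A.inertiaSubgroupIn ℚ, τ ∈ F.fixingSubgroup → τ w = w) →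
      ∃ k : ℤ, A.valuation w * A.valuation w = A.valuation (ℓ : QBar) ^ k := by
    intro w hw hwfix
    obtain ⟨k, hk⟩ := valuation_eq_zpow_of_fixed hA hℓ
      (mul_ne_zero hw ((map_ne_zero τ).mpr hw)) (x := w * τ w) fun τ' hτ' => by
        rw [map_mul]
        by_cases hτ'F : τ' ∈ F.fixingSubgroup
        · have hne : τ' * τ ∉ F.fixingSubgroup := fun h => hτF ((mul_mem_cancel_left hτ'F).mp h)
          have hm := (hidx (τ' * τ) (mul_mem hτ' hτ) τ hτ hne hτF).2
          rw [hwfix τ' hτ' hτ'F]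
          congr 1
          have e := hwfix _ (mul_mem (inv_mem hτ) (mul_mem hτ' hτ)) hm
          conv_rhs => rw [← e]
          rw [← AlgEquiv.mul_apply, ← AlgEquiv.mul_apply, mul_inv_cancel_left]
        · obtain ⟨h1, h2⟩ := hidx τ' hτ' τ hτ hτ'F hτF
          have e1 : τ' w = τ w := by
            conv_rhs => rw [← hwfix _ (mul_mem (inv_mem hτ) hτ') h2]
            rw [← AlgEquiv.mul_apply, mul_inv_cancel_left]
          rw [e1, ← AlgEquiv.mul_apply, hwfix _ (mul_mem hτ' hτ) h1, mul_comm]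
    rw [map_mul, hval] at hk
    exact ⟨k, hk⟩
  obtain ⟨x, hxF, hx0, hx⟩ := exists_value_of_moved hA hℓ hτ hτF
  obtain ⟨k, hk⟩ := hprod x hx0 fun τ' _ h => (IntermediateField.mem_fixingSubgroup_iff _ _).mp h x hxF
  obtain ⟨j, hj⟩ := hprod z hz hfix
  have hv0 : A.valuation (ℓ : QBar) ≠ 0 := (Valuation.ne_zero_iff _).mpr hℓ0
  have key : ∀ w c : QBar, A.valuation w * A.valuation w = A.valuation c * A.valuation c →
      A.valuation w = A.valuation c := fun w c h => by
    rw [← sq, ← sq] at h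
    exact (pow_left_inj₀ zero_le zero_le two_ne_zero).mp h
  have hkodd : Odd k := by
    rcases Int.even_or_odd k with ⟨m, hm⟩ | h
    · refine absurd (key x ((ℓ : QBar) ^ m) ?_) (by rw [map_zpow₀]; exact hx m)
      rw [hk, map_zpow₀, ← zpow_add₀ hv0, hm]
    · exact h
  rcases Int.even_or_odd j with ⟨m, hm⟩ | hjodd
  · refine ⟨(ℓ : QBar) ^ m, zpow_mem (natCast_mem F ℓ) m, zpow_ne_zero _ hℓ0, key _ _ ?_⟩
    rw [hj, map_zpow₀, ← zpow_add₀ hv0, hm]
  · obtain ⟨m, hm⟩ : ∃ m, j = k + (m + m) := by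
      obtain ⟨a, ha⟩ := hkodd; obtain ⟨b, hb⟩ := hjodd; exact ⟨b - a, by omega⟩
    refine ⟨x * (ℓ : QBar) ^ m, mul_mem hxF (zpow_mem (natCast_mem F ℓ) m),
      mul_ne_zero hx0 (zpow_ne_zero _ hℓ0), key _ _ ?_⟩
    rw [hj, map_mul, map_zpow₀, mul_mul_mul_comm, hk, ← zpow_add₀ hv0, ← zpow_add₀ hv0, hm]

end Fermat.Agent.TwoAdic.Selmer
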