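import Fermat.Agent.TwoAdic.Selmer.Peu
import Fermat.Agent.TwoAdic.Selmer.Odd

/-!
# Quadratic norms at two

The field is unramified at the place. A square root fixed by the peu ramifié kernel whose product
with its conjugate by Frobenius is fixed by inertia gives, up to squares, a unit congruent to a
square or to the opposite of a square modulo four; two such units have trivial norm symbol.
-/

set_option autoImplicit false
set_option linter.style.haveILetI false

noncomputable section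

namespace Fermat.Agent.TwoAdic.Selmer

open scoped Pointwise
open Arith (QBar GQ)

variable {A : ValuationSubring QBar} {F : IntermediateField ℚ QBar} {σ : GQ}

theorem valuation_two_lt_one (hA : A.LiesOverPrime 2) : A.valuation (2 : QBar) < 1 := by
  have h := (ValuationSubring.mem_nonunits_iff A).mp hA
  rwa [Nat.cast_ofNat] at h

theorem valuation_two_pos : 0 < A.valuation (2 : QBar) :=
  zero_lt_iff.mpr ((Valuation.ne_zero_iff _).mpr two_ne_zero)

theorem valuation_four_eq : A.valuation (4 : QBar) = A.valuation (2 : QBar) * A.valuation 2 := by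
  rw [← map_mul]; norm_num

theorem two_mem_nonunits (hA : A.LiesOverPrime 2) : (2 : QBar) ∈ A.nonunits := by
  rw [ValuationSubring.mem_nonunits_iff]; exact valuation_two_lt_one hA

theorem valuation_le_two_of_fixed (hA : A.LiesOverPrime 2) {x : QBar} (hx : x ∈ A.nonunits)
    (hfix : ∀ τ ∈ A.inertiaSubgroupIn ℚ, τ x = x) : A.valuation x ≤ A.valuation (2 : QBar) := by
  have h := valuation_le_of_fixed hA Nat.prime_two hx hfix
  rwa [Nat.cast_ofNat] at h

theorem div_two_mem {x : QBar} (h : A.valuation x ≤ A.valuation (2 : QBar)) : x / 2 ∈ A :=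
  (A.valuation_le_one_iff _).mp (by rw [map_div₀, div_le_one₀ valuation_two_pos]; exact h)

/-- Squares of fixed units are one modulo four. -/
theorem valuation_sq_sub_one_le (hA : A.LiesOverPrime 2) {r : QBar}
    (hfix : ∀ τ ∈ A.inertiaSubgroupIn ℚ, τ r = r) (hr : A.valuation r = 1)
    (h : r ^ 2 - 1 ∈ A.nonunits) : A.valuation (r ^ 2 - 1) ≤ A.valuation (4 : QBar) := by
  have hsq : (r - 1) ^ 2 ∈ A.nonunits := by
    rw [show (r - 1) ^ 2 = (r ^ 2 - 1) - 2 * (r - 1) by ring]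
    exact Arith.nonunits_sub h (Arith.nonunits_mul_right (two_mem_nonunits hA)
      (sub_mem (mem_of_valuation_eq_one hr) (one_mem A)))
  rw [ValuationSubring.mem_nonunits_iff, map_pow, pow_lt_one_iff two_ne_zero] at hsq
  have h1 := valuation_le_two_of_fixed hA ((ValuationSubring.mem_nonunits_iff A).mpr hsq)
    fun τ hτ => by rw [map_sub, hfix τ hτ, map_one]
  have h2 : A.valuation (r + 1) ≤ A.valuation (2 : QBar) := by
    rw [show r + 1 = (r - 1) + 2 by ring]
    exact (Valuation.map_add _ _ _).trans (max_le h1 le_rfl)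
  rw [show r ^ 2 - 1 = (r - 1) * (r + 1) by ring, map_mul, valuation_four_eq]
  exact mul_le_mul' h1 h2

theorem residue_two (hA : A.LiesOverPrime 2) (h2 : (2 : QBar) ∈ A) :
    IsLocalRing.residue A ⟨2, h2⟩ = 0 := by
  rw [IsLocalRing.residue_eq_zero_iff, ← ValuationSubring.coe_mem_nonunits_iff]
  exact two_mem_nonunits hA

theorem charP_two (hA : A.LiesOverPrime 2) : CharP (IsLocalRing.ResidueField A) 2 :=
  Arith.residueField_charP hA Nat.prime_two

/-- Units congruent to squares modulo four are norms from every unit. -/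
theorem norm_two_pos (hA : A.LiesOverPrime 2)
    (hres : ∀ x ∈ F, x ∈ A → x ^ 4 - x ∈ A.nonunits) {α β s : QBar} (hα : α ∈ F) (hβ : β ∈ F)
    (hs : s ∈ F) (hβ1 : A.valuation β = 1) (hs1 : A.valuation s = 1)
    (h : A.valuation (α - s ^ 2) ≤ A.valuation (4 : QBar)) : IsNormAt F β α A := by
  haveI := charP_two hA
  have hs0 := ne_zero_of_valuation_eq_one hs1
  set α' := α / s ^ 2 with hα'
  have hα'F : α' ∈ F := div_mem hα (pow_mem hs 2)
  have h' : A.valuation (α' - 1) ≤ A.valuation (4 : QBar) := by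
    rwa [hα', div_sub_one (pow_ne_zero 2 hs0), map_div₀, map_pow, hs1, one_pow, div_one]
  set f := (α' - 1) / 4 with hf
  have hfF : f ∈ F := div_mem (sub_mem hα'F (one_mem F)) (ofNat_mem F 4)
  have hfA : f ∈ A := (A.valuation_le_one_iff _).mp (by
    rw [hf, map_div₀, div_le_one₀ valuation_four_pos]; exact h')
  have hβA := mem_of_valuation_eq_one hβ1
  set d := f ^ 2 * β ^ 4 with hd
  have hkey : f + β * d ^ 2 ∈ A.nonunits := by
    let fA : A := ⟨f, hfA⟩
    let bA : A := ⟨β, hβA⟩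
    have hF4 : IsLocalRing.residue A fA ^ 4 = IsLocalRing.residue A fA := by
      rw [← map_pow]; exact Arith.residue_eq_iff.mpr (hres f hfF hfA)
    have hB4 : IsLocalRing.residue A bA ^ 4 = IsLocalRing.residue A bA := by
      rw [← map_pow]; exact Arith.residue_eq_iff.mpr (hres β hβ hβA)
    have hB0 : IsLocalRing.residue A bA ≠ 0 := fun h0 => by
      rw [IsLocalRing.residue_eq_zero_iff, ← ValuationSubring.coe_mem_nonunits_iff,
        ValuationSubring.mem_nonunits_iff] at h0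
      exact h0.ne hβ1
    have hB3 : IsLocalRing.residue A bA ^ 3 = 1 := mul_left_cancel₀ hB0 (by
      rw [mul_one, ← pow_succ']; exact hB4)
    have e : IsLocalRing.residue A (fA + bA * (fA ^ 2 * bA ^ 4) ^ 2) = 0 := by
      rw [map_add, map_mul, map_pow, map_mul, map_pow, map_pow, mul_pow, ← pow_mul, ← pow_mul,
        hF4, mul_left_comm, ← pow_succ', show 4 * 2 + 1 = 3 * 3 from rfl, pow_mul, hB3, one_pow,
        mul_one, CharTwo.add_self_eq_zero]
    rw [IsLocalRing.residue_eq_zero_iff, ← ValuationSubring.coe_mem_nonunits_iff] at e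
    exact e
  have hα'1 : A.valuation α' = 1 := by
    rw [show α' = 1 + (α' - 1) by ring, Valuation.map_add_eq_of_lt_left _ (by
      rw [map_one]
      exact h'.trans_lt (by
        rw [valuation_four_eq]
        exact mul_lt_one_of_nonneg_of_lt_one_left zero_le (valuation_two_lt_one hA)
          valuation_two_le_one)), map_one]
  have hn : IsNormAt F β α' A :=
    norm_of_congr hA Nat.prime_two (a := 1) (b := 2 * d) hα'F hβ (one_mem F)
      (mul_mem (ofNat_mem F 2) (mul_mem (pow_mem hfF 2) (pow_mem hβ 4))) (by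
        rw [show α' - (1 ^ 2 - β * (2 * d) ^ 2) = 4 * (f + β * d ^ 2) by rw [hf]; ring, map_mul,
          map_mul, hα'1]
        exact mul_lt_mul_of_pos_left ((ValuationSubring.mem_nonunits_iff A).mp hkey)
          valuation_four_pos)
  have := hn.mul_sq hs hs0
  rwa [hα', div_mul_cancel₀ _ (pow_ne_zero 2 hs0)] at this

/-- Units are norms when the second unit is a square modulo four. -/
theorem norm_two_left (hA : A.LiesOverPrime 2)
    (hI : ∀ τ ∈ A.inertiaSubgroupIn ℚ, τ ∈ F.fixingSubgroup)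
    (hres : ∀ x ∈ F, x ∈ A → x ^ 4 - x ∈ A.nonunits) {α β t : QBar} (hα : α ∈ F) (hβ : β ∈ F)
    (ht : t ∈ F) (hα1 : A.valuation α = 1) (ht1 : A.valuation t = 1)
    (h : A.valuation (β - t ^ 2) ≤ A.valuation (4 : QBar)) : IsNormAt F β α A := by
  have ht0 := ne_zero_of_valuation_eq_one ht1
  have hα0 := ne_zero_of_valuation_eq_one hα1
  set β' := β / t ^ 2 with hβ'
  have hβ'F : β' ∈ F := div_mem hβ (pow_mem ht 2)
  set g := (β' - 1) / 4 with hg
  have hgF : g ∈ F := div_mem (sub_mem hβ'F (one_mem F)) (ofNat_mem F 4)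
  have hgA : g ∈ A := (A.valuation_le_one_iff _).mp (by
    rw [hg, map_div₀, div_le_one₀ valuation_four_pos, hβ', div_sub_one (pow_ne_zero 2 ht0),
      map_div₀, map_pow, ht1, one_pow, div_one]
    exact h)
  have hs0 : α ^ 2 ≠ 0 := pow_ne_zero 2 hα0
  set α' := α / (α ^ 2) ^ 2 with hα'
  have hα'F : α' ∈ F := div_mem hα (pow_mem (pow_mem hα 2) 2)
  have hα'1 : A.valuation α' = 1 := by
    rw [hα', map_div₀, map_pow, map_pow, hα1, one_pow, one_pow, div_one]
  have hn' : α' - 1 ∈ A.nonunits := by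
    rw [hα', div_sub_one (pow_ne_zero 2 hs0), ValuationSubring.mem_nonunits_iff, map_div₀,
      ← pow_mul, map_pow, hα1, one_pow, div_one, ← Valuation.map_neg, neg_sub]
    exact (ValuationSubring.mem_nonunits_iff A).mp (hres α hα (mem_of_valuation_eq_one hα1))
  have h2 := valuation_le_two_of_fixed hA hn' fun τ hτ =>
    (IntermediateField.mem_fixingSubgroup_iff _ _).mp (hI τ hτ) _ (sub_mem hα'F (one_mem F))
  set b₀ := (α' - 1) / 2 with hb₀
  have hb₀A : b₀ ∈ A := div_two_mem h2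
  have hb₀F : b₀ ∈ F := div_mem (sub_mem hα'F (one_mem F)) (ofNat_mem F 2)
  set b := b₀ + 2 * g * b₀ ^ 2 with hb
  have hbF : b ∈ F := add_mem hb₀F (mul_mem (mul_mem (ofNat_mem F 2) hgF) (pow_mem hb₀F 2))
  have hbA : b ∈ A := add_mem hb₀A (mul_mem (mul_mem (ofNat_mem A 2) hgA) (pow_mem hb₀A 2))
  have hsmall : g * (b - b₀) * (b + b₀) ∈ A.nonunits := by
    refine Arith.nonunits_mul_right (Arith.nonunits_mul_left hgA ?_) (add_mem hbA hb₀A)
    rw [hb, add_sub_cancel_left, mul_assoc]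
    exact Arith.nonunits_mul_right (two_mem_nonunits hA) (mul_mem hgA (pow_mem hb₀A 2))
  have hn : IsNormAt F β' α' A :=
    norm_of_congr hA Nat.prime_two (a := b + 1) (b := b) hα'F hβ'F (add_mem hbF (one_mem F)) hbF
      (by
        rw [show α' - ((b + 1) ^ 2 - β' * b ^ 2) = 4 * (g * (b - b₀) * (b + b₀)) by
          rw [hb, hb₀, hg]; ring, map_mul _ (4 : QBar), map_mul _ (4 : QBar) α', hα'1]
        exact mul_lt_mul_of_pos_left ((ValuationSubring.mem_nonunits_iff A).mp hsmall)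
          valuation_four_pos)
  have := (hn.mul_sq_left ht ht0).mul_sq (pow_mem hα 2) hs0
  rwa [hα', hβ', div_mul_cancel₀ _ (pow_ne_zero 2 ht0),
    div_mul_cancel₀ _ (pow_ne_zero 2 hs0)] at this

/-- Fixed elements are approximated by the field when it has residue degree two. -/
theorem exists_approx_fixed (hA : A.LiesOverPrime 2) (hσ : A.IsFrobeniusAt σ 2)
    (hI : ∀ τ ∈ A.inertiaSubgroupIn ℚ, τ ∈ F.fixingSubgroup) (hmove : σ ∉ F.fixingSubgroup)
    (hsq : σ * σ ∈ F.fixingSubgroup) (n : ℕ) {y : QBar} (hy : y ∈ A)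
    (hyI : ∀ τ ∈ A.inertiaSubgroupIn ℚ, τ y = y) (hyσ : σ (σ y) = y) :
    ∃ m ∈ F, A.valuation (y - m) ≤ A.valuation ((2 : QBar) ^ n) := by
  induction n generalizing y with
  | zero => exact ⟨0, zero_mem F, by simpa using (A.valuation_le_one_iff y).mpr hy⟩
  | succ n ih =>
    obtain ⟨s, hsF, -, hs⟩ := exists_lift_fixed hA Nat.prime_two hσ hI hmove hsq hy
      (residue_fixed_sq hσ hy hyσ)
    have hsfix : ∀ τ ∈ A.inertiaSubgroupIn ℚ, τ s = s := fun τ hτ =>
      (IntermediateField.mem_fixingSubgroup_iff _ _).mp (hI τ hτ) _ hsF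
    have hsσ : σ (σ s) = s := (IntermediateField.mem_fixingSubgroup_iff _ _).mp hsq s hsF
    have hle := valuation_le_two_of_fixed hA hs fun τ hτ => by
      rw [map_sub, hyI τ hτ, hsfix τ hτ]
    obtain ⟨m, hmF, hm⟩ := ih (y := (y - s) / 2) (div_two_mem hle)
      (fun τ hτ => by rw [map_div₀, map_sub, hyI τ hτ, hsfix τ hτ, map_ofNat])
      (by rw [map_div₀, map_sub, map_div₀, map_sub, hyσ, hsσ, map_ofNat, map_ofNat])
    refine ⟨s + 2 * m, add_mem hsF (mul_mem (ofNat_mem F 2) hmF), ?_⟩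
    rw [show y - (s + 2 * m) = 2 * ((y - s) / 2 - m) by ring, map_mul, pow_succ', map_mul]
    exact mul_le_mul_right hm _

/-- An element of the field approximating a primitive cube root of unity. -/
theorem exists_cube_root_approx (hA : A.LiesOverPrime 2) (hσ : A.IsFrobeniusAt σ 2)
    (hI : ∀ τ ∈ A.inertiaSubgroupIn ℚ, τ ∈ F.fixingSubgroup) (hmove : σ ∉ F.fixingSubgroup)
    (hsq : σ * σ ∈ F.fixingSubgroup) :
    ∃ r ∈ F, r ∈ A ∧ r ^ 2 + r + 1 ∈ A.nonunits ∧
      A.valuation (r ^ 2 + r ^ 4 + 1) < A.valuation (4 : QBar) := by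
  obtain ⟨s, hs⟩ := IsAlgClosed.exists_pow_nat_eq (-3 : QBar) two_pos
  set w := (-1 + s) / 2 with hwdef
  have hw : w ^ 2 + w + 1 = 0 := by rw [hwdef]; linear_combination hs / 4
  have hw3 : w ^ 3 = 1 := by linear_combination (w - 1) * hw
  have hw1 : A.valuation w = 1 := by
    have h := congrArg A.valuation hw3
    rw [map_pow, map_one] at h
    exact (pow_eq_one_iff.mp h).resolve_right (by norm_num)
  have hwA := mem_of_valuation_eq_one hw1
  have hroots : ∀ τ : GQ, τ w = w ∨ τ w = -1 - w := fun τ => by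
    have h : (τ w - w) * (τ w - (-1 - w)) = 0 := by
      have h' := congrArg τ hw
      rw [map_add, map_add, map_pow, map_one, map_zero] at h'
      linear_combination h' - hw
    rcases mul_eq_zero.mp h with h | h
    · exact Or.inl (sub_eq_zero.mp h)
    · exact Or.inr (sub_eq_zero.mp h)
  have hwI : ∀ τ ∈ A.inertiaSubgroupIn ℚ, τ w = w := by
    intro τ hτ
    refine (hroots τ).resolve_right fun h => ?_
    have hn := (Arith.mem_inertia_iff_forall_mem.mp hτ).2 w hwA
    rw [h, show -1 - w - w = -(2 * w + 1) by ring] at hn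
    have h3 := Arith.nonunits_mul_right (Arith.nonunits_neg hn)
      (show -(-(2 * w + 1)) ∈ A from neg_mem (neg_mem (add_mem (mul_mem (ofNat_mem A 2) hwA)
        (one_mem A))))
    rw [neg_neg, show (2 * w + 1) * (2 * w + 1) = ((-3 : ℤ) : QBar) by
      push_cast; linear_combination 4 * hw,
      Arith.intCast_mem_nonunits_iff hA Nat.prime_two] at h3
    norm_num at h3
  have hwσ : σ (σ w) = w := by
    rcases hroots σ with h | h
    · rw [h, h]
    · rw [h, map_sub, map_neg, map_one, h]; ring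
  obtain ⟨r, hrF, hr⟩ := exists_approx_fixed hA hσ hI hmove hsq 3 hwA hwI hwσ
  have hlt : A.valuation (w - r) < A.valuation (4 : QBar) := by
    refine hr.trans_lt ?_
    rw [show (2 : QBar) ^ 3 = 4 * 2 by norm_num, map_mul]
    exact mul_lt_of_lt_one_right valuation_four_pos (valuation_two_lt_one hA)
  have hlt1 : w - r ∈ A.nonunits :=
    (ValuationSubring.mem_nonunits_iff A).mpr (hlt.trans_le valuation_four_le_one)
  have hrA : r ∈ A := by
    have := sub_mem hwA (Arith.mem_of_mem_nonunits hlt1)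
    rwa [sub_sub_cancel] at this
  refine ⟨r, hrF, hrA, ?_, ?_⟩
  · rw [show r ^ 2 + r + 1 = (w - r) * (-(r + w) - 1) by linear_combination hw]
    exact Arith.nonunits_mul_right hlt1 (sub_mem (neg_mem (add_mem hrA hwA)) (one_mem A))
  · rw [show r ^ 2 + r ^ 4 + 1 = (w - r) * (-((r + w) * (1 + r ^ 2 + w ^ 2))) by
      linear_combination (w ^ 2 - w + 1) * hw, map_mul]
    refine (mul_le_of_le_one_right' ?_).trans_lt hlt
    exact (A.valuation_le_one_iff _).mpr (neg_mem (mul_mem (add_mem hrA hwA)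
      (add_mem (add_mem (one_mem A) (pow_mem hrA 2)) (pow_mem hwA 2))))

/-- Two units opposite to squares modulo four. -/
theorem norm_two_neg (hA : A.LiesOverPrime 2) (hσ : A.IsFrobeniusAt σ 2)
    (hI : ∀ τ ∈ A.inertiaSubgroupIn ℚ, τ ∈ F.fixingSubgroup) (hmove : σ ∉ F.fixingSubgroup)
    (hsq : σ * σ ∈ F.fixingSubgroup) (hres : ∀ x ∈ F, x ∈ A → x ^ 4 - x ∈ A.nonunits)
    {α β s t : QBar} (hα : α ∈ F) (hβ : β ∈ F) (hs : s ∈ F) (ht : t ∈ F)
    (hs1 : A.valuation s = 1) (ht1 : A.valuation t = 1)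
    (hαs : A.valuation (α + s ^ 2) ≤ A.valuation (4 : QBar))
    (hβt : A.valuation (β + t ^ 2) ≤ A.valuation (4 : QBar)) : IsNormAt F β α A := by
  haveI := charP_two hA
  have hs0 := ne_zero_of_valuation_eq_one hs1
  have ht0 := ne_zero_of_valuation_eq_one ht1
  have hquot : ∀ {x u : QBar}, x ∈ F → u ∈ F → A.valuation u = 1 →
      A.valuation (x + u ^ 2) ≤ A.valuation (4 : QBar) →
        (-(x / u ^ 2) - 1) / 4 ∈ F ∧ (-(x / u ^ 2) - 1) / 4 ∈ A := fun {x u} hx hu hu1 h =>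
    ⟨div_mem (sub_mem (neg_mem (div_mem hx (pow_mem hu 2))) (one_mem F)) (ofNat_mem F 4),
      (A.valuation_le_one_iff _).mp (by
        rw [map_div₀, div_le_one₀ valuation_four_pos,
          show -(x / u ^ 2) - 1 = -((x + u ^ 2) / u ^ 2) by
            have hu0 := ne_zero_of_valuation_eq_one hu1
            field_simp; ring,
          Valuation.map_neg, map_div₀, map_pow, hu1, one_pow, div_one]
        exact h)⟩
  obtain ⟨hfF, hfA⟩ := hquot hα hs hs1 hαs
  obtain ⟨heF, heA⟩ := hquot hβ ht ht1 hβt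
  set f := (-(α / s ^ 2) - 1) / 4 with hf
  set e := (-(β / t ^ 2) - 1) / 4 with he
  obtain ⟨r, hrF, hrA, hr1, hr4⟩ := exists_cube_root_approx hA hσ hI hmove hsq
  let k := IsLocalRing.ResidueField A
  set R : k := IsLocalRing.residue A ⟨r, hrA⟩ with hRdef
  have hR : R ^ 2 + R + 1 = 0 := by
    rw [hRdef, ← map_pow, ← map_add, ← map_one (IsLocalRing.residue A), ← map_add,
      IsLocalRing.residue_eq_zero_iff, ← ValuationSubring.coe_mem_nonunits_iff]
    exact hr1
  set T : k := IsLocalRing.residue A (⟨e, heA⟩ * ⟨r, hrA⟩ + ⟨f, hfA⟩) with hTdef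
  have hT : T ^ 4 = T := by
    rw [hTdef, ← map_pow]
    exact Arith.residue_eq_iff.mpr (hres _ (add_mem (mul_mem heF hrF) hfF)
      (add_mem (mul_mem heA hrA) hfA))
  have h20 : (2 : k) = 0 := CharTwo.two_eq_zero
  obtain ⟨d₁, d₂, hd⟩ : ∃ d₁ d₂ : Bool, T + (if d₁ then R + 1 else 0) +
      (if d₂ then R ^ 2 + 1 else 0) = 0 := by
    have hprod : T * (T + (R + 1)) * (T + (R ^ 2 + 1)) * (T + (R + 1) + (R ^ 2 + 1)) = 0 := by
      linear_combination hT + (T ^ 3 + T ^ 2 + T) * h20 + (2 * T * (T ^ 2 + T) +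
        (R ^ 2 + R + 1) * T ^ 2 + T + R * (T ^ 2 + (R ^ 2 + R + 2) * T)) * hR
    rcases mul_eq_zero.mp hprod with h | h
    · rcases mul_eq_zero.mp h with h | h
      · rcases mul_eq_zero.mp h with h | h
        · exact ⟨false, false, by simp [h]⟩
        · exact ⟨true, false, by simpa using h⟩
      · exact ⟨false, true, by simpa using h⟩
    · exact ⟨true, true, by simpa using h⟩
  set D₁ : QBar := if d₁ then 1 else 0 with hD₁
  set D₂ : QBar := if d₂ then 1 else 0 with hD₂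
  have hD₁F : D₁ ∈ F := by rw [hD₁]; split_ifs <;> simp
  have hD₂F : D₂ ∈ F := by rw [hD₂]; split_ifs <;> simp
  have hD₁A : D₁ ∈ A := by rw [hD₁]; split_ifs <;> simp
  have hD₂A : D₂ ∈ A := by rw [hD₂]; split_ifs <;> simp
  set b := r ^ 2 + 2 * D₂ with hb
  have hbA : b ∈ A := add_mem (pow_mem hrA 2) (mul_mem (ofNat_mem A 2) hD₂A)
  have hkey : D₁ * r + D₁ ^ 2 + (D₂ * r ^ 2 + D₂ ^ 2) + e * b ^ 2 + f ∈ A.nonunits := by
    let x : A := ⟨D₁, hD₁A⟩ * ⟨r, hrA⟩ + ⟨D₁, hD₁A⟩ ^ 2 +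
      (⟨D₂, hD₂A⟩ * ⟨r, hrA⟩ ^ 2 + ⟨D₂, hD₂A⟩ ^ 2) + ⟨e, heA⟩ * ⟨b, hbA⟩ ^ 2 + ⟨f, hfA⟩
    have hbres : IsLocalRing.residue A ⟨b, hbA⟩ = R ^ 2 := by
      rw [hRdef, ← map_pow]
      refine Arith.residue_eq_iff.mpr ?_
      show b - r ^ 2 ∈ A.nonunits
      rw [hb, add_sub_cancel_left]
      exact Arith.nonunits_mul_right (two_mem_nonunits hA) hD₂A
    have hx : IsLocalRing.residue A x = 0 := by
      have h1 : IsLocalRing.residue A ⟨D₁, hD₁A⟩ = if d₁ then 1 else 0 := by
        rcases d₁ with - | - <;> simp only [hD₁, Bool.false_eq_true, if_false, if_true]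
        exacts [map_zero _, map_one _]
      have h2 : IsLocalRing.residue A ⟨D₂, hD₂A⟩ = if d₂ then 1 else 0 := by
        rcases d₂ with - | - <;> simp only [hD₂, Bool.false_eq_true, if_false, if_true]
        exacts [map_zero _, map_one _]
      simp only [x, map_add, map_mul, map_pow, h1, h2, hbres, ← hRdef]
      rw [hTdef, map_add, map_mul, ← hRdef] at hd
      rcases d₁ with - | - <;> rcases d₂ with - | - <;>
        simp only [Bool.false_eq_true, if_false, if_true] at hd ⊢ <;>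
        linear_combination hd + IsLocalRing.residue A ⟨e, heA⟩ * R * (R - 1) * hR
    rw [IsLocalRing.residue_eq_zero_iff, ← ValuationSubring.coe_mem_nonunits_iff] at hx
    exact hx
  set α' := α / s ^ 2 with hα'
  have hα'1 : A.valuation α' = 1 := by
    have h : A.valuation α = 1 := by
      rw [show α = -s ^ 2 + (α + s ^ 2) by ring, Valuation.map_add_eq_of_lt_left _ ?_,
        Valuation.map_neg, map_pow, hs1, one_pow]
      rw [Valuation.map_neg, map_pow, hs1, one_pow]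
      exact hαs.trans_lt (by
        rw [valuation_four_eq]
        exact mul_lt_one_of_nonneg_of_lt_one_left zero_le (valuation_two_lt_one hA)
          valuation_two_le_one)
    rw [hα', map_div₀, map_pow, h, hs1, one_pow, div_one]
  have hn : IsNormAt F (β / t ^ 2) α' A :=
    norm_of_congr hA Nat.prime_two (a := r + 2 * D₁) (b := b) (div_mem hα (pow_mem hs 2))
      (div_mem hβ (pow_mem ht 2)) (add_mem hrF (mul_mem (ofNat_mem F 2) hD₁F))
      (add_mem (pow_mem hrF 2) (mul_mem (ofNat_mem F 2) hD₂F)) (by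
        rw [show α' - ((r + 2 * D₁) ^ 2 - β / t ^ 2 * b ^ 2) =
          -((r ^ 2 + r ^ 4 + 1) + 4 * (D₁ * r + D₁ ^ 2 + (D₂ * r ^ 2 + D₂ ^ 2) + e * b ^ 2 + f)) by
            rw [he, hf, hα', hb]; ring, Valuation.map_neg, map_mul, hα'1, mul_one]
        refine (Valuation.map_add _ _ _).trans_lt (max_lt hr4 ?_)
        rw [map_mul]
        exact mul_lt_of_lt_one_right valuation_four_pos
          ((ValuationSubring.mem_nonunits_iff A).mp hkey))
  have := (hn.mul_sq_left ht ht0).mul_sq hs hs0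
  rwa [hα', div_mul_cancel₀ _ (pow_ne_zero 2 ht0), div_mul_cancel₀ _ (pow_ne_zero 2 hs0)] at this

/-- A square root with the local properties of a Selmer class at two, scaled to a unit. -/
theorem exists_unit_class (hA : A.LiesOverPrime 2) (hσ : A.IsFrobeniusAt σ 2)
    (hI : ∀ τ ∈ A.inertiaSubgroupIn ℚ, τ ∈ F.fixingSubgroup)
    (hres : ∀ x ∈ F, x ∈ A → x ^ 4 - x ∈ A.nonunits) {z : QBar} (hz : z ≠ 0) (hzF : z ^ 2 ∈ F)
    (hzfix : σ ∈ F.fixingSubgroup → ∀ τ ∈ A.inertiaSubgroupIn ℚ, τ z = z)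
    (hpeu : ∀ τ, IsPeuKernel A τ → τ z = z)
    (hnorm : ∀ τ ∈ A.inertiaSubgroupIn ℚ, τ (z * σ z) = z * σ z) :
    ∃ c ∈ F, c ≠ 0 ∧ A.valuation (z ^ 2 / c ^ 2) = 1 ∧ ∃ s ∈ F, A.valuation s = 1 ∧
      (A.valuation (z ^ 2 / c ^ 2 - s ^ 2) ≤ A.valuation (4 : QBar) ∨
        (σ ∉ F.fixingSubgroup ∧
          A.valuation (z ^ 2 / c ^ 2 + s ^ 2) ≤ A.valuation (4 : QBar))) := by
  haveI := charP_two hA
  have hv2 : A.valuation (2 : QBar) ≠ 0 := valuation_two_pos.ne'
  have hFfix : ∀ {x : QBar}, x ∈ F → ∀ τ ∈ A.inertiaSubgroupIn ℚ, τ x = x :=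
    fun hx τ hτ => (IntermediateField.mem_fixingSubgroup_iff _ _).mp (hI _ hτ) _ hx
  obtain ⟨k, hk⟩ := valuation_eq_zpow_of_fixed hA Nat.prime_two (pow_ne_zero 2 hz) (hFfix hzF)
  rw [Nat.cast_ofNat] at hk
  obtain ⟨m, hm | hm⟩ : ∃ m : ℤ, k = m + m ∨ k = m + m + 1 :=
    ⟨k / 2, by omega⟩
  swap
  · exfalso
    obtain ⟨τ, hτ, hτr⟩ := exists_peuKernel_moving hA (r := z / (2 : QBar) ^ m)
      (fun τ hτ => by
        rw [div_pow, map_div₀, hFfix hzF τ hτ, map_pow, map_zpow₀, map_ofNat])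
      (by
        rw [div_pow, map_div₀, map_pow _ ((2 : QBar) ^ m), map_zpow₀, hk, hm, ← zpow_natCast,
          ← zpow_mul, zpow_add_one₀ hv2, mul_comm m, Nat.cast_ofNat, two_mul,
          mul_div_cancel_left₀ _ (zpow_ne_zero _ hv2)])
    exact hτr (by rw [map_div₀, map_zpow₀, map_ofNat, hpeu τ hτ])
  have hc0 : ((2 : QBar) ^ m) ≠ 0 := zpow_ne_zero _ two_ne_zero
  refine ⟨(2 : QBar) ^ m, zpow_mem (ofNat_mem F 2) m, hc0, ?_⟩
  set u := z / (2 : QBar) ^ m with hu
  rw [← div_pow, ← hu]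
  have huF : u ^ 2 ∈ F := by
    rw [hu, div_pow]; exact div_mem hzF (pow_mem (zpow_mem (ofNat_mem F 2) m) 2)
  have hu2 : A.valuation (u ^ 2) = 1 := by
    rw [hu, div_pow, map_div₀, map_pow _ ((2 : QBar) ^ m), map_zpow₀, hk, hm, ← zpow_natCast,
      ← zpow_mul, mul_comm m, Nat.cast_ofNat, two_mul, div_self (zpow_ne_zero _ hv2)]
  refine ⟨hu2, (u ^ 2) ^ 2, pow_mem huF 2, by rw [map_pow, hu2, one_pow], ?_⟩
  set a := u ^ 2 with ha
  have ha0 := ne_zero_of_valuation_eq_one hu2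
  set r := u / a ^ 2 with hr
  have hr1 : A.valuation r = 1 := by
    rw [hr, map_div₀, map_pow, hu2, one_pow, div_one]
    exact valuation_eq_one_of_sq hu2
  have hr2 : r ^ 2 = a / (a ^ 2) ^ 2 := by rw [hr, div_pow]
  have hsub : r ^ 2 - 1 ∈ A.nonunits := by
    rw [hr2, div_sub_one (pow_ne_zero 2 (pow_ne_zero 2 ha0)), ValuationSubring.mem_nonunits_iff,
      map_div₀, ← pow_mul, map_pow, hu2, one_pow, div_one, ← Valuation.map_neg, neg_sub]
    exact (ValuationSubring.mem_nonunits_iff A).mp (hres a huF (mem_of_valuation_eq_one hu2))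
  have hend : ∀ (ζ : QBar), A.valuation (r ^ 2 - ζ) ≤ A.valuation (4 : QBar) →
      A.valuation (a - ζ * (a ^ 2) ^ 2) ≤ A.valuation (4 : QBar) := fun ζ h => by
    rw [show a - ζ * (a ^ 2) ^ 2 = (r ^ 2 - ζ) * (a ^ 2) ^ 2 by rw [hr2]; field_simp, map_mul,
      map_pow, map_pow, hu2, one_pow, one_pow, mul_one]
    exact h
  by_cases hσF : σ ∈ F.fixingSubgroup
  · left
    have h := hend 1 (valuation_sq_sub_one_le hA (fun τ hτ => by
      rw [hr, map_div₀, hu, map_div₀, map_zpow₀, map_ofNat, hzfix hσF τ hτ,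
        map_pow, hFfix huF τ hτ]) hr1 hsub)
    rwa [one_mul] at h
  obtain ⟨hσA, hfr⟩ := Arith.isFrobeniusAt_iff_forall_mem.mp hσ
  have hfixN : ∀ τ ∈ A.inertiaSubgroupIn ℚ, τ (r * σ r) = r * σ r := by
    intro τ hτ
    have hn : σ⁻¹ * τ * σ ∈ A.inertiaSubgroupIn ℚ := by
      have h := (Arith.mem_inertia_smul_iff (g := σ) (A := A) (σ := σ⁻¹ * τ * σ))
      rw [hσA, show σ * (σ⁻¹ * τ * σ) * σ⁻¹ = τ by group] at h
      exact h.mp hτ
    have hσa : τ (σ a) = σ a := by
      conv_rhs => rw [← hFfix huF _ hn]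
      simp only [AlgEquiv.mul_apply, AlgEquiv.aut_inv, AlgEquiv.apply_symm_apply]
    have hrr : r * σ r = z * σ z / ((2 : QBar) ^ m * (2 : QBar) ^ m * (a ^ 2 * (σ a) ^ 2)) := by
      rw [hr, map_div₀ σ, map_pow σ a, show σ u = σ z / (2 : QBar) ^ m by
        rw [hu, map_div₀, map_zpow₀, map_ofNat], hu]
      field_simp
    rw [hrr, map_div₀ τ, hnorm τ hτ, map_mul τ _ (a ^ 2 * (σ a) ^ 2), map_mul τ (a ^ 2),
      map_mul τ ((2 : QBar) ^ m), map_zpow₀, map_ofNat, map_pow τ a, map_pow τ (σ a), hσa,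
      hFfix huF τ hτ]
  set e := (r ^ 2 - 1) / 2 with he
  have hr2F : r ^ 2 ∈ F := by rw [hr2]; exact div_mem huF (pow_mem (pow_mem huF 2) 2)
  have heF : e ∈ F := div_mem (sub_mem hr2F (one_mem F)) (ofNat_mem F 2)
  have heA : e ∈ A := div_two_mem (valuation_le_two_of_fixed hA hsub (hFfix (sub_mem hr2F
    (one_mem F))))
  have hσeA : σ e ∈ A := Arith.map_mem_of_mem_decomposition hσA heA
  have hexp : (r * σ r) ^ 2 - 1 = 2 * (e + σ e + 2 * (e * σ e)) := by
    have hσe : σ e = ((σ r) ^ 2 - 1) / 2 := by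
      rw [he, map_div₀ σ, map_sub σ, map_pow σ, map_one, map_ofNat]
    rw [hσe, he]; ring
  have h4 := valuation_sq_sub_one_le hA hfixN
    (by rw [map_mul, EC.Multiplicative.valuation_map_eq hσA, hr1, one_mul])
    (by
      rw [hexp]
      exact Arith.nonunits_mul_right (two_mem_nonunits hA)
        (add_mem (add_mem heA hσeA) (mul_mem (ofNat_mem A 2) (mul_mem heA hσeA))))
  rw [hexp, map_mul, valuation_four_eq] at h4
  have hsum : e + σ e + 2 * (e * σ e) ∈ A.nonunits := (ValuationSubring.mem_nonunits_iff A).mpr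
    ((le_of_mul_le_mul_left h4 valuation_two_pos).trans_lt (valuation_two_lt_one hA))
  have hee : e * (e + 1) ∈ A.nonunits := by
    rw [show e * (e + 1) = (e + σ e + 2 * (e * σ e)) - 2 * (e * σ e) - (σ e - e ^ 2) by ring]
    exact Arith.nonunits_sub (Arith.nonunits_sub hsum
      (Arith.nonunits_mul_right (two_mem_nonunits hA) (mul_mem heA hσeA))) (hfr e heA)
  rw [ValuationSubring.mem_nonunits_iff, map_mul] at hee
  rcases lt_or_ge (A.valuation e) 1 with hlt | hge
  · left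
    have h := valuation_le_two_of_fixed hA ((ValuationSubring.mem_nonunits_iff A).mpr hlt)
      (hFfix heF)
    have := hend 1 (by
      rw [show r ^ 2 - 1 = 2 * e by rw [he]; ring, map_mul, valuation_four_eq]
      exact mul_le_mul_right h _)
    rwa [one_mul] at this
  · have he1 : A.valuation e = 1 := le_antisymm ((A.valuation_le_one_iff e).mpr heA) hge
    rw [he1, one_mul] at hee
    have h := valuation_le_two_of_fixed hA ((ValuationSubring.mem_nonunits_iff A).mpr hee)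
      (hFfix (add_mem heF (one_mem F)))
    refine Or.inr ⟨hσF, ?_⟩
    have := hend (-1) (by
      rw [show r ^ 2 - -1 = 2 * (e + 1) by rw [he]; ring, map_mul, valuation_four_eq]
      exact mul_le_mul_right h _)
    rwa [neg_one_mul, sub_neg_eq_add] at this

/-- The place over two. -/
theorem isNormAt_two (hA : A.LiesOverPrime 2) (hσ : A.IsFrobeniusAt σ 2)
    (hI : ∀ τ ∈ A.inertiaSubgroupIn ℚ, τ ∈ F.fixingSubgroup) (hsq : σ * σ ∈ F.fixingSubgroup)
    {z w : QBar} (hz : z ≠ 0) (hw : w ≠ 0) (hzF : z ^ 2 ∈ F) (hwF : w ^ 2 ∈ F)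
    (hzfix : σ ∈ F.fixingSubgroup → ∀ τ ∈ A.inertiaSubgroupIn ℚ, τ z = z)
    (hwfix : σ ∈ F.fixingSubgroup → ∀ τ ∈ A.inertiaSubgroupIn ℚ, τ w = w)
    (hzpeu : ∀ τ, IsPeuKernel A τ → τ z = z) (hwpeu : ∀ τ, IsPeuKernel A τ → τ w = w)
    (hznorm : ∀ τ ∈ A.inertiaSubgroupIn ℚ, τ (z * σ z) = z * σ z)
    (hwnorm : ∀ τ ∈ A.inertiaSubgroupIn ℚ, τ (w * σ w) = w * σ w) :
    IsNormAt F (w ^ 2) (z ^ 2) A := by
  have hres : ∀ x ∈ F, x ∈ A → x ^ 4 - x ∈ A.nonunits := fun x hxF hxA =>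
    residue_fixed_sq hσ hxA ((IntermediateField.mem_fixingSubgroup_iff _ _).mp hsq x hxF)
  obtain ⟨c, hcF, hc0, hc1, s, hsF, hs1, hs⟩ :=
    exists_unit_class hA hσ hI hres hz hzF hzfix hzpeu hznorm
  obtain ⟨d, hdF, hd0, hd1, t, htF, ht1, ht⟩ :=
    exists_unit_class hA hσ hI hres hw hwF hwfix hwpeu hwnorm
  have hα := div_mem hzF (pow_mem hcF 2)
  have hβ := div_mem hwF (pow_mem hdF 2)
  have hn : IsNormAt F (w ^ 2 / d ^ 2) (z ^ 2 / c ^ 2) A := by
    rcases hs with hs | ⟨hmove, hs⟩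
    · exact norm_two_pos hA hres hα hβ hsF hd1 hs1 hs
    rcases ht with ht | ⟨-, ht⟩
    · exact norm_two_left hA hI hres hα hβ htF hc1 ht1 ht
    · exact norm_two_neg hA hσ hI hmove hsq hres hα hβ hsF htF hs1 ht1 hs ht
  have := (hn.mul_sq_left hdF hd0).mul_sq hcF hc0
  rwa [div_mul_cancel₀ _ (pow_ne_zero 2 hd0), div_mul_cancel₀ _ (pow_ne_zero 2 hc0)] at this

end Fermat.Agent.TwoAdic.Selmer
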